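import Fermat.Agent.GlobalCFT.KumH

/-!
# The locally trivial part of `H²(U, μ_p)`, and the numerical input (E)
-/

set_option autoImplicit false
set_option linter.style.haveILetI false

namespace Fermat.Agent.GlobalCFT

open Fermat.Agent.Coh Fermat.Agent.GCFT NumberField IsDedekindDomain Fermat.Agent.PT
  Fermat.Agent.GalD Fermat.Agent.LocalCFT ExtCitation

/-- The field of algebraic numbers. -/
local notation "Qb" => AlgebraicClosure ℚ
/-- The absolute Galois group. -/
local notation "GQ" => (AlgebraicClosure ℚ ≃ₐ[ℚ] AlgebraicClosure ℚ)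

variable {S : Finset Nat.Primes} {U : Subgroup GQ}
variable {p : ℕ} [hp : Fact p.Prime] (hpS : pPrime p ∈ S)

/-- the relation between locally trivial classes and divisors -/
def SRel (f : U × U → ZMod p) (D₀ : IS S) : Prop :=
  ∃ (g : U → KS S) (h : KS S) (D : IS S), (D : AA).1 = 0 ∧ ((famS S).res U).Sm1 g ∧
    (∀ u v : U, jG hpS (f (u, v)) = repK S u (g v) - g (u * v) + g u) ∧
    (∀ u : U, p • g u = repK S u h - h) ∧
    (∀ u : U, dk S (g u) = repI S u D - D) ∧ D₀ = dk S h - p • D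

variable {hpS}

lemma SRel.sub {f f' : U × U → ZMod p} {x x' : IS S} (H : SRel hpS f x) (H' : SRel hpS f' x') :
    SRel hpS (f - f') (x - x') := by
  obtain ⟨g, h, D, h0, h1, h2, h3, h4, h5⟩ := H
  obtain ⟨g', h', D', h0', h1', h2', h3', h4', h5'⟩ := H'
  refine ⟨g - g', h - h', D - D', ?_, h1.post₂ h1' (· - ·), fun u v => ?_, fun u => ?_,
    fun u => ?_, ?_⟩
  · change (D : AA).1 - (D' : AA).1 = 0
    rw [h0, h0', sub_zero]
  · rw [Pi.sub_apply, map_sub, h2, h2', Pi.sub_apply, Pi.sub_apply, Pi.sub_apply, map_sub]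
    abel
  · rw [Pi.sub_apply, nsmul_sub, h3, h3', map_sub]
    abel
  · rw [Pi.sub_apply, map_sub, h4, h4', map_sub]
    abel
  · rw [h5, h5', map_sub, nsmul_sub]
    abel

/-- The kernel of the relation. -/
lemma SRel.eq_zero {f : ↥(Z2 ((famS S).res U) (rep (muQ p) U))} {x : IS S}
    (H : SRel hpS (f : U × U → ZMod p) x) {D' : IS S} {k : KS S} (hk : k ∈ FKU S U)
    (hx : x = p • D' + dk S k) : H2.mk ((famS S).res U) (rep (muQ p) U) f = 0 := by
  obtain ⟨g, h, D, h0, h1, h2, h3, h4, h5⟩ := H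
  have e1 : p • (D + D') = dk S (h - k) := by
    rw [hx] at h5
    have h6 : dk S h = p • D' + dk S k + p • D := by rw [h5]; abel
    rw [map_sub, h6, nsmul_add]
    abel
  obtain ⟨y, hy⟩ := exists_root_KS hp.out (pp := pPrime p) rfl hpS (h - k)
    (fun l hl g => dvd_of_dk e1 l hl g)
  have h6 : ∀ u : U, ∃ a, jG hpS a = g u - (repK S (u : GQ) y - y) := by
    intro u
    apply exists_jG
    rw [nsmul_sub, h3 u, nsmul_sub, ← map_nsmul, hy, map_sub, hk u u.2]
    abel
  choose c hc using h6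
  have hcsm : ((famS S).res U).Sm1 c := by
    obtain ⟨W, hW, hWy⟩ := smRep_smooth (famS S) repQb y
    have e2 : ((famS S).res U).Sm1 (fun u : U => repK S (u : GQ) y - y) := by
      refine ⟨_, ⟨W, hW, rfl⟩, fun g w hw => ?_⟩
      change repK S ((g : GQ) * (w : GQ)) y - y = _
      rw [map_mul, Module.End.mul_apply]
      congr 2
      exact hWy w hw
    have e3 : ((famS S).res U).Sm1 (fun u : U => g u - (repK S (u : GQ) y - y)) :=
      h1.post₂ e2 (· - ·)
    obtain ⟨V, hV, h7⟩ := e3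
    refine ⟨V, hV, fun u v hv => ?_⟩
    apply jG_injective hpS
    rw [hc, hc]
    exact h7 u v hv
  rw [H2.mk_eq_zero]
  refine ⟨c, hcsm, fun u v => ?_⟩
  apply jG_injective hpS
  have h8 : jG hpS (rep (muQ p) U u (c v)) = repK S (u : GQ) (jG hpS (c v)) :=
    jG_comm hpS (u : GQ) (c v)
  rw [h2 u v, map_add, map_sub, h8, hc, hc, hc, map_sub, map_sub]
  change _ = repK S (u : GQ) (g v) - (repK S (u : GQ) (repK S (v : GQ) y) - repK S (u : GQ) y) -
    (g (u * v) - (repK S ((u : GQ) * (v : GQ)) y - y)) + (g u - (repK S (u : GQ) y - y))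
  rw [map_mul, Module.End.mul_apply]
  abel

set_option maxHeartbeats 1000000 in
/-- The image in `H²(U, KS)` of a locally trivial class is killed by an integer prime to `p`. -/
lemma exists_cochain_aux (hp2 : p ≠ 2) (hU : (famS S).IsOpen U)
    (f : ↥(Z2 ((famS S).res U) (rep (muQ p) U)))
    (hf : H2.mk ((famS S).res U) (rep (muQ p) U) f ∈ sha2U p S U) :
    ∃ m : ℕ, m.Coprime p ∧ ∃ g : U → KS S, ((famS S).res U).Sm1 g ∧
      ∀ u v : U, repK S (u : GQ) (g v) - g (u * v) + g u =
        m • jG hpS ((f : U × U → ZMod p) (u, v)) := by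
  have hS : S.Nonempty := ⟨_, hpS⟩
  -- the idelic cocycle
  let F : ↥(Z2 ((famS S).res U) (rep (repI S) U)) :=
    ⟨fun q => iKS S (jG hpS ((f : U × U → ZMod p) q)),
      f.2.1.post (fun a => iKS S (jG hpS a)), fun g h j => by
      have h1 := f.2.2 g h j
      have h2 : rep (repI S) U g (iKS S (jG hpS ((f : U × U → ZMod p) (h, j)))) =
          iKS S (jG hpS (rep (muQ p) U g ((f : U × U → ZMod p) (h, j)))) := by
        change repI S (g : GQ) _ = iKS S (jG hpS (muQ p (g : GQ) _))
        rw [← iKS_comm, jG_comm]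
      rw [h2, ← map_add, ← map_add, ← map_add, ← map_add, h1]⟩
  obtain ⟨a, ha1, -, ha3⟩ := semilocal_two hU F (fun q => iKS_jG_snd hpS _) (by
    intro l hl x
    have h1 := mem_sha2U.mp hf l hl x
    rw [Mor.mapH2_mk, H2.mk_eq_zero] at h1
    obtain ⟨c, hc1, hc2⟩ := h1
    refine ⟨fun δ => jl p l (c δ), hc1.post _, fun δ ε => ?_⟩
    have h2 := hc2 δ ε
    rw [Mor.mapZ2_apply] at h2
    change muQ p x ((f : U × U → ZMod p) (stabHom l x U δ, stabHom l x U ε)) =
      rep (muL p l) (stabL l x U) δ (c ε) - c (δ * ε) + c δ at h2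
    change ((iKS S (jG hpS ((f : U × U → ZMod p) (stabHom l x U δ, stabHom l x U ε))) : IS S) : AA).1 l x = _
    rw [iKS_jG_fst hpS _ hl, h2, map_add, map_sub]
    congr 2
    exact jl_comm p l (δ : Gl l) _)
  -- the class in `H¹(U, CS)`
  let A : ↥(Z1 ((famS S).res U) (rep (repC S) U)) :=
    ⟨fun u => (Submodule.Quotient.mk (a u) : CS S), ha1.post _, fun g h => by
      have h1 := ha3 g h
      have h2 : a (g * h) = repI S (g : GQ) (a h) + a g - iKS S (jG hpS ((f : U × U → ZMod p) (g, h))) := by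
        change iKS S (jG hpS ((f : U × U → ZMod p) (g, h))) = repI S (g : GQ) (a h) - a (g * h) + a g
          at h1
        rw [h1]
        abel
      change (Submodule.Quotient.mk (a (g * h)) : CS S) =
        Submodule.Quotient.mk (repI S (g : GQ) (a h)) + Submodule.Quotient.mk (a g)
      rw [← Submodule.Quotient.mk_add, Submodule.Quotient.eq, h2]
      refine ⟨-(jG hpS ((f : U × U → ZMod p) (g, h))), ?_⟩
      rw [map_neg]
      abel⟩
  obtain ⟨m, hm, hmA⟩ := weak_h1_C (hp.out.odd_of_ne_two hp2) hS U hU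
    (H1.mk ((famS S).res U) (rep (repC S) U) A)
  rw [← map_nsmul, H1.mk_eq_zero] at hmA
  obtain ⟨c, hc⟩ := hmA
  obtain ⟨c', rfl⟩ := Submodule.Quotient.mk_surjective _ c
  have h1 : ∀ u : U, ∃ g : KS S, iKS S g = m • a u - (repI S (u : GQ) c' - c') := by
    intro u
    have h2 := hc u
    change (Submodule.Quotient.mk (m • a u) : CS S) =
      Submodule.Quotient.mk (repI S (u : GQ) c') - Submodule.Quotient.mk c' at h2
    rw [← Submodule.Quotient.mk_sub, Submodule.Quotient.eq] at h2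
    exact h2
  choose g' hg' using h1
  have hg'sm : ((famS S).res U).Sm1 g' := by
    obtain ⟨W, hW, hWy⟩ := repI_smooth S c'
    have e2 : ((famS S).res U).Sm1 (fun u : U => repI S (u : GQ) c' - c') := by
      refine ⟨_, ⟨W, hW, rfl⟩, fun g w hw => ?_⟩
      change repI S ((g : GQ) * (w : GQ)) c' - c' = _
      rw [map_mul, Module.End.mul_apply, hWy w hw]
    have e3 : ((famS S).res U).Sm1 (fun u : U => m • a u - (repI S (u : GQ) c' - c')) :=
      ha1.post₂ e2 (fun x y => m • x - y)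
    obtain ⟨V, hV, h7⟩ := e3
    refine ⟨V, hV, fun u v hv => ?_⟩
    apply iKS_injective hS
    rw [hg', hg']
    exact h7 u v hv
  refine ⟨m, hm, g', hg'sm, fun u v => ?_⟩
  apply iKS_injective hS
  have h1 := ha3 u v
  change iKS S (jG hpS ((f : U × U → ZMod p) (u, v))) = repI S (u : GQ) (a v) - a (u * v) + a u at h1
  rw [map_add, map_sub, iKS_comm, hg', hg', hg', map_nsmul, h1, map_sub, map_sub, map_nsmul,
    nsmul_add, nsmul_sub]
  change m • repI S (u : GQ) (a v) - (repI S (u : GQ) (repI S (v : GQ) c') - repI S (u : GQ) c') -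
    (m • a (u * v) - (repI S ((u : GQ) * (v : GQ)) c' - c')) +
    (m • a u - (repI S (u : GQ) c' - c')) = _
  rw [map_mul, Module.End.mul_apply]
  abel

omit hp in
lemma zsmul_bez {A : Type*} [AddCommGroup A] {m : ℕ} {r t : ℤ} (h : r * m + t * p = 1) {x : A}
    (hx : p • x = 0) : r • (m • x) = x := by
  rw [← natCast_zsmul, smul_smul]
  have h3 : r * (m : ℤ) = 1 - t * (p : ℤ) := by linarith
  rw [h3, sub_smul, one_smul, mul_smul, natCast_zsmul, hx, smul_zero, sub_zero]

/-- The image in `H²(U, KS)` of a locally trivial class vanishes. -/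
lemma exists_cochain (hp2 : p ≠ 2) (hU : (famS S).IsOpen U)
    (f : ↥(Z2 ((famS S).res U) (rep (muQ p) U)))
    (hf : H2.mk ((famS S).res U) (rep (muQ p) U) f ∈ sha2U p S U) :
    ∃ g : U → KS S, ((famS S).res U).Sm1 g ∧
      ∀ u v : U, jG hpS ((f : U × U → ZMod p) (u, v)) = repK S u (g v) - g (u * v) + g u := by
  obtain ⟨m, hm, g', hg'sm, hdg'⟩ := exists_cochain_aux (hpS := hpS) hp2 hU f hf
  obtain ⟨r, t, hrt⟩ := Nat.isCoprime_iff_coprime.mpr hm
  refine ⟨fun u => r • g' u, hg'sm.post _, fun u v => ?_⟩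
  have h2 : repK S (u : GQ) (r • g' v) - r • g' (u * v) + r • g' u =
      r • (repK S (u : GQ) (g' v) - g' (u * v) + g' u) := by
    rw [map_zsmul, zsmul_add, zsmul_sub]
  rw [h2, hdg', zsmul_bez hrt (nsmul_jG hpS _)]

/-- Totality of the relation. -/
lemma SRel.exists (hp2 : p ≠ 2) (hU : (famS S).IsOpen U)
    (f : ↥(Z2 ((famS S).res U) (rep (muQ p) U)))
    (hf : H2.mk ((famS S).res U) (rep (muQ p) U) f ∈ sha2U p S U) :
    ∃ x ∈ DVU S U, SRel hpS (f : U × U → ZMod p) x := by
  obtain ⟨g, hg1, hg2⟩ := exists_cochain (hpS := hpS) hp2 hU f hf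
  have hguv : ∀ u v : U, g (u * v) = repK S (u : GQ) (g v) + g u -
      jG hpS ((f : U × U → ZMod p) (u, v)) := by
    intro u v
    rw [hg2]
    abel
  obtain ⟨h, hh⟩ := h90_KS hU (fun u => p • g u) (by
    intro u v
    rw [hguv, nsmul_sub, nsmul_jG, sub_zero, nsmul_add, map_nsmul]) (hg1.post _)
  let c : ↥(Z1 ((famS S).res U) (rep (repI S) U)) :=
    ⟨fun u => dk S (g u), hg1.post _, fun u v => by
      change dk S (g (u * v)) = repI S (u : GQ) (dk S (g v)) + dk S (g u)
      rw [hguv, map_sub, dk_jG, sub_zero, map_add, dk_comm]⟩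
  obtain ⟨D, hD1, hD2⟩ := div_one hU c (fun u => dk_fst _)
  refine ⟨dk S h - p • D, ⟨?_, fun u hu => ?_⟩, g, h, D, hD1, hg1, hg2, hh, hD2, rfl⟩
  · change (dk S h : AA).1 - p • (D : AA).1 = 0
    rw [hD1, dk_fst, smul_zero, sub_zero]
  · have h1 : dk S (p • g ⟨u, hu⟩) = repI S u (dk S h) - dk S h := by
      rw [hh ⟨u, hu⟩, map_sub, dk_comm]
    have h2 : dk S (g ⟨u, hu⟩) = repI S u D - D := hD2 ⟨u, hu⟩
    rw [map_nsmul, h2, nsmul_sub] at h1
    have h3 : repI S u (dk S h) = p • repI S u D - p • D + dk S h := by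
      rw [h1]
      abel
    rw [map_sub, map_nsmul, h3]
    abel

variable (hpS)

include hpS in
/-- **The locally trivial part of `H²(U, μ_p)`.** -/
theorem card_sha (hp2 : p ≠ 2) (hU : (famS S).IsOpen U)
    (hne : ((AddSubgroup.toSubgroup (DVU S U)).map (pw (Multiplicative (IS S)) p) ⊔
      (AddSubgroup.toSubgroup (FKU S U)).map (AddMonoidHom.toMultiplicative (dk S))).relIndex
        (AddSubgroup.toSubgroup (DVU S U)) ≠ 0) :
    Finite (sha2U p S U) ∧ Nat.card (sha2U p S U) ≤
      ((AddSubgroup.toSubgroup (DVU S U)).map (pw (Multiplicative (IS S)) p) ⊔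
      (AddSubgroup.toSubgroup (FKU S U)).map (AddMonoidHom.toMultiplicative (dk S))).relIndex
        (AddSubgroup.toSubgroup (DVU S U)) := by
  classical
  set D := AddSubgroup.toSubgroup (DVU S U) with hD
  set N := D.map (pw (Multiplicative (IS S)) p) ⊔
      (AddSubgroup.toSubgroup (FKU S U)).map (AddMonoidHom.toMultiplicative (dk S)) with hN
  have hex : ∀ y : sha2U p S U, ∃ f : ↥(Z2 ((famS S).res U) (rep (muQ p) U)), ∃ x : D,
      H2.mk ((famS S).res U) (rep (muQ p) U) f = (y : H2 ((famS S).res U) (rep (muQ p) U)) ∧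
      SRel hpS (f : U × U → ZMod p) (Multiplicative.toAdd (x : Multiplicative (IS S))) := by
    intro y
    obtain ⟨f, hf⟩ := H2.mk_surjective (y : H2 ((famS S).res U) (rep (muQ p) U))
    obtain ⟨x, hx1, hx2⟩ := SRel.exists (hpS := hpS) hp2 hU f (by rw [hf]; exact y.2)
    exact ⟨f, ⟨Multiplicative.ofAdd x, hx1⟩, hf, hx2⟩
  choose f x hf hx using hex
  let Ψ : sha2U p S U → D ⧸ N.subgroupOf D := fun y => (x y : D ⧸ N.subgroupOf D)
  have hinj : Function.Injective Ψ := by
    intro y y' hyy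
    have h1 : (x y')⁻¹ * x y ∈ N.subgroupOf D := QuotientGroup.eq.mp hyy.symm
    rw [Subgroup.mem_subgroupOf, hN, Subgroup.mem_sup] at h1
    obtain ⟨a, ⟨D', -, rfl⟩, b, ⟨k, hk, rfl⟩, hab⟩ := h1
    have h2 := (hx y).sub (hx y')
    have h3 : H2.mk ((famS S).res U) (rep (muQ p) U) (f y - f y') = 0 := by
      refine SRel.eq_zero (hpS := hpS) (f := f y - f y')
        (x := Multiplicative.toAdd (x y : Multiplicative (IS S)) -
          Multiplicative.toAdd (x y' : Multiplicative (IS S))) h2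
        (D' := Multiplicative.toAdd D') (k := Multiplicative.toAdd k) hk ?_
      have h4 := congrArg Multiplicative.toAdd hab
      change p • Multiplicative.toAdd D' + dk S (Multiplicative.toAdd k) =
        -Multiplicative.toAdd (x y' : Multiplicative (IS S)) +
          Multiplicative.toAdd (x y : Multiplicative (IS S)) at h4
      rw [h4]
      abel
    rw [map_sub, hf, hf, sub_eq_zero] at h3
    exact Subtype.ext h3
  have hfin : Finite (D ⧸ N.subgroupOf D) := Nat.finite_of_card_ne_zero hne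
  exact ⟨Finite.of_injective Ψ hinj, Nat.card_le_card_of_injective Ψ hinj⟩

include hpS in
/-- **The numerical input (E).** -/
theorem eprop (hp2 : p ≠ 2) (hU : U ∈ famS S) (hUp : ∀ u ∈ U, cycloChar p u = 1) :
    EProp p S U := by
  have hUo := Fam.isOpen_of_mem hU
  set E := AddSubgroup.toSubgroup (FKU S U) with hE
  set D := AddSubgroup.toSubgroup (DVU S U) with hD
  have hcl := finite_cl (S := S) hUo
  have hED : E.map (AddMonoidHom.toMultiplicative (dk S)) ≤ D := by
    rintro _ ⟨x, hx, rfl⟩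
    exact dk_mem_DVU hx
  have htf : ∀ c ∈ D, c ^ p = 1 → c = 1 := by
    intro c hc h
    exact congrArg Multiplicative.ofAdd (DVU_torsionFree hp.out.ne_zero
      (a := Multiplicative.toAdd c) hc.1 (congrArg Multiplicative.toAdd h))
  have hki := kummer_index (AddMonoidHom.toMultiplicative (dk S)) (p := p) E D htf hED hcl
  have hiu := index_units hpS hp2 hUo hUp
  have hcH := card_H1 hpS hUo hUp
  set q := (D.map (pw (Multiplicative (IS S)) p) ⊔
    E.map (AddMonoidHom.toMultiplicative (dk S))).relIndex D with hq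
  have hq0 : q ≠ 0 := by
    intro h0
    exact hcl (Subgroup.relIndex_eq_zero_of_le_left le_sup_right h0)
  obtain ⟨hsf, hsc⟩ := card_sha hpS hp2 hUo hq0
  set e := ((E ⊓ (AddMonoidHom.toMultiplicative (dk S)).ker).map
      (pw (Multiplicative (KS S)) p)).relIndex
      (E ⊓ (AddMonoidHom.toMultiplicative (dk S)).ker) with he
  have hcard : Nat.card (H1 ((famS S).res U) (rep (muQ p) U)) = e * q := hcH.trans hki
  have hp0 := hp.out.pos
  have he0 : e ≠ 0 := by
    intro h0
    rw [h0] at hiu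
    have := pow_pos hp0 (U.index + 2 * ∑ l ∈ S, Nat.card (Pl (rl l) U))
    rw [← hiu] at this
    simp at this
  have hfinH : Finite (H1 ((famS S).res U) (rep (muQ p) U)) :=
    Nat.finite_of_card_ne_zero (by rw [hcard]; exact mul_ne_zero he0 hq0)
  haveI : Module.Finite (ZMod p) (H1 ((famS S).res U) (rep (muQ p) U)) := Module.Finite.of_finite
  haveI : Module.Finite (ZMod p) (sha2U p S U) := Module.Finite.of_finite
  refine ⟨inferInstance, inferInstance, ?_⟩
  have h1 := Module.natCard_eq_pow_finrank (K := ZMod p)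
    (V := H1 ((famS S).res U) (rep (muQ p) U))
  have h2 := Module.natCard_eq_pow_finrank (K := ZMod p) (V := sha2U p S U)
  rw [Nat.card_zmod] at h1 h2
  rw [h2] at hsc
  rw [hcard] at h1
  have h3 : p ^ (2 * Module.finrank (ZMod p) (sha2U p S U) + U.index +
      2 * ∑ l ∈ S, Nat.card (Pl (rl l) U)) ≤
      p ^ (2 * Module.finrank (ZMod p) (H1 ((famS S).res U) (rep (muQ p) U))) := by
    rw [add_assoc, pow_add, ← hiu, mul_comm 2, pow_mul, mul_comm 2, pow_mul, ← h1, mul_pow,
      mul_comm]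
    exact Nat.mul_le_mul_left _ (Nat.pow_le_pow_left hsc 2)
  exact (Nat.pow_le_pow_iff_right hp.out.one_lt).mp h3

end Fermat.Agent.GlobalCFT
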