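import Fermat.Agent.GlobalCFT.Places

/-!
# Finiteness of the class group in terms of valuations
-/

set_option autoImplicit false

namespace Fermat.Agent.GlobalCFT

open NumberField IsDedekindDomain

variable (K : Type*) [Field K] [NumberField K]

theorem exists_finset_gen : ∃ T₀ : Finset (HeightOneSpectrum (𝓞 K)),
    ∀ v : HeightOneSpectrum (𝓞 K), ∃ z : Kˣ,
      (∀ w ∉ T₀, w ≠ v → w.valuation K (z : K) = 1) ∧
      (v ∉ T₀ → v.valuation K (z : K) = WithZero.exp (-1)) := by
  classical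
  choose I hI using ClassGroup.mk0_surjective (R := 𝓞 K)
  have hfin : (⋃ c : ClassGroup (𝓞 K), {v : HeightOneSpectrum (𝓞 K) |
      v.asIdeal ∣ (I c : Ideal (𝓞 K))}).Finite := by
    apply Set.finite_iUnion
    intro c
    exact Ideal.finite_factors (nonZeroDivisors.ne_zero (I c).2)
  refine ⟨hfin.toFinset, fun v => ?_⟩
  have hv : v.asIdeal ∈ nonZeroDivisors (Ideal (𝓞 K)) := mem_nonZeroDivisors_of_ne_zero v.ne_bot
  set c := ClassGroup.mk0 ⟨v.asIdeal, hv⟩ with hc
  obtain ⟨x, y, hx, hy, hxy⟩ := ClassGroup.mk0_eq_mk0_iff.mp (hc.symm.trans (hI c).symm)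
  have hx' : algebraMap (𝓞 K) K x ≠ 0 := by
    rwa [Ne, map_eq_zero_iff _ (IsFractionRing.injective (𝓞 K) K)]
  have hy' : algebraMap (𝓞 K) K y ≠ 0 := by
    rwa [Ne, map_eq_zero_iff _ (IsFractionRing.injective (𝓞 K) K)]
  have hspan : ∀ a : 𝓞 K, a ≠ 0 → (Ideal.span {a} : Ideal (𝓞 K)) ≠ 0 := by
    intro a ha h
    exact ha (Ideal.span_singleton_eq_bot.mp h)
  -- the key computation
  have key : ∀ w ∉ hfin.toFinset, w.valuation K (algebraMap (𝓞 K) K y / algebraMap (𝓞 K) K x) =
      WithZero.exp (-(multiplicity w.asIdeal v.asIdeal : ℤ)) := by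
    intro w hw
    have hwI : ¬ w.asIdeal ∣ (I c : Ideal (𝓞 K)) := by
      intro h
      apply hw
      rw [Set.Finite.mem_toFinset]
      exact Set.mem_iUnion.mpr ⟨c, h⟩
    have hfinm : ∀ J : Ideal (𝓞 K), J ≠ 0 → FiniteMultiplicity w.asIdeal J := fun J hJ =>
      FiniteMultiplicity.of_not_isUnit w.prime.not_unit hJ
    have h1 : multiplicity w.asIdeal (Ideal.span {x} * v.asIdeal) =
        multiplicity w.asIdeal (Ideal.span {y} * (I c : Ideal (𝓞 K))) := by
      rw [show Ideal.span {x} * v.asIdeal = Ideal.span {y} * (I c : Ideal (𝓞 K)) from hxy]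
    rw [multiplicity_mul w.prime (hfinm _ (mul_ne_zero (hspan x hx) v.ne_bot)),
      multiplicity_mul w.prime (hfinm _ (mul_ne_zero (hspan y hy)
        (nonZeroDivisors.ne_zero (I c).2))),
      multiplicity_eq_zero.mpr hwI, add_zero] at h1
    rw [map_div₀, HeightOneSpectrum.valuation_of_algebraMap,
      HeightOneSpectrum.valuation_of_algebraMap,
      HeightOneSpectrum.intValuation_eq_exp_neg_multiplicity _ hy,
      HeightOneSpectrum.intValuation_eq_exp_neg_multiplicity _ hx, ← h1, ← WithZero.exp_sub]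
    congr 1
    push_cast
    ring
  refine ⟨Units.mk0 _ (div_ne_zero hy' hx'), ?_, ?_⟩
  · intro w hw hwv
    rw [Units.val_mk0, key w hw]
    have h2 : ¬ w.asIdeal ∣ v.asIdeal := by
      intro h
      apply hwv
      have h3 : v.asIdeal ≤ w.asIdeal := Ideal.le_of_dvd h
      have h4 := (v.isMaximal.eq_of_le w.isPrime.ne_top h3)
      exact HeightOneSpectrum.ext h4.symm
    rw [multiplicity_eq_zero.mpr h2]
    rfl
  · intro hv'
    rw [Units.val_mk0, key v hv', multiplicity_self]
    rfl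

end Fermat.Agent.GlobalCFT
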