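import Fermat.Agent.GlobalCFT.GLocal
import Fermat.Agent.GlobalCFT.ClGen

/-!
# Places of the fixed fields as double cosets
-/

set_option autoImplicit false

namespace Fermat.Agent.GlobalCFT

open Fermat.Agent.Coh Fermat.Agent.GCFT NumberField IsDedekindDomain

/-- The field of algebraic numbers. -/
local notation "Qb" => AlgebraicClosure ℚ
/-- The absolute Galois group. -/
local notation "GQ" => (AlgebraicClosure ℚ ≃ₐ[ℚ] AlgebraicClosure ℚ)

variable {l : Nat.Primes} {W : Subgroup GQ}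

/-- the fixed field -/
noncomputable abbrev FFd (W : Subgroup GQ) : IntermediateField ℚ (AlgebraicClosure ℚ) :=
  IntermediateField.fixedField W

theorem mem_FFd {x : Qb} : x ∈ FFd W ↔ ∀ w ∈ W, w x = x :=
  IntermediateField.mem_fixedField_iff W x

theorem fixingSubgroup_FFd (hW : IsOpen (W : Set GQ)) : (FFd W).fixingSubgroup = W :=
  InfiniteGalois.fixingSubgroup_fixedField ⟨W, Subgroup.isClosed_of_isOpen W hW⟩

theorem finite_FFd (hW : IsOpen (W : Set GQ)) : FiniteDimensional ℚ (FFd W) := by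
  apply (InfiniteGalois.isOpen_iff_finite (FFd W)).mp
  rw [fixingSubgroup_FFd hW]
  exact hW

theorem numberField_FFd (hW : IsOpen (W : Set GQ)) : NumberField (FFd W) :=
  { to_charZero := inferInstance
    to_finiteDimensional := finite_FFd hW }

/-- the embedding attached to a Galois element -/
noncomputable def phx (l : Nat.Primes) (W : Subgroup GQ) (x : GQ) : FFd W →+* Om l :=
  (il l).toRingHom.comp ((x : Qb →+* Qb).comp (algebraMap (FFd W) Qb))

lemma phx_apply (x : GQ) (y : FFd W) : phx l W x y = il l (x (y : Qb)) := rfl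

/-- Two embeddings of a normal extension differ by an automorphism. -/
theorem exists_aut_of_normal {F K M : Type*} [Field F] [Field K] [Field M] [Algebra F K]
    [Algebra F M] [Normal F K] (i j : K →ₐ[F] M) : ∃ x : K ≃ₐ[F] K, ∀ y, i (x y) = j y := by
  letI : Algebra K M := i.toRingHom.toAlgebra
  haveI : IsScalarTower F K M := IsScalarTower.of_algebraMap_eq (fun q => (i.commutes q).symm)
  refine ⟨j.restrictNormal' K, fun y => ?_⟩
  exact j.restrictNormal_commutes K y

/-- Every embedding of the fixed field is of this form. -/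
theorem exists_phx (φ : FFd W →+* Om l) : ∃ x : GQ, phx l W x = φ := by
  letI : Algebra (FFd W) (Om l) := φ.toAlgebra
  let Φ : Qb →ₐ[FFd W] Om l := IsAlgClosed.lift
  have hΦ : ∀ y : FFd W, Φ (y : Qb) = φ y := fun y => Φ.commutes y
  let Φ' : Qb →ₐ[ℚ] Om l := { (Φ : Qb →+* Om l) with commutes' := fun q => by simp }
  obtain ⟨x, hx⟩ := exists_aut_of_normal (il l) Φ'
  refine ⟨x, ?_⟩
  ext y
  rw [phx_apply, hx]
  exact hΦ y

theorem primeOf_phx_eq_iff (hW : IsOpen (W : Set GQ)) [NumberField (FFd W)] {x x' : GQ} :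
    primeOf (phx l W x) = primeOf (phx l W x') ↔ cl (rl l) W x = cl (rl l) W x' := by
  rw [cl_eq_iff]
  constructor
  · intro h
    obtain ⟨δ, hδ⟩ := exists_algEquiv_of_primeOf_eq h
    refine ⟨δ, (rl l δ * x)⁻¹ * x', ?_, by group⟩
    rw [← fixingSubgroup_FFd hW, IntermediateField.mem_fixingSubgroup_iff]
    intro y hy
    have h1 : il l (x' y) = δ (il l (x y)) := hδ ⟨y, hy⟩
    rw [← il_rl] at h1
    have h2 : x' y = rl l δ (x y) := (il l).toRingHom.injective h1
    rw [AlgEquiv.mul_apply, h2, ← AlgEquiv.mul_apply (rl l δ) x, ← AlgEquiv.mul_apply,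
      inv_mul_cancel, AlgEquiv.one_apply]
  · rintro ⟨δ, v, hv, rfl⟩
    ext a
    rw [mem_primeOf, mem_primeOf, phx_apply, phx_apply, AlgEquiv.mul_apply, AlgEquiv.mul_apply,
      il_rl, norm_gal, mem_FFd.mp (a : FFd W).2 v hv]

/-- The places over `l` are the double cosets. -/
noncomputable def plMap (l : Nat.Primes) (W : Subgroup GQ) [NumberField (FFd W)]
    (c : Pl (rl l) W) : HeightOneSpectrum (𝓞 (FFd W)) := primeOf (phx l W c.out)

lemma plMap_cl (hW : IsOpen (W : Set GQ)) [NumberField (FFd W)] (x : GQ) :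
    plMap l W (cl (rl l) W x) = primeOf (phx l W x) := by
  rw [plMap, primeOf_phx_eq_iff hW]
  exact Quotient.out_eq _

lemma plMap_injective (hW : IsOpen (W : Set GQ)) [NumberField (FFd W)] :
    Function.Injective (plMap l W) := by
  intro c c' h
  rw [plMap, plMap, primeOf_phx_eq_iff hW] at h
  have h1 : cl (rl l) W c.out = c := Quotient.out_eq _
  have h2 : cl (rl l) W c'.out = c' := Quotient.out_eq _
  rw [← h1, ← h2, h]

lemma natCast_mem_plMap [NumberField (FFd W)] (c : Pl (rl l) W) :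
    ((l : ℕ) : 𝓞 (FFd W)) ∈ (plMap l W c).asIdeal := natCast_mem_primeOf _

lemma exists_plMap (hW : IsOpen (W : Set GQ)) [NumberField (FFd W)]
    (v : HeightOneSpectrum (𝓞 (FFd W))) (hv : ((l : ℕ) : 𝓞 (FFd W)) ∈ v.asIdeal) :
    ∃ c : Pl (rl l) W, plMap l W c = v := by
  obtain ⟨φ, hφ⟩ := exists_primeOf_eq (l := (l : ℕ)) v hv
  obtain ⟨x, rfl⟩ := exists_phx φ
  exact ⟨cl (rl l) W x, by rw [plMap_cl hW, hφ]⟩

theorem finite_Pl (l : Nat.Primes) (hW : IsOpen (W : Set GQ)) : Finite (Pl (rl l) W) := by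
  haveI := numberField_FFd hW
  have hl0 : ((l : ℕ) : 𝓞 (FFd W)) ≠ 0 := Nat.cast_ne_zero.mpr l.2.ne_zero
  have hspan : (Ideal.span {((l : ℕ) : 𝓞 (FFd W))} : Ideal (𝓞 (FFd W))) ≠ 0 := by
    intro h
    exact hl0 (Ideal.span_singleton_eq_bot.mp h)
  have hfin := Ideal.finite_factors hspan
  have : Finite {v : HeightOneSpectrum (𝓞 (FFd W)) //
      v.asIdeal ∣ Ideal.span {((l : ℕ) : 𝓞 (FFd W))}} := hfin
  refine Finite.of_injective (fun c : Pl (rl l) W =>
    (⟨plMap l W c, ?_⟩ : {v : HeightOneSpectrum (𝓞 (FFd W)) //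
      v.asIdeal ∣ Ideal.span {((l : ℕ) : 𝓞 (FFd W))}})) ?_
  · rw [Ideal.dvd_span_singleton]
    exact natCast_mem_plMap c
  · intro c c' h
    exact plMap_injective hW (congrArg Subtype.val h)

/-- Distinct primes have distinct places. -/
lemma plMap_prime_unique [NumberField (FFd W)] {l' : Nat.Primes} {c : Pl (rl l) W}
    {c' : Pl (rl l') W} (h : plMap l W c = plMap l' W c') : l = l' := by
  by_contra hne
  have h1 := natCast_mem_plMap c
  have h2 := natCast_mem_plMap c'
  rw [← h] at h2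
  have h3 : Nat.Coprime (l : ℕ) (l' : ℕ) :=
    (Nat.coprime_primes l.2 l'.2).mpr fun h => hne (Subtype.ext h)
  obtain ⟨u, w, huw⟩ := Nat.isCoprime_iff_coprime.mpr h3
  apply (plMap l W c).isPrime.ne_top
  rw [Ideal.eq_top_iff_one]
  have h7 : (1 : 𝓞 (FFd W)) = (u : 𝓞 (FFd W)) * ((l : ℕ) : 𝓞 (FFd W)) +
      (w : 𝓞 (FFd W)) * ((l' : ℕ) : 𝓞 (FFd W)) := by
    have := congrArg (Int.cast : ℤ → 𝓞 (FFd W)) huw
    push_cast at this
    exact this.symm
  rw [h7]
  exact Ideal.add_mem _ (Ideal.mul_mem_left _ _ h1) (Ideal.mul_mem_left _ _ h2)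

/-- Every prime has a residue characteristic. -/
lemma exists_residue_char [NumberField (FFd W)] (v : HeightOneSpectrum (𝓞 (FFd W))) :
    ∃ l : Nat.Primes, ((l : ℕ) : 𝓞 (FFd W)) ∈ v.asIdeal := by
  obtain ⟨n, hn0, hn⟩ : ∃ n : ℕ, n ≠ 0 ∧ (n : 𝓞 (FFd W)) ∈ v.asIdeal :=
    ⟨Ideal.absNorm v.asIdeal, by
      rw [Ne, Ideal.absNorm_eq_zero_iff]; exact v.ne_bot, Ideal.absNorm_mem _⟩
  have hne1 : n ≠ 1 := by
    rintro rfl
    exact v.isPrime.ne_top ((Ideal.eq_top_iff_one _).mpr (by simpa using hn))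
  have h1 : ∀ s : Multiset ℕ, (∀ q ∈ s, q.Prime) → ((s.prod : ℕ) : 𝓞 (FFd W)) ∈ v.asIdeal →
      ∃ q ∈ s, (q : 𝓞 (FFd W)) ∈ v.asIdeal := by
    intro s
    induction s using Multiset.induction_on with
    | empty =>
      intro _ h
      rw [Multiset.prod_zero, Nat.cast_one] at h
      exact absurd ((Ideal.eq_top_iff_one _).mpr h) v.isPrime.ne_top
    | cons q s ih =>
      intro hq h
      rw [Multiset.prod_cons, Nat.cast_mul] at h
      rcases v.isPrime.mem_or_mem h with h | h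
      · exact ⟨q, Multiset.mem_cons_self _ _, h⟩
      · obtain ⟨q', hq', h'⟩ := ih (fun q' hq' => hq q' (Multiset.mem_cons_of_mem hq')) h
        exact ⟨q', Multiset.mem_cons_of_mem hq', h'⟩
  obtain ⟨q, hq, hqv⟩ := h1 (n.primeFactorsList : Multiset ℕ)
    (fun q hq => Nat.prime_of_mem_primeFactorsList (Multiset.mem_coe.mp hq)) (by
      rw [Multiset.prod_coe, Nat.prod_primeFactorsList hn0]; exact hn)
  exact ⟨⟨q, Nat.prime_of_mem_primeFactorsList (Multiset.mem_coe.mp hq)⟩, hqv⟩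

end Fermat.Agent.GlobalCFT
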