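import Fermat.Agent.GlobalCFT.Rank

/-!
# The first inequality
-/

set_option autoImplicit false

namespace Fermat.Agent.GlobalCFT

open Fermat.Agent.Coh Fermat.Agent.GCFT NumberField IsDedekindDomain Subgroup

/-! ### reduction of the subgroup -/

/-- Passing from `H' ⊔ E` to `H'`. -/
theorem relIndex_reduce {A : Type*} [CommGroup A] {f g : A →* A} {H H' E : Subgroup A}
    (hH : H = H' ⊔ E) (hfH' : H'.map f ≤ H') (hfE : E.map f ≤ E)
    (hgH' : H'.map g ≤ H') (hgE : E.map g ≤ E) (hfg : ∀ x ∈ H', f (g x) = 1) :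
    (H.map g ⊔ E).relIndex (H ⊓ E.comap f) =
      (H'.map g ⊔ (E ⊓ H')).relIndex (H' ⊓ (E ⊓ H').comap f) := by
  set K := H' ⊓ (E ⊓ H').comap f with hK
  set B := H'.map g ⊔ (E ⊓ H') with hB
  have hBK : B ≤ K := by
    refine sup_le ?_ ?_
    · rintro _ ⟨x, hx, rfl⟩
      refine ⟨hgH' ⟨x, hx, rfl⟩, ?_⟩
      change f (g x) ∈ E ⊓ H'
      rw [hfg x hx]
      exact Subgroup.one_mem _
    · rintro x ⟨hx1, hx2⟩
      exact ⟨hx2, hfE ⟨x, hx1, rfl⟩, hfH' ⟨x, hx2, rfl⟩⟩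
  have h1 : H ⊓ E.comap f = K ⊔ E := by
    ext x
    constructor
    · rintro ⟨hx1, hx2⟩
      rw [hH] at hx1
      obtain ⟨a, ha, b, hb, rfl⟩ := Subgroup.mem_sup.mp hx1
      have h2 : f a ∈ E := by
        have h3 : f (a * b) ∈ E := hx2
        rw [map_mul] at h3
        exact (Subgroup.mul_mem_cancel_right E (hfE ⟨b, hb, rfl⟩)).mp h3
      exact Subgroup.mul_mem_sup ⟨ha, h2, hfH' ⟨a, ha, rfl⟩⟩ hb
    · intro hx
      obtain ⟨a, ha, b, hb, rfl⟩ := Subgroup.mem_sup.mp hx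
      refine ⟨?_, ?_⟩
      · rw [hH]; exact Subgroup.mul_mem_sup ha.1 hb
      · change f (a * b) ∈ E
        rw [map_mul]
        exact E.mul_mem ha.2.1 (hfE ⟨b, hb, rfl⟩)
  have h2 : H.map g ⊔ E = B ⊔ E := by
    rw [hH, Subgroup.map_sup, hB, sup_assoc, sup_eq_right.mpr hgE, sup_assoc,
      sup_eq_right.mpr (inf_le_left : E ⊓ H' ≤ E)]
  rw [h1, h2]
  have h3 : K ⊔ E = K ⊔ (B ⊔ E) := by rw [← sup_assoc, sup_eq_left.mpr hBK]
  rw [h3, relIndex_sup_right, ← inf_relIndex_right]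
  congr 1
  rw [inf_comm, inf_comm, sup_inf_assoc_of_le _ hBK, sup_eq_left]
  rintro x ⟨hx1, hx2⟩
  exact (le_sup_right : E ⊓ H' ≤ B) ⟨hx1, hx2.1⟩

/-- The field of algebraic numbers. -/
local notation "Qb" => AlgebraicClosure ℚ
/-- The absolute Galois group. -/
local notation "GQ" => (AlgebraicClosure ℚ ≃ₐ[ℚ] AlgebraicClosure ℚ)

variable {S S' : Finset Nat.Primes} {V W U : Subgroup GQ} {σ : GQ} {p : ℕ}

/-- the automorphism of the multiplicative version of the ambient group -/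
noncomputable def tA (σ : GQ) : Multiplicative AA →* Multiplicative AA :=
  AddMonoidHom.toMultiplicative ((translI σ : AA →ₗ[ℤ] AA) : AA →+ AA)

lemma tA_iter (σ : GQ) (j : ℕ) (x : Multiplicative AA) :
    (tA σ)^[j] x = Multiplicative.ofAdd (translI (σ ^ j) x.toAdd) := by
  induction j with
  | zero => rw [pow_zero, map_one]; rfl
  | succ j ih =>
    rw [Function.iterate_succ_apply', ih, pow_succ', map_mul]
    rfl

lemma dif_tA (σ : GQ) : dif (tA σ) = AddMonoidHom.toMultiplicative (dfA σ) := by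
  refine MonoidHom.ext fun x => ?_
  rw [dif_apply]
  rfl

lemma nm_tA (σ : GQ) (p : ℕ) : nm (tA σ) p = AddMonoidHom.toMultiplicative (nmA σ p) := by
  refine MonoidHom.ext fun x => ?_
  rw [nm_apply]
  change _ = Multiplicative.ofAdd (nmA σ p x.toAdd)
  rw [nmA_apply, ofAdd_sum]
  exact Finset.prod_congr rfl fun j _ => tA_iter σ j x

lemma toSubgroup_map {A : Type*} [AddCommGroup A] (f : A →+ A) (H : AddSubgroup A) :
    (AddSubgroup.toSubgroup H).map (AddMonoidHom.toMultiplicative f) =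
      AddSubgroup.toSubgroup (H.map f) := rfl

lemma toSubgroup_comap {A : Type*} [AddCommGroup A] (f : A →+ A) (H : AddSubgroup A) :
    (AddSubgroup.toSubgroup H).comap (AddMonoidHom.toMultiplicative f) =
      AddSubgroup.toSubgroup (H.comap f) := rfl

lemma toSubgroup_inf {A : Type*} [AddCommGroup A] (H K : AddSubgroup A) :
    AddSubgroup.toSubgroup H ⊓ AddSubgroup.toSubgroup K = AddSubgroup.toSubgroup (H ⊓ K) := rfl

lemma toSubgroup_sup {A : Type*} [AddCommGroup A] (H K : AddSubgroup A) :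
    AddSubgroup.toSubgroup H ⊔ AddSubgroup.toSubgroup K = AddSubgroup.toSubgroup (H ⊔ K) :=
  (OrderIso.map_sup AddSubgroup.toSubgroup H K).symm

section
variable (C : Cyc V U σ p)
include C

lemma EV_translI {a : AA} (ha : a ∈ EV S V) : translI σ a ∈ EV S V := by
  obtain ⟨x, hx, rfl⟩ := ha
  refine ⟨repK S σ x, fun v hv => ?_, ?_⟩
  · have h1 : v * σ = σ * (σ⁻¹ * v * σ) := by group
    rw [← Module.End.mul_apply, ← map_mul, h1, map_mul, Module.End.mul_apply,
      hx _ (C.conj' C.mem hv)]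
  · rw [iKS_comm]
    rfl

lemma EV_fixed {a : AA} (hS : S.Nonempty) (ha : a ∈ EV S V) (h : dfA σ a = 0) :
    a ∈ EV S U := by
  have h1 : translI σ a = a := sub_eq_zero.mp h
  obtain ⟨x, hx, rfl⟩ := ha
  refine ⟨x, fun u hu => ?_, rfl⟩
  have h2 : repK S σ x = x := by
    apply iKS_injective hS
    rw [iKS_comm]
    exact Subtype.ext h1
  have h3 : ∀ j : ℕ, repK S (σ ^ j) x = x := by
    intro j
    induction j with
    | zero => rw [pow_zero, map_one]; rfl
    | succ j ih => rw [pow_succ, map_mul, Module.End.mul_apply, h2, ih]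
  obtain ⟨j, -, v, hv, rfl⟩ := C.gen u hu
  rw [map_mul, Module.End.mul_apply, hx v hv, h3]

/-- **The first inequality**, in the form `h(C_S^V) = p`. -/
theorem first_inequality (hodd : Odd p) (hS : S.Nonempty) (hV : (famS S).IsOpen V) :
    ((HV S V).map (nmA σ p) ⊔ EV S V).relIndex (HV S V ⊓ (EV S V).comap (dfA σ)) =
      p * ((HV S V).map (dfA σ) ⊔ EV S V).relIndex (HV S V ⊓ (EV S V).comap (nmA σ p)) ∧
    ((HV S V).map (nmA σ p) ⊔ EV S V).relIndex (HV S V ⊓ (EV S V).comap (dfA σ)) ≠ 0 ∧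
    ((HV S V).map (dfA σ) ⊔ EV S V).relIndex (HV S V ⊓ (EV S V).comap (nmA σ p)) ≠ 0 := by
  have hpf : Fact p.Prime := ⟨C.prime⟩
  have hVo := isOpen_of_famS hV
  have hU : (famS S).IsOpen U := hV.mono C.le
  have hUo := isOpen_of_famS hU
  haveI := numberField_FFd hVo
  haveI := numberField_FFd hUo
  obtain ⟨S', hSS', hgood⟩ := exists_good S hV
  -- multiplicative versions
  set τ := tA σ with hτ
  set f := dif τ with hf
  set g := nm τ p with hg
  set H := AddSubgroup.toSubgroup (HV S V) with hH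
  set E := AddSubgroup.toSubgroup (EV S V) with hE
  set H' := AddSubgroup.toSubgroup (HV S V ⊓ NS S') with hH'
  have hfA : f = AddMonoidHom.toMultiplicative (dfA σ) := dif_tA σ
  have hgA : g = AddMonoidHom.toMultiplicative (nmA σ p) := nm_tA σ p
  have hE' : E ⊓ H' = AddSubgroup.toSubgroup (EV S V ⊓ NS S') := by
    rw [hE, hH', toSubgroup_inf]
    congr 1
    rw [← inf_assoc, inf_eq_left.mpr EV_le_HV]
  have hHsup : H = H' ⊔ E := by
    apply le_antisymm
    · intro a ha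
      obtain ⟨e, he, hae⟩ := hgood a.toAdd ha
      have h1 : a = Multiplicative.ofAdd (a.toAdd - e) * Multiplicative.ofAdd e := by
        rw [← ofAdd_add, sub_add_cancel]
        rfl
      rw [h1]
      exact Subgroup.mul_mem_sup (show Multiplicative.ofAdd (a.toAdd - e) ∈ H' from
        ⟨AddSubgroup.sub_mem (HV S V) ha (EV_le_HV he), hae⟩) he
    · exact sup_le (fun x hx => hx.1) (fun x hx => EV_le_HV hx)
  have hτH : H.map τ ≤ H := by
    rintro _ ⟨x, hx, rfl⟩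
    exact translI_mem' C hx C.mem
  have hτE : E.map τ ≤ E := by
    rintro _ ⟨x, hx, rfl⟩
    exact EV_translI C hx
  have hτH' : H'.map τ ≤ H' := by
    rintro _ ⟨x, hx, rfl⟩
    exact translI_mem C hx C.mem
  have hτE' : (E ⊓ H').map τ ≤ E ⊓ H' := by
    rintro _ ⟨x, ⟨hx1, hx2⟩, rfl⟩
    exact ⟨hτE ⟨x, hx1, rfl⟩, hτH' ⟨x, hx2, rfl⟩⟩
  have hper : ∀ x ∈ H, τ^[p] x = x := by
    intro x hx
    have h1 : translI (σ ^ p) x.toAdd = x.toAdd := translI_p C hx
    rw [hτ, tA_iter, h1]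
    rfl
  have hH'le : H' ≤ H := fun x hx => hx.1
  have hfg : ∀ x ∈ H, f (g x) = 1 := fun x hx => dif_nm τ (hper x hx)
  have hgf : ∀ x ∈ H, g (f x) = 1 := fun x hx => nm_dif τ (hper x hx)
  have hfH' : H'.map f ≤ H' := ev_map_le τ hτH' _
  have hgH' : H'.map g ≤ H' := ev_map_le τ hτH' _
  have hfE : E.map f ≤ E := ev_map_le τ hτE _
  have hgE : E.map g ≤ E := ev_map_le τ hτE _
  have hfE' : (E ⊓ H').map f ≤ E ⊓ H' := ev_map_le τ hτE' _
  have hgE' : (E ⊓ H').map g ≤ E ⊓ H' := ev_map_le τ hτE' _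
  -- the local computation
  set ns := ∑ l ∈ S', Nat.card {c : Pl (rl l) U // NonSplit (rl l) V σ c.out} with hns
  have hloc1 : (H'.map g).relIndex (H' ⊓ f.ker) = p ^ ns := by
    have h1 := norm_index_H (S' := S') C hSS' hV
    rw [← hns, ← AddSubgroup.relIndex_toSubgroup] at h1
    rw [← h1, hgA, hH', toSubgroup_map]
    congr 1
    ext x
    constructor
    · rintro ⟨hx1, hx2⟩
      rw [hfA] at hx2
      exact ⟨mem_HV_of_fixed C hx1.1 hx2, hx1.2⟩
    · rintro ⟨hx1, hx2⟩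
      refine ⟨⟨HV_mono C hx1, hx2⟩, ?_⟩
      rw [hfA]
      change translI σ x.toAdd - x.toAdd = 0
      rw [sub_eq_zero]
      exact hx1.2 σ C.mem
  have hloc2 : (H'.map f).relIndex (H' ⊓ g.ker) = 1 := by
    rw [relIndex_eq_one]
    rintro x ⟨hx1, hx2⟩
    rw [hgA] at hx2
    obtain ⟨b, hb, hba⟩ := h90_H C hV (a := x.toAdd) hx1 hx2
    rw [hfA]
    exact ⟨Multiplicative.ofAdd b, hb, congrArg Multiplicative.ofAdd hba⟩
  -- the units
  obtain ⟨hq1, hq2⟩ := Q_EV (S' := S') hS hSS' hV C.prime.ne_zero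
  obtain ⟨hq3, hq4⟩ := Q_EV (S' := S') (W := U) hS hSS' hU C.prime.ne_zero
  rw [← hE'] at hq1 hq2
  have hfix : (E ⊓ H') ⊓ f.ker = AddSubgroup.toSubgroup (EV S U ⊓ NS S') := by
    rw [hE']
    ext x
    constructor
    · rintro ⟨hx1, hx2⟩
      rw [hfA] at hx2
      exact ⟨EV_fixed C hS hx1.1 hx2, hx1.2⟩
    · rintro ⟨⟨y, hy, hyx⟩, hx2⟩
      refine ⟨⟨⟨y, fun v hv => hy v (C.le hv), hyx⟩, hx2⟩, ?_⟩
      rw [hfA]
      change translI σ x.toAdd - x.toAdd = 0
      rw [sub_eq_zero, ← hyx]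
      have h1 := iKS_comm S σ y
      rw [hy σ C.mem] at h1
      exact (congrArg Subtype.val h1).symm
  rw [← hfix] at hq3 hq4
  obtain ⟨hc1, hc2, -, hc4⟩ := herbrand_cyclic τ hτE'
    (fun x hx => hper x (hH'le hx.2)) hq1
  rw [hq2, hq4] at hc4
  set a := ((E ⊓ H').map g).relIndex (E ⊓ H' ⊓ f.ker) with ha
  set b := ((E ⊓ H').map f).relIndex (E ⊓ H' ⊓ g.ker) with hb
  -- ranks
  have hrank := card_infinitePlace C hodd hVo
  have hcardU : 0 < Fintype.card (InfinitePlace (FFd U)) := Fintype.card_pos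
  have hplaces : p * ∑ l ∈ S', Nat.card (Pl (rl l) U) =
      ∑ l ∈ S', Nat.card (Pl (rl l) V) + (p - 1) * ns := by
    rw [hns, Finset.mul_sum, Finset.mul_sum, ← Finset.sum_add_distrib]
    refine Finset.sum_congr rfl fun l _ => ?_
    haveI := finite_Pl l hUo
    exact C.card_places.1
  have hab : a * p = b * p ^ ns := by
    set sU := ∑ l ∈ S', Nat.card (Pl (rl l) U)
    set sV := ∑ l ∈ S', Nat.card (Pl (rl l) V)
    have hrU : Units.rank (FFd U) = Fintype.card (InfinitePlace (FFd U)) - 1 := rfl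
    have hrV : Units.rank (FFd V) = Fintype.card (InfinitePlace (FFd V)) - 1 := rfl
    obtain ⟨m, hm⟩ : ∃ m, p = m + 1 := ⟨p - 1, by have := C.prime.pos; omega⟩
    have hmpos : m ≠ 0 := by have := C.prime.one_lt; omega
    obtain ⟨k, hk⟩ : ∃ k, Fintype.card (InfinitePlace (FFd U)) = k + 1 :=
      ⟨Fintype.card (InfinitePlace (FFd U)) - 1, by omega⟩
    have hp0 : (p : ℚ) ≠ 0 := by exact_mod_cast C.prime.ne_zero
    have hb0 : (b : ℚ) ≠ 0 := by exact_mod_cast hc2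
    have ha0 : (a : ℚ) ≠ 0 := by exact_mod_cast hc1
    have hexp : (Units.rank (FFd U) + sU) * p + m = (Units.rank (FFd V) + sV) + m * ns := by
      rw [hrU, hrV, hrank, hk]
      have hp1 : p - 1 = m := by omega
      rw [hp1] at hplaces
      have h1 : (k + 1) * p - 1 = k * p + m := by
        rw [hm, add_mul, one_mul]; omega
      rw [h1, Nat.add_sub_cancel]
      have h2 : (k + sU) * p = k * p + p * sU := by ring
      rw [h2, hplaces]
      ring
    have hpm : ((a : ℚ) / b) ^ m * (p : ℚ) ^ m = ((p : ℚ) ^ ns) ^ m := by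
      have hp1 : p - 1 = m := by omega
      rw [hp1] at hc4
      have h2 : (p : ℚ) ^ (Units.rank (FFd V) + sV) ≠ 0 := pow_ne_zero _ hp0
      apply mul_right_cancel₀ h2
      calc ((a : ℚ) / b) ^ m * (p : ℚ) ^ m * (p : ℚ) ^ (Units.rank (FFd V) + sV)
          = (((a : ℚ) / b) ^ m * (p : ℚ) ^ (Units.rank (FFd V) + sV)) * (p : ℚ) ^ m := by ring
        _ = ((p : ℚ) ^ (Units.rank (FFd U) + sU)) ^ p * (p : ℚ) ^ m := by rw [hc4]
        _ = (p : ℚ) ^ ((Units.rank (FFd U) + sU) * p + m) := by rw [← pow_mul, ← pow_add]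
        _ = (p : ℚ) ^ ((Units.rank (FFd V) + sV) + m * ns) := by rw [hexp]
        _ = _ := by rw [pow_add, ← pow_mul, mul_comm m ns]; ring
    rw [← mul_pow] at hpm
    have h3 : (a : ℚ) / b * p = (p : ℚ) ^ ns := by
      have h4 : 0 ≤ (a : ℚ) / b * p := by positivity
      have h5 : 0 ≤ (p : ℚ) ^ ns := by positivity
      exact (pow_left_inj₀ h4 h5 hmpos).mp hpm
    have h6 : (a : ℚ) * p = b * (p : ℚ) ^ ns := by
      rw [← h3]
      field_simp
    exact_mod_cast h6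
  -- the hexagon
  have hfg' : ∀ x ∈ H', f (g x) = 1 := fun x hx => hfg x (hH'le hx)
  have hgf' : ∀ x ∈ H', g (f x) = 1 := fun x hx => hgf x (hH'le hx)
  have hhex := hexagon (inf_le_right : E ⊓ H' ≤ H') hfH' hgH' hfE' hgE' hfg' hgf'
  rw [hloc1, hloc2, one_mul] at hhex
  have hpne : p ^ ns ≠ 0 := pow_ne_zero _ C.prime.ne_zero
  have hne1 := hexagon_ne_zero (inf_le_right : E ⊓ H' ≤ H') hfH' hgH' hfE' hgE' hfg' hgf'
    (by rw [hloc1]; exact hpne) hc2
  have hne2 := hexagon_ne_zero (inf_le_right : E ⊓ H' ≤ H') hgH' hfH' hgE' hfE' hgf' hfg'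
    (by rw [hloc2]; exact one_ne_zero) hc1
  -- transfer
  have t1 : ((HV S V).map (nmA σ p) ⊔ EV S V).relIndex (HV S V ⊓ (EV S V).comap (dfA σ)) =
      (H'.map g ⊔ (E ⊓ H')).relIndex (H' ⊓ (E ⊓ H').comap f) := by
    rw [← relIndex_reduce hHsup hfH' hfE hgH' hgE hfg', ← AddSubgroup.relIndex_toSubgroup,
      ← toSubgroup_sup, ← toSubgroup_inf, ← toSubgroup_map, ← toSubgroup_comap, ← hfA, ← hgA]
  have t2 : ((HV S V).map (dfA σ) ⊔ EV S V).relIndex (HV S V ⊓ (EV S V).comap (nmA σ p)) =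
      (H'.map f ⊔ (E ⊓ H')).relIndex (H' ⊓ (E ⊓ H').comap g) := by
    rw [← relIndex_reduce hHsup hgH' hgE hfH' hfE hgf', ← AddSubgroup.relIndex_toSubgroup,
      ← toSubgroup_sup, ← toSubgroup_inf, ← toSubgroup_map, ← toSubgroup_comap, ← hfA, ← hgA]
  rw [t1, t2]
  set A3 := (H'.map g ⊔ (E ⊓ H')).relIndex (H' ⊓ (E ⊓ H').comap f)
  set B3 := (H'.map f ⊔ (E ⊓ H')).relIndex (H' ⊓ (E ⊓ H').comap g)
  refine ⟨?_, hne1, hne2⟩
  -- p^ns * b * B3 = a * A3
  have h7 : a * A3 = a * (p * B3) := by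
    calc a * A3 = p ^ ns * b * B3 := hhex.symm
      _ = (b * p ^ ns) * B3 := by ring
      _ = a * p * B3 := by rw [hab]
      _ = a * (p * B3) := by ring
  exact Nat.eq_of_mul_eq_mul_left (Nat.pos_of_ne_zero hc1) h7

end

end Fermat.Agent.GlobalCFT
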