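import Fermat.Agent.GlobalCFT.Primes
import Fermat.Agent.GCFT.Diag

/-!
# `p`-th roots of elements whose divisor is divisible by `p`
-/

set_option autoImplicit false

namespace Fermat.Agent.GlobalCFT

open Fermat.Agent.Coh Fermat.Agent.GCFT NumberField IsDedekindDomain

/-- The field of algebraic numbers. -/
local notation "Qb" => AlgebraicClosure ℚ
/-- The absolute Galois group. -/
local notation "GQ" => (AlgebraicClosure ℚ ≃ₐ[ℚ] AlgebraicClosure ℚ)

variable {S : Finset Nat.Primes} {W : Subgroup GQ} {p : ℕ}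

/-- A place of `Qbar` restricted to a number field is given by an embedding. -/
theorem exists_gal_of_place (hW : IsOpen (W : Set GQ)) (A : ValuationSubring Qb) {q : Nat.Primes}
    (hA : A.LiesOverPrime (q : ℕ)) :
    ∃ g : GQ, ∀ z : Qb, z ∈ FFd W → ‖il q (g z)‖ = 1 → A.valuation z = 1 := by
  haveI := numberField_FFd hW
  have hvq : A.valuation ((q : ℕ) : Qb) < 1 := hA
  have hint : ∀ a : 𝓞 (FFd W), A.valuation ((a : FFd W) : Qb) ≤ 1 := by
    intro a
    have h1 : IsIntegral ℤ ((a : FFd W) : Qb) :=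
      (a.2 : IsIntegral ℤ (a : FFd W)).map (FFd W).val.toRingHom.toIntAlgHom
    have h2 : ((a : FFd W) : Qb) ∈ A := GaloisBasics.integralClosure_le_valuationSubring A h1
    exact (A.valuation_le_one_iff _).mpr h2
  let P : Ideal (𝓞 (FFd W)) :=
    { carrier := {a | A.valuation ((a : FFd W) : Qb) < 1}
      zero_mem' := by
        change A.valuation (((0 : 𝓞 (FFd W)) : FFd W) : Qb) < 1
        simp
      add_mem' := by
        intro a b ha hb
        change A.valuation (((a : FFd W) : Qb) + ((b : FFd W) : Qb)) < 1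
        exact (A.valuation.map_add _ _).trans_lt (max_lt ha hb)
      smul_mem' := by
        intro c a ha
        change A.valuation (((c : FFd W) : Qb) * ((a : FFd W) : Qb)) < 1
        rw [map_mul]
        exact (mul_le_of_le_one_left' (hint c)).trans_lt ha }
  have hP : P.IsPrime := by
    constructor
    · rw [Ideal.ne_top_iff_one]
      change ¬ A.valuation (((1 : 𝓞 (FFd W)) : FFd W) : Qb) < 1
      have : (((1 : 𝓞 (FFd W)) : FFd W) : Qb) = 1 := rfl
      rw [this, map_one]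
      exact lt_irrefl _
    · intro a b hab
      change A.valuation (((a : FFd W) : Qb) * ((b : FFd W) : Qb)) < 1 at hab
      by_contra h
      rw [not_or] at h
      have h1 : A.valuation ((a : FFd W) : Qb) = 1 := le_antisymm (hint a) (not_lt.mp h.1)
      have h2 : A.valuation ((b : FFd W) : Qb) = 1 := le_antisymm (hint b) (not_lt.mp h.2)
      rw [map_mul, h1, h2, mul_one] at hab
      exact lt_irrefl _ hab
  have hqP : ((q : ℕ) : 𝓞 (FFd W)) ∈ P := by
    change A.valuation ((((q : ℕ) : 𝓞 (FFd W)) : FFd W) : Qb) < 1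
    have : ((((q : ℕ) : 𝓞 (FFd W)) : FFd W) : Qb) = ((q : ℕ) : Qb) := by simp
    rw [this]
    exact hvq
  obtain ⟨g, hg⟩ := exists_gal_of_prime hW P hqP
  refine ⟨g, fun z hz hnorm => ?_⟩
  have hgP : ∀ a : 𝓞 (FFd W), a ∉ (primeOf (phx q W g)).asIdeal →
      A.valuation ((a : FFd W) : Qb) = 1 := by
    intro a ha
    refine le_antisymm (hint a) (not_lt.mp fun hlt => ha ?_)
    rw [mem_primeOf]
    exact (hg a).mp hlt
  have h1 : (primeOf (phx q W g)).valuation (FFd W) (⟨z, hz⟩ : FFd W) = 1 := by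
    rw [valuation_eq_one_iff]
    exact hnorm
  obtain ⟨n, ⟨d, hd⟩, hnd⟩ := HeightOneSpectrum.exists_primeCompl_mul_eq_of_integer _
    (⟨z, hz⟩ : FFd W) h1.le
  have hn : n ∉ (primeOf (phx q W g)).asIdeal := by
    intro hn
    rw [← HeightOneSpectrum.valuation_lt_one_iff_mem (K := FFd W)] at hn
    have h2 : (primeOf (phx q W g)).valuation (FFd W) (d : FFd W) = 1 := by
      refine le_antisymm (HeightOneSpectrum.valuation_le_one _ _) (not_lt.mp fun hlt => hd ?_)
      exact (HeightOneSpectrum.valuation_lt_one_iff_mem (K := FFd W) _ _).mp hlt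
    have h3 : (primeOf (phx q W g)).valuation (FFd W) (algebraMap (𝓞 (FFd W)) (FFd W) n) = 1 := by
      rw [← hnd, map_mul, h1, one_mul]
      exact h2
    rw [h3] at hn
    exact lt_irrefl _ hn
  have h4 := hgP n hn
  have h5 := hgP d hd
  have h6 : z * ((d : FFd W) : Qb) = ((n : FFd W) : Qb) := congrArg Subtype.val hnd
  rw [← h6, map_mul, h5, mul_one] at h4
  exact h4

/-- Roots of units are unramified. -/
theorem root_mem_KI_of_unit {A : ValuationSubring Qb} {q : ℕ} (hq : q.Prime)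
    (hA : A.LiesOverPrime q) {m : ℕ} (hm : ¬ q ∣ m) {y : Qb} (hy : A.valuation y = 1)
    (hyK : y ^ m ∈ LG.KI A) : y ∈ LG.KI A := by
  rw [LG.mem_KI] at hyK ⊢
  intro σ hσ
  have hm0 : m ≠ 0 := by rintro rfl; simp at hm
  have hy0 : y ≠ 0 := by
    rintro rfl
    rw [map_zero] at hy
    exact zero_ne_one hy
  have h1 : (σ y / y) ^ m = 1 := by
    rw [div_pow, ← map_pow, hyK σ hσ, div_self (pow_ne_zero _ hy0)]
  have h2 : A.valuation (σ y / y - 1) < 1 := by
    have h3 : σ y / y - 1 = (σ y - y) / y := by field_simp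
    rw [h3, map_div₀, hy, div_one]
    exact EC.inertia_residue hσ hy.le
  have h3 := LG.root_eq_of_congr hq hA hm h1 (one_pow m) h2
  exact (div_eq_one_iff_eq hy0).mp h3

/-- **Elements of `KS S` whose divisor is divisible by `p` are `p`-th powers in `KS S`.** -/
theorem exists_root_KS (hp : p.Prime) {pp : Nat.Primes} (hpp : (pp : ℕ) = p) (hpS : pp ∈ S)
    (x : KS S) (hx : ∀ l ∉ S, ∀ g : GQ, (p : ℤ) ∣ divl l (x : Additive Qbˣ) g) :
    ∃ y : KS S, p • y = x := by
  set x₀ : Qb := ((x : Additive Qbˣ).toMul : Qb) with hx₀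
  have hx₀0 : x₀ ≠ 0 := Units.ne_zero _
  obtain ⟨V, hV, hVx⟩ := x.2
  have hVx' : ∀ v ∈ V, v x₀ = x₀ := by
    intro v hv
    have h1 := hVx v hv
    rw [hx₀, ← repQb_apply, h1]
  obtain ⟨y₀, hy₀⟩ := IsAlgClosed.exists_pow_nat_eq x₀ hp.pos
  have hy₀0 : y₀ ≠ 0 := by
    rintro rfl
    rw [zero_pow hp.ne_zero] at hy₀
    exact hx₀0 hy₀.symm
  -- all conjugates of `y₀` are in the inertia fields
  have key : ∀ q : Nat.Primes, q ∉ S → ∀ A : ValuationSubring Qb, A.LiesOverPrime (q : ℕ) →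
      ∀ h : GQ, h y₀ ∈ LG.KI A := by
    intro q hq A hA h
    have hqp : ¬ (q : ℕ) ∣ p := by
      intro hd
      have h1 : (q : ℕ) = p := (Nat.prime_dvd_prime_iff_eq q.2 hp).mp hd
      apply hq
      have : q = pp := Subtype.ext (h1.trans hpp.symm)
      rwa [this]
    have hhx : h x₀ ∈ FFd V := by
      rw [mem_FFd]
      intro v hv
      have h1 : h⁻¹ * v * h ∈ V := by
        have := hV.1.conj_mem v hv h⁻¹
        simpa using this
      have h2 := hVx' _ h1
      have h3 := congrArg h h2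
      rw [AlgEquiv.mul_apply, AlgEquiv.mul_apply, ← AlgEquiv.mul_apply h h⁻¹, mul_inv_cancel,
        AlgEquiv.one_apply] at h3
      exact h3
    obtain ⟨g, hg⟩ := exists_gal_of_place (isOpen_of_famS ⟨V, hV, le_rfl⟩) A hA
    obtain ⟨n, hn⟩ := hx q hq (g * h)
    have h1 := norm_eq_divl hq x (g * h)
    rw [hn, AlgEquiv.mul_apply] at h1
    have hqF : ((q : ℕ) : Qb) ≠ 0 := Nat.cast_ne_zero.mpr q.2.ne_zero
    have hql : (0 : ℝ) < ((q : ℕ) : ℝ) := by exact_mod_cast q.2.pos
    have h2 : ‖il q (g ((h y₀ / ((q : ℕ) : Qb) ^ n) ^ p))‖ = 1 := by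
      have h3 : (h y₀ / ((q : ℕ) : Qb) ^ n) ^ p = h x₀ / (((q : ℕ) : Qb) ^ n) ^ p := by
        rw [div_pow, ← map_pow, hy₀]
      rw [h3, map_div₀, map_div₀, norm_div, h1, map_pow, map_pow, map_zpow₀, map_zpow₀,
        map_natCast g, map_natCast (il q), norm_pow, norm_zpow, norm_nat, inv_zpow, inv_pow,
        ← zpow_natCast, ← zpow_mul, div_inv_eq_mul, ← zpow_add₀ hql.ne']
      have h4 : -((p : ℤ) * n) + n * (p : ℤ) = 0 := by ring
      rw [h4, zpow_zero]
    have hmemF : (h y₀ / ((q : ℕ) : Qb) ^ n) ^ p ∈ FFd V := by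
      have h3 : (h y₀ / ((q : ℕ) : Qb) ^ n) ^ p = h x₀ / (((q : ℕ) : Qb) ^ n) ^ p := by
        rw [div_pow, ← map_pow, hy₀]
      rw [h3]
      exact (FFd V).div_mem hhx (pow_mem (zpow_mem ((FFd V).natCast_mem _) _) _)
    have h5 : A.valuation ((h y₀ / ((q : ℕ) : Qb) ^ n) ^ p) = 1 := hg _ hmemF h2
    have h6 : A.valuation (h y₀ / ((q : ℕ) : Qb) ^ n) = 1 := by
      rw [map_pow] at h5
      exact (LG.pow_eq_one_iff_of_ne_zero' hp.ne_zero).mp h5
    have h7 : h y₀ / ((q : ℕ) : Qb) ^ n ∈ LG.KI A := by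
      apply root_mem_KI_of_unit q.2 hA hqp h6
      rw [LG.mem_KI]
      intro σ hσ
      exact mem_FFd.mp hmemF σ (hV.2.2 q hq A hA hσ)
    have h8 : h y₀ = h y₀ / ((q : ℕ) : Qb) ^ n * ((q : ℕ) : Qb) ^ n := by
      field_simp
    rw [h8]
    exact (LG.KI A).mul_mem h7 (zpow_mem ((LG.KI A).natCast_mem _) _)
  -- the level
  let T : Finset Qb := ((minpoly ℚ y₀).aroots Qb).toFinset
  have hT : ∀ g : GQ, ∀ x ∈ T, g x ∈ T := by
    intro g x hx
    rw [Multiset.mem_toFinset, Polynomial.mem_aroots] at hx ⊢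
    refine ⟨hx.1, ?_⟩
    have := congrArg g hx.2
    rw [map_zero] at this
    rw [← this]
    exact (Polynomial.aeval_algHom_apply (g : Qb →ₐ[ℚ] Qb) x (minpoly ℚ y₀))
  have hyT : y₀ ∈ T := by
    rw [Multiset.mem_toFinset, Polynomial.mem_aroots]
    exact ⟨minpoly.ne_zero (Algebra.IsIntegral.isIntegral y₀), minpoly.aeval ℚ y₀⟩
  have hTconj : ∀ z ∈ T, ∃ h : GQ, h y₀ = z := by
    intro z hz
    rw [Multiset.mem_toFinset, Polynomial.mem_aroots] at hz
    have h1 : minpoly ℚ y₀ = minpoly ℚ z :=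
      minpoly.eq_of_irreducible_of_monic (minpoly.irreducible (Algebra.IsIntegral.isIntegral y₀))
        hz.2 (minpoly.monic (Algebra.IsIntegral.isIntegral y₀))
    obtain ⟨h, hh⟩ := (Normal.minpoly_eq_iff_mem_orbit (F := ℚ) (E := Qb)).mp h1.symm
    exact ⟨h, hh⟩
  let M : IntermediateField ℚ Qb := IntermediateField.adjoin ℚ (T : Set Qb)
  have hfd : @FiniteDimensional ℚ M _ _ M.algebra'.toModule :=
    IntermediateField.finiteDimensional_adjoin fun x _ => Algebra.IsIntegral.isIntegral x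
  have hMfix : ∀ g : GQ, (∀ z ∈ T, g z = z) → g ∈ M.fixingSubgroup := by
    intro g hg
    rw [IntermediateField.mem_fixingSubgroup_iff]
    intro z hz
    have h3 : ∀ y ∈ M, g y = y := by
      intro y hy
      induction hy using IntermediateField.adjoin_induction with
      | mem y hy => exact hg y hy
      | algebraMap q => exact g.commutes q
      | add a b _ _ ha hb => rw [map_add, ha, hb]
      | inv a _ ha => rw [map_inv₀, ha]
      | mul a b _ _ ha hb => rw [map_mul, ha, hb]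
    exact h3 z hz
  have hMT : ∀ g ∈ M.fixingSubgroup, ∀ z ∈ T, g z = z := by
    intro g hg z hz
    rw [IntermediateField.mem_fixingSubgroup_iff] at hg
    exact hg z (IntermediateField.subset_adjoin ℚ _ hz)
  have hmem : M.fixingSubgroup ∈ famS S := by
    refine ⟨⟨fun n hn g => hMfix _ fun z hz => ?_⟩, ?_, ?_⟩
    · rw [AlgEquiv.mul_apply, AlgEquiv.mul_apply, hMT n hn _ (hT g⁻¹ z hz), ← AlgEquiv.mul_apply,
        mul_inv_cancel, AlgEquiv.one_apply]
    · exact @IntermediateField.fixingSubgroup_isOpen ℚ Qb _ _ _ M hfd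
    · intro q hq A hA σ hσ
      apply hMfix
      intro z hz
      obtain ⟨h, rfl⟩ := hTconj z hz
      exact LG.mem_KI.mp (key q hq A hA h) σ hσ
  refine ⟨⟨Additive.ofMul (Units.mk0 y₀ hy₀0), M.fixingSubgroup, hmem, fun u hu => ?_⟩, ?_⟩
  · apply Additive.toMul.injective
    apply Units.ext
    exact hMT u hu y₀ hyT
  · apply Subtype.ext
    apply Additive.toMul.injective
    apply Units.ext
    change y₀ ^ p = x₀
    exact hy₀

end Fermat.Agent.GlobalCFT
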