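import Fermat.Agent.GlobalCFT.GPlaces

/-!
# Invariant ideles and principal ideles as subgroups of the ambient group
-/

set_option autoImplicit false

namespace Fermat.Agent.GlobalCFT

open Fermat.Agent.Coh Fermat.Agent.GCFT NumberField IsDedekindDomain

/-- The field of algebraic numbers. -/
local notation "Qb" => AlgebraicClosure ℚ
/-- The absolute Galois group. -/
local notation "GQ" => (AlgebraicClosure ℚ ≃ₐ[ℚ] AlgebraicClosure ℚ)

/-- the ambient group -/
abbrev AA : Type := (∀ l : Nat.Primes, (AlgebraicClosure ℚ ≃ₐ[ℚ] AlgebraicClosure ℚ) →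
  Additive (Om l)ˣ) × (Nat.Primes → (AlgebraicClosure ℚ ≃ₐ[ℚ] AlgebraicClosure ℚ) → ℤ)

/-- the invariant ideles -/
def HV (S : Finset Nat.Primes) (V : Subgroup GQ) : AddSubgroup AA where
  carrier := {a | a ∈ IS S ∧ ∀ v ∈ V, translI v a = a}
  zero_mem' := ⟨zero_mem _, fun v _ => map_zero _⟩
  add_mem' {a b} ha hb := ⟨add_mem ha.1 hb.1, fun v hv => by rw [map_add, ha.2 v hv, hb.2 v hv]⟩
  neg_mem' {a} ha := ⟨neg_mem ha.1, fun v hv => by rw [map_neg, ha.2 v hv]⟩

/-- the invariant principal ideles -/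
def EV (S : Finset Nat.Primes) (V : Subgroup GQ) : AddSubgroup AA where
  carrier := {a | ∃ x : KS S, (∀ v ∈ V, repK S v x = x) ∧ ((iKS S x : IS S) : AA) = a}
  zero_mem' := ⟨0, fun v _ => map_zero _, by rw [map_zero]; rfl⟩
  add_mem' := by
    rintro _ _ ⟨x, hx, rfl⟩ ⟨y, hy, rfl⟩
    exact ⟨x + y, fun v hv => by rw [map_add, hx v hv, hy v hv], by rw [map_add]; rfl⟩
  neg_mem' := by
    rintro _ ⟨x, hx, rfl⟩
    exact ⟨-x, fun v hv => by rw [map_neg, hx v hv], by rw [map_neg]; rfl⟩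

/-- ideles with trivial divisor outside `S'` -/
def NS (S' : Finset Nat.Primes) : AddSubgroup AA where
  carrier := {a | ∀ l ∉ S', a.2 l = 0}
  zero_mem' := fun l _ => rfl
  add_mem' {a b} ha hb l hl := by rw [Prod.snd_add, Pi.add_apply, ha l hl, hb l hl, add_zero]
  neg_mem' {a} ha l hl := by rw [Prod.snd_neg, Pi.neg_apply, ha l hl, neg_zero]

variable {S S' : Finset Nat.Primes} {V W U : Subgroup GQ}

lemma mem_HV {a : AA} : a ∈ HV S V ↔ a ∈ IS S ∧ ∀ v ∈ V, translI v a = a := Iff.rfl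

lemma mem_EV {a : AA} : a ∈ EV S V ↔
    ∃ x : KS S, (∀ v ∈ V, repK S v x = x) ∧ ((iKS S x : IS S) : AA) = a := Iff.rfl

lemma mem_NS {a : AA} : a ∈ NS S' ↔ ∀ l ∉ S', a.2 l = 0 := Iff.rfl

lemma EV_le_HV : EV S V ≤ HV S V := by
  rintro _ ⟨x, hx, rfl⟩
  refine ⟨(iKS S x).2, fun v hv => ?_⟩
  have h1 := iKS_comm S v x
  rw [hx v hv] at h1
  exact (congrArg Subtype.val h1).symm

/-- an element of the fixed field as an element of `KS S` -/
noncomputable def toKS (hW : (famS S).IsOpen W) : (FFd W)ˣ →* Multiplicative (KS S) where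
  toFun x := Multiplicative.ofAdd ⟨Additive.ofMul (Units.map (algebraMap (FFd W) Qb : FFd W →* Qb) x), by
    obtain ⟨U, hU, hUW⟩ := hW
    refine ⟨U, hU, fun u hu => ?_⟩
    apply Additive.toMul.injective
    apply Units.ext
    rw [repQb_apply]
    exact mem_FFd.mp (x : FFd W).2 u (hUW hu)⟩
  map_one' := by
    apply Multiplicative.toAdd.injective
    apply Subtype.ext
    change Additive.ofMul (Units.map (algebraMap (FFd W) Qb : FFd W →* Qb) 1) = 0
    rw [map_one]
    rfl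
  map_mul' x y := by
    apply Multiplicative.toAdd.injective
    apply Subtype.ext
    change Additive.ofMul (Units.map (algebraMap (FFd W) Qb : FFd W →* Qb) (x * y)) =
      Additive.ofMul (Units.map (algebraMap (FFd W) Qb : FFd W →* Qb) x) +
      Additive.ofMul (Units.map (algebraMap (FFd W) Qb : FFd W →* Qb) y)
    rw [map_mul]
    rfl

lemma coe_toKS (hW : (famS S).IsOpen W) (x : (FFd W)ˣ) :
    (((((toKS hW x).toAdd : KS S) : Additive Qbˣ).toMul : Qbˣ) : Qb) = ((x : FFd W) : Qb) := rfl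

lemma toKS_fixed (hW : (famS S).IsOpen W) (x : (FFd W)ˣ) {w : GQ} (hw : w ∈ W) :
    repK S w (toKS hW x).toAdd = (toKS hW x).toAdd := by
  apply Subtype.ext
  apply Additive.toMul.injective
  apply Units.ext
  change w ((x : FFd W) : Qb) = ((x : FFd W) : Qb)
  exact mem_FFd.mp (x : FFd W).2 w hw

lemma exists_toKS (hW : (famS S).IsOpen W) (x : KS S) (hx : ∀ w ∈ W, repK S w x = x) :
    ∃ y : (FFd W)ˣ, (toKS hW y).toAdd = x := by
  have h1 : (((x : Additive Qbˣ).toMul : Qbˣ) : Qb) ∈ FFd W := by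
    rw [mem_FFd]
    intro w hw
    have h2 := congrArg (fun z : KS S => (((z : Additive Qbˣ).toMul : Qbˣ) : Qb)) (hx w hw)
    exact h2
  have h0 : (⟨_, h1⟩ : FFd W) ≠ 0 := by
    intro h
    exact Units.ne_zero _ (congrArg Subtype.val h)
  refine ⟨Units.mk0 _ h0, ?_⟩
  apply Subtype.ext
  apply Additive.toMul.injective
  apply Units.ext
  rfl

/-- the principal idele of an element of the fixed field -/
noncomputable def jW (hW : (famS S).IsOpen W) : (FFd W)ˣ →* Multiplicative AA :=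
  (AddMonoidHom.toMultiplicative (((IS S).subtype.comp (iKS S)).toAddMonoidHom)).comp (toKS hW)

lemma jW_apply (hW : (famS S).IsOpen W) (x : (FFd W)ˣ) :
    (jW hW x).toAdd = diagFun S ((toKS hW x).toAdd : KS S) := rfl

lemma jW_injective (hS : S.Nonempty) (hW : (famS S).IsOpen W) : Function.Injective (jW hW) := by
  intro x y hxy
  have h1 : iKS S (toKS hW x).toAdd = iKS S (toKS hW y).toAdd :=
    Subtype.ext (congrArg Multiplicative.toAdd hxy)
  have h2 := iKS_injective hS h1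
  have h3 := congrArg (fun z : KS S => (((z : Additive Qbˣ).toMul : Qbˣ) : Qb)) h2
  exact Units.ext (Subtype.ext h3)

lemma jW_snd (hW : (famS S).IsOpen W) (x : (FFd W)ˣ) {l : Nat.Primes} (hl : l ∉ S) (g : GQ) :
    ((jW hW x).toAdd).2 l g = divl l ((toKS hW x).toAdd : KS S) g := by
  have h1 := congrArg (fun a : AA => a.2 l g) (jW_apply hW x)
  exact h1.trans (diagFun_snd_not hl _ _)

/-- The norm in terms of the divisor. -/
lemma norm_phx (hW : (famS S).IsOpen W) (x : (FFd W)ˣ) {l : Nat.Primes} (hl : l ∉ S) (g : GQ) :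
    ‖phx l W g (x : FFd W)‖ = ((l : ℕ) : ℝ) ^ (-((jW hW x).toAdd).2 l g) := by
  rw [jW_snd hW x hl, ← norm_eq_divl hl (Multiplicative.toAdd (toKS hW x)) g]
  rfl

lemma snd_eq_zero_iff (hW : (famS S).IsOpen W) [NumberField (FFd W)] (x : (FFd W)ˣ)
    {l : Nat.Primes} (hl : l ∉ S) (g : GQ) :
    ((jW hW x).toAdd).2 l g = 0 ↔
      (primeOf (phx l W g)).valuation (FFd W) (x : FFd W) = 1 := by
  have hl1 : 1 < ((l : ℕ) : ℝ) := by exact_mod_cast l.2.one_lt
  rw [valuation_eq_one_iff, norm_phx hW x hl]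
  constructor
  · intro h; rw [h, neg_zero, zpow_zero]
  · intro h
    have := (zpow_eq_one_iff_right₀ (by linarith) hl1.ne').mp h
    omega

lemma snd_eq_one (hW : (famS S).IsOpen W) [NumberField (FFd W)] (x : (FFd W)ˣ)
    {l : Nat.Primes} (hl : l ∉ S) (g : GQ)
    (h : (primeOf (phx l W g)).valuation (FFd W) (x : FFd W) = WithZero.exp (-1)) :
    ((jW hW x).toAdd).2 l g = 1 := by
  have hl1 : 1 < ((l : ℕ) : ℝ) := by exact_mod_cast l.2.one_lt
  have hl0 : (0 : ℝ) < ((l : ℕ) : ℝ) := by linarith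
  set v := primeOf (phx l W g) with hv
  have hlF : ((l : ℕ) : FFd W) ≠ 0 := Nat.cast_ne_zero.mpr l.2.ne_zero
  obtain ⟨e, he⟩ : ∃ e : ℤ, v.valuation (FFd W) ((l : ℕ) : FFd W) = WithZero.exp e := by
    refine ⟨WithZero.log (v.valuation (FFd W) ((l : ℕ) : FFd W)), ?_⟩
    rw [WithZero.exp_log]
    rwa [Ne, map_eq_zero]
  have h1 : v.valuation (FFd W) ((x : FFd W) ^ (-e) / ((l : ℕ) : FFd W)) = 1 := by
    rw [map_div₀, map_zpow₀, h, he, ← WithZero.exp_zsmul]
    simp
  have h2 := (valuation_eq_one_iff (phx l W g)).mp h1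
  rw [map_div₀, map_zpow₀, map_natCast, norm_div, norm_zpow, norm_nat, norm_phx hW x hl] at h2
  have h3 : ‖phx l W g (x : FFd W)‖ < 1 := by
    rw [← valuation_lt_one_iff, ← hv, h]
    decide
  rw [norm_phx hW x hl] at h3
  set n := ((jW hW x).toAdd).2 l g
  have hn : 0 < n := by
    by_contra hcon
    have : 1 ≤ ((l : ℕ) : ℝ) ^ (-n) := one_le_zpow₀ hl1.le (by omega)
    linarith
  have h4 : ((l : ℕ) : ℝ) ^ ((-n) * (-e)) = ((l : ℕ) : ℝ) ^ (-1 : ℤ) := by
    rw [zpow_mul, zpow_neg_one]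
    have : ((l : ℕ) : ℝ)⁻¹ ≠ 0 := inv_ne_zero hl0.ne'
    rwa [div_eq_one_iff_eq this] at h2
  have h5 : (-n) * (-e) = -1 := zpow_right_injective₀ hl0 hl1.ne' h4
  have h6 : n ∣ 1 := ⟨-e, by linarith⟩
  have := Int.le_of_dvd one_pos h6
  omega

end Fermat.Agent.GlobalCFT
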