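import Fermat.Agent.GlobalCFT.Shap
import Fermat.Agent.GlobalCFT.Ambient
import Fermat.Agent.PT.Conc

/-!
# Semilocal Shapiro for the ideles: degree two at `S`, degree one for divisors
-/

set_option autoImplicit false
set_option linter.style.haveILetI false

namespace Fermat.Agent.GlobalCFT

open Fermat.Agent.Coh Fermat.Agent.GCFT Fermat.Agent.GalD Fermat.Agent.LocalCFT Fermat.Agent.PT

/-- The field of algebraic numbers. -/
local notation "Qb" => AlgebraicClosure ℚ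
/-- The absolute Galois group. -/
local notation "GQ" => (AlgebraicClosure ℚ ≃ₐ[ℚ] AlgebraicClosure ℚ)

/-- Hilbert 90 for subgroups of the local Galois group. -/
theorem h90_local (l : Nat.Primes) (K : Subgroup (Gl l)) (f : K → Additive (Om l)ˣ)
    (hsm : ((LF (l : ℕ)).res K).Sm1 f)
    (hf : ∀ g h : K, f (g * h) = LU (l : ℕ) (g : Gl l) (f h) + f g) :
    ∃ y : Additive (Om l)ˣ, ∀ g : K, f g = LU (l : ℕ) (g : Gl l) y - y := by
  let a : K →* (Om l ≃+* Om l) :=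
    { toFun := fun g => ((g : Gl l) : Om l ≃+* Om l)
      map_one' := rfl
      map_mul' := fun _ _ => rfl }
  obtain ⟨b, hb⟩ := h90 ((LF (l : ℕ)).res K) a (by
    rintro _ ⟨W', ⟨L, hL1, hL2, rfl⟩, rfl⟩ g hg
    intro x
    exact hg x fun w hw => hw x) (fun g => (f g).toMul) (hsm.post _) (by
      intro g h
      change uval (f (g * h)) = (g : Gl l) (uval (f h)) * uval (f g)
      rw [hf, uval_add, uval_unitsRep])
  refine ⟨Additive.ofMul b, fun g => uval_injective ?_⟩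
  rw [uval_sub, uval_unitsRep]
  exact hb g

/-- Normalisation of a local cochain. -/
theorem exists_normalized (l : Nat.Primes) (H K : Subgroup (Gl l)) (hKH : K ≤ H)
    (hn : ∀ δ ∈ H, ∀ κ ∈ K, δ⁻¹ * κ * δ ∈ K) (f : Gl l → Gl l → Additive (Om l)ˣ)
    (b : H → Additive (Om l)ˣ) (hsm : ((LF (l : ℕ)).res H).Sm1 b)
    (hb : ∀ δ ε : H, f δ ε = LU (l : ℕ) (δ : Gl l) (b ε) - b (δ * ε) + b δ)
    (hf1 : ∀ δ ∈ H, ∀ ε ∈ H, ∀ κ ∈ K, ∀ κ' ∈ K, f (δ * κ) (ε * κ') = f δ ε)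
    (hf2 : ∀ δ ∈ H, ∀ ε ∈ H, ∀ κ ∈ K, LU (l : ℕ) κ (f δ ε) = f δ ε) :
    ∃ b' : Gl l → Additive (Om l)ˣ,
      (∀ δ ∈ H, ∀ κ ∈ K, b' (δ * κ) = b' δ) ∧ (∀ δ ∈ H, ∀ κ ∈ K, LU (l : ℕ) κ (b' δ) = b' δ) ∧
      ∀ δ ∈ H, ∀ ε ∈ H, f δ ε = LU (l : ℕ) δ (b' ε) - b' (δ * ε) + b' δ := by
  classical
  set ρ := LU (l : ℕ) with hρ
  set c := f 1 1 with hc
  have hcK : ∀ κ ∈ K, ρ κ c = c := fun κ hκ => hf2 1 H.one_mem 1 H.one_mem κ hκ
  have hfK : ∀ κ ∈ K, ∀ κ' ∈ K, f κ κ' = c := by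
    intro κ hκ κ' hκ'
    have := hf1 1 H.one_mem 1 H.one_mem κ hκ κ' hκ'
    rwa [one_mul, one_mul] at this
  -- the cocycle on `K`
  obtain ⟨y, hy⟩ := h90_local l K (fun κ => b ⟨κ, hKH κ.2⟩ - c) (by
    obtain ⟨_, ⟨W, hW, rfl⟩, h⟩ := hsm
    refine ⟨_, ⟨W, hW, rfl⟩, fun g w hw => ?_⟩
    have := h ⟨g, hKH g.2⟩ ⟨w, hKH w.2⟩ hw
    exact congrArg (· - c) this) (by
    intro g h
    have h1 := hb ⟨g, hKH g.2⟩ ⟨h, hKH h.2⟩
    have h2 : f (g : Gl l) (h : Gl l) = c := hfK _ g.2 _ h.2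
    change f (g : Gl l) (h : Gl l) = ρ (g : Gl l) (b ⟨h, hKH h.2⟩) -
      b ⟨(g : Gl l) * h, _⟩ + b ⟨g, hKH g.2⟩ at h1
    change b ⟨(g : Gl l) * h, _⟩ - c = ρ (g : Gl l) (b ⟨h, hKH h.2⟩ - c) + (b ⟨g, hKH g.2⟩ - c)
    rw [map_sub, hcK _ g.2]
    rw [h2] at h1
    have h3 : b ⟨(g : Gl l) * h, H.mul_mem (hKH g.2) (hKH h.2)⟩ =
        ρ (g : Gl l) (b ⟨h, hKH h.2⟩) + b ⟨g, hKH g.2⟩ - c := by
      rw [eq_sub_iff_add_eq]
      nth_rewrite 1 [h1]
      abel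
    rw [h3]
    abel)
  set b' : Gl l → Additive (Om l)ˣ := fun δ => if h : δ ∈ H then b ⟨δ, h⟩ - (ρ δ y - y) else 0
    with hb'
  have hb'H : ∀ δ (h : δ ∈ H), b' δ = b ⟨δ, h⟩ - (ρ δ y - y) := fun δ h => dif_pos h
  have hcob : ∀ δ ∈ H, ∀ ε ∈ H, f δ ε = ρ δ (b' ε) - b' (δ * ε) + b' δ := by
    intro δ hδ ε hε
    rw [hb'H δ hδ, hb'H ε hε, hb'H _ (H.mul_mem hδ hε), map_sub, map_sub, map_mul,
      Module.End.mul_apply]
    have h1 := hb ⟨δ, hδ⟩ ⟨ε, hε⟩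
    change f δ ε = ρ δ (b ⟨ε, hε⟩) - b ⟨δ * ε, _⟩ + b ⟨δ, hδ⟩ at h1
    rw [h1]
    abel
  have hbK : ∀ κ ∈ K, b' κ = c := by
    intro κ hκ
    rw [hb'H κ (hKH hκ), ← hy ⟨κ, hκ⟩]
    abel
  have hb1 : b' 1 = c := hbK 1 K.one_mem
  have hδ1 : ∀ δ ∈ H, f δ 1 = ρ δ c := by
    intro δ hδ
    rw [hcob δ hδ 1 H.one_mem, mul_one, hb1]
    abel
  have h1δ : ∀ δ ∈ H, f 1 δ = c := by
    intro δ hδ
    rw [hcob 1 H.one_mem δ hδ, one_mul, hb1, map_one, Module.End.one_apply]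
    abel
  have hinv : ∀ δ ∈ H, ∀ κ ∈ K, b' (δ * κ) = b' δ := by
    intro δ hδ κ hκ
    have h1 := hcob δ hδ κ (hKH hκ)
    have h2 := hf1 δ hδ 1 H.one_mem 1 K.one_mem κ hκ
    rw [mul_one, one_mul, hδ1 δ hδ] at h2
    rw [hbK κ hκ, h2] at h1
    have h3 : b' (δ * κ) = ρ δ c + b' δ - (ρ δ c - b' (δ * κ) + b' δ) + 0 := by abel
    rw [h3, ← h1]
    abel
  refine ⟨b', hinv, fun δ hδ κ hκ => ?_, hcob⟩
  have h1 := hcob κ (hKH hκ) δ hδ
  have h2 := hf1 1 H.one_mem δ hδ κ hκ 1 K.one_mem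
  rw [mul_one, one_mul, h1δ δ hδ] at h2
  have h3 : b' (κ * δ) = b' δ := by
    have h4 : κ * δ = δ * (δ⁻¹ * κ * δ) := by group
    rw [h4, hinv δ hδ _ (hn δ hδ κ hκ)]
  rw [h2, h3, hbK κ hκ] at h1
  have h5 : ρ κ (b' δ) = (ρ κ (b' δ) - b' δ + c) - c + b' δ := by abel
  rw [h5, ← h1]
  abel

/-- **Semilocal Shapiro in degree two**: a cocycle with values in the ideles, without divisor
part and locally trivial at all places above `S`, is a coboundary. -/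
theorem semilocal_two {S : Finset Nat.Primes} {U : Subgroup GQ} (hU : (famS S).IsOpen U)
    (f : ↥(Z2 ((famS S).res U) (rep (repI S) U)))
    (hf2 : ∀ q, (((f : U × U → IS S) q : IS S) : AA).2 = 0)
    (hloc : ∀ l ∈ S, ∀ x : GQ, ∃ b : stabL l x U → Additive (Om l)ˣ,
      ((LF (l : ℕ)).res (stabL l x U)).Sm1 b ∧ ∀ δ ε : stabL l x U,
        (((f : U × U → IS S) (stabHom l x U δ, stabHom l x U ε) : IS S) : AA).1 l x =
          LU (l : ℕ) (δ : Gl l) (b ε) - b (δ * ε) + b δ) :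
    ∃ a : U → IS S, ((famS S).res U).Sm1 a ∧ (∀ g, ((a g : IS S) : AA).2 = 0) ∧
      ∀ g h, (f : U × U → IS S) (g, h) = rep (repI S) U g (a h) - a (g * h) + a g := by
  classical
  obtain ⟨W₀, hW₀, hW₀U⟩ := hU
  obtain ⟨_, ⟨W₁, hW₁, rfl⟩, hsm⟩ := f.2.1
  obtain ⟨W₂, hW₂, hfix⟩ := (repI_smooth S).finite (s := Set.range (f : U × U → IS S))
    (Fam.Sm2.finite_range f.2.1)
  set V : Subgroup GQ := W₀ ⊓ (W₁ ⊓ W₂) with hVdef
  have hV : V ∈ famS S := (famS S).inf_mem _ hW₀ _ ((famS S).inf_mem _ hW₁ _ hW₂)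
  have hVn : V.Normal := (famS S).normal V hV
  have hVU : V ≤ U := fun v hv => hW₀U hv.1
  -- extension by zero
  set F : GQ → GQ → IS S := fun g h => if hgh : g ∈ U ∧ h ∈ U then
    (f : U × U → IS S) (⟨g, hgh.1⟩, ⟨h, hgh.2⟩) else 0 with hF
  have hFU : ∀ g (hg : g ∈ U) h (hh : h ∈ U), F g h = (f : U × U → IS S) (⟨g, hg⟩, ⟨h, hh⟩) :=
    fun g hg h hh => dif_pos ⟨hg, hh⟩
  have hFcoc : ∀ g ∈ U, ∀ h ∈ U, ∀ j ∈ U,
      F (g * h) j + F g h = repI S g (F h j) + F g (h * j) := by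
    intro g hg h hh j hj
    rw [hFU _ (U.mul_mem hg hh) _ hj, hFU _ hg _ hh, hFU _ hh _ hj, hFU _ hg _ (U.mul_mem hh hj)]
    exact f.2.2 ⟨g, hg⟩ ⟨h, hh⟩ ⟨j, hj⟩
  have hFsm : ∀ g ∈ U, ∀ h ∈ U, ∀ v ∈ V, ∀ v' ∈ V, F (g * v) (h * v') = F g h := by
    intro g hg h hh v hv v' hv'
    rw [hFU _ (U.mul_mem hg (hVU hv)) _ (U.mul_mem hh (hVU hv')), hFU _ hg _ hh]
    exact hsm ⟨g, hg⟩ ⟨h, hh⟩ ⟨v, hVU hv⟩ hv.2.1 ⟨v', hVU hv'⟩ hv'.2.1
  have hFfix : ∀ g ∈ U, ∀ h ∈ U, ∀ v ∈ V, repI S v (F g h) = F g h := by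
    intro g hg h hh v hv
    rw [hFU _ hg _ hh]
    exact hfix v hv.2.2 _ ⟨_, rfl⟩
  -- solution at each prime of `S`
  have key : ∀ l : Nat.Primes, ∃ A : GQ → GQ → Additive (Om l)ˣ,
      (∀ g ∈ U, ∀ δ w, A g (rl l δ * w) = LU (l : ℕ) δ (A g w)) ∧
      (∀ g ∈ U, ∀ v ∈ V, ∀ w, A (g * v) w = A g w) ∧
      (∀ g ∈ U, ∀ v ∈ V, ∀ w, A g (w * v) = A g w) ∧
      (∀ g ∈ U, ∀ h ∈ U, ∀ w, ((F g h : IS S) : AA).1 l w = A h (w * g) - A (g * h) w + A g w) ∧
      (l ∉ S → A = 0) := by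
    intro l
    by_cases hl : l ∈ S
    · have hFfix' : ∀ g ∈ U, ∀ h ∈ U, ∀ v ∈ V, ∀ w,
          ((F g h : IS S) : AA).1 l (w * v) = ((F g h : IS S) : AA).1 l w := by
        intro g hg h hh v hv w
        have h1 := congrArg (fun a : IS S => (a : AA).1 l w) (hFfix g hg h hh v hv)
        exact h1
      have hFeq : ∀ g h δ w, ((F g h : IS S) : AA).1 l (rl l δ * w) =
          LU (l : ℕ) δ (((F g h : IS S) : AA).1 l w) := by
        intro g h δ w
        exact (F g h).2.1 l hl δ w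
      have hbx : ∀ x : GQ, ∃ b' : Gl l → Additive (Om l)ˣ,
          (∀ δ ∈ stabL l x U, ∀ κ ∈ stabL l x V, b' (δ * κ) = b' δ) ∧
          (∀ δ ∈ stabL l x U, ∀ κ ∈ stabL l x V, LU (l : ℕ) κ (b' δ) = b' δ) ∧
          ∀ δ ∈ stabL l x U, ∀ ε ∈ stabL l x U,
            ((F (x⁻¹ * rl l δ * x) (x⁻¹ * rl l ε * x) : IS S) : AA).1 l x =
              LU (l : ℕ) δ (b' ε) - b' (δ * ε) + b' δ := by
        intro x
        obtain ⟨b, hb1, hb2⟩ := hloc l hl x
        refine exists_normalized l (stabL l x U) (stabL l x V) (fun κ hκ => ?_) ?_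
          (fun δ ε => ((F (x⁻¹ * rl l δ * x) (x⁻¹ * rl l ε * x) : IS S) : AA).1 l x) b hb1 ?_ ?_ ?_
        · exact mem_stabL.mpr (hVU (mem_stabL.mp hκ))
        · intro δ _ κ hκ
          rw [mem_stabL] at hκ ⊢
          have h1 := hVn.conj_mem _ hκ (x⁻¹ * rl l δ * x)⁻¹
          have h2 : (x⁻¹ * rl l δ * x)⁻¹ * (x⁻¹ * rl l κ * x) * ((x⁻¹ * rl l δ * x)⁻¹)⁻¹ =
              x⁻¹ * rl l (δ⁻¹ * κ * δ) * x := by
            rw [map_mul, map_mul, map_inv]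
            group
          rwa [h2] at h1
        · intro δ ε
          rw [← hb2 δ ε, hFU _ (mem_stabL.mp δ.2) _ (mem_stabL.mp ε.2)]
          rfl
        · intro δ hδ ε hε κ hκ κ' hκ'
          have e1 : ∀ δ κ : Gl l, x⁻¹ * rl l (δ * κ) * x =
              (x⁻¹ * rl l δ * x) * (x⁻¹ * rl l κ * x) := by
            intro δ κ
            rw [map_mul]
            group
          simp only [e1]
          rw [hFsm _ (mem_stabL.mp hδ) _ (mem_stabL.mp hε) _ (mem_stabL.mp hκ) _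
            (mem_stabL.mp hκ')]
        · intro δ hδ ε hε κ hκ
          have h1 := hFfix' _ (mem_stabL.mp hδ) _ (mem_stabL.mp hε) _ (mem_stabL.mp hκ) x
          have h2 : x * (x⁻¹ * rl l κ * x) = rl l κ * x := by group
          rw [h2, hFeq] at h1
          exact h1
      choose b' hb1 hb2 hb3 using hbx
      obtain ⟨A, h1, h2, h3, h4⟩ := shapiro_two (r := rl l) (ρ := LU (l : ℕ)) (U := U) hVn
        (fun g h w => ((F g h : IS S) : AA).1 l w) (fun g _ h _ δ w => hFeq g h δ w) (by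
          intro g hg h hh j hj w
          have h1 := congrArg (fun a : IS S => (a : AA).1 l w) (hFcoc g hg h hh j hj)
          exact h1) (by
          intro g hg h hh v hv v' hv' w
          simp only [hFsm g hg h hh v hv v' hv']) (fun g hg h hh v hv w =>
            hFfix' g hg h hh v hv w) hVU b' (fun x δ κ hδ hκ => hb1 x δ (mem_stabL.mpr hδ) κ
            (mem_stabL.mpr hκ)) (fun x δ κ hδ hκ => hb2 x δ (mem_stabL.mpr hδ) κ
            (mem_stabL.mpr hκ)) (fun x δ ε hδ hε => hb3 x δ (mem_stabL.mpr hδ) ε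
            (mem_stabL.mpr hε))
      exact ⟨A, h1, h2, h3, h4, fun h => absurd hl h⟩
    · refine ⟨0, fun _ _ _ _ => ?_, fun _ _ _ _ _ => rfl, fun _ _ _ _ _ => rfl, ?_,
        fun _ => rfl⟩
      · exact (map_zero _).symm
      · intro g _ h _ w
        have h1 : ((F g h : IS S) : AA).1 l = 0 := (F g h).2.2.1 l hl
        rw [h1]
        simp
  choose A hA1 hA2 hA3 hA4 hA5 using key
  have hmem : ∀ g : U, ((fun l w => A l g w, 0) : AA) ∈ IS S := by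
    intro g
    refine ⟨fun l _ δ w => hA1 l g g.2 δ w, fun l hl => ?_, fun l => zero_mem _, fun l _ => rfl,
      ?_, V, hV, fun v hv l w => ⟨hA3 l g g.2 v hv w, rfl⟩⟩
    · funext w
      simp only [hA5 l hl]
      rfl
    · simp
  refine ⟨fun g => ⟨_, hmem g⟩, ⟨_, ⟨V, hV, rfl⟩, fun g v hv => ?_⟩, fun g => rfl,
    fun g h => ?_⟩
  · apply Subtype.ext
    apply Prod.ext
    · funext l w
      exact hA2 l g g.2 v hv w
    · rfl
  · apply Subtype.ext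
    apply Prod.ext
    · funext l w
      have h1 := hA4 l g g.2 h h.2 w
      rw [hFU _ g.2 _ h.2] at h1
      exact h1
    · rw [hf2]
      funext l w
      change (0 : ℤ) = 0 - 0 + 0
      rfl

/-- **`H¹` of the divisor module vanishes.** -/
theorem div_one {S : Finset Nat.Primes} {U : Subgroup GQ} (hU : (famS S).IsOpen U)
    (c : ↥(Z1 ((famS S).res U) (rep (repI S) U)))
    (hc : ∀ g, (((c : U → IS S) g : IS S) : AA).1 = 0) :
    ∃ D : IS S, ((D : IS S) : AA).1 = 0 ∧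
      ∀ g : U, (c : U → IS S) g = rep (repI S) U g D - D := by
  classical
  obtain ⟨W₀, hW₀, hW₀U⟩ := hU
  obtain ⟨_, ⟨W₁, hW₁, rfl⟩, hsm⟩ := c.2.1
  obtain ⟨W₂, hW₂, hfix⟩ := (repI_smooth S).finite (s := Set.range (c : U → IS S))
    (Fam.Sm1.finite_range c.2.1)
  set V : Subgroup GQ := W₀ ⊓ (W₁ ⊓ W₂) with hVdef
  have hV : V ∈ famS S := (famS S).inf_mem _ hW₀ _ ((famS S).inf_mem _ hW₁ _ hW₂)
  have hVn : V.Normal := (famS S).normal V hV
  have hVU : V ≤ U := fun v hv => hW₀U hv.1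
  set F : GQ → IS S := fun g => if hg : g ∈ U then (c : U → IS S) ⟨g, hg⟩ else 0 with hF
  have hFU : ∀ g (hg : g ∈ U), F g = (c : U → IS S) ⟨g, hg⟩ := fun g hg => dif_pos hg
  have hFcoc : ∀ g ∈ U, ∀ h ∈ U, F (g * h) = repI S g (F h) + F g := by
    intro g hg h hh
    rw [hFU _ (U.mul_mem hg hh), hFU _ hg, hFU _ hh]
    exact c.2.2 ⟨g, hg⟩ ⟨h, hh⟩
  have hFV : ∀ v ∈ V, F v = 0 := by
    intro v hv
    have h1 := hsm 1 ⟨v, hVU hv⟩ hv.2.1
    rw [one_mul, Z1.map_one] at h1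
    rw [hFU v (hVU hv), h1]
  have hfin : (⋃ a ∈ Set.range (c : U → IS S), {l : Nat.Primes | ((a : IS S) : AA).2 l ≠ 0}).Finite := by
    refine Set.Finite.biUnion (Fam.Sm1.finite_range c.2.1) fun a _ => ?_
    exact a.2.2.2.2.2.1
  have key : ∀ l : Nat.Primes, ∃ D : GQ → ℤ, (∀ δ w, D (rl l δ * w) = D w) ∧
      (∀ g ∈ U, ∀ w, ((F g : IS S) : AA).2 l w = D (w * g) - D w) ∧
      ((∀ g ∈ U, ((F g : IS S) : AA).2 l = 0) → D = 0) := by
    intro l
    have hloc : ∀ x δ, x⁻¹ * rl l δ * x ∈ U → ((F (x⁻¹ * rl l δ * x) : IS S) : AA).2 l x = 0 := by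
      intro x δ hδ
      -- the powers
      set g := x⁻¹ * rl l δ * x with hg
      have hpow : ∀ n : ℕ, ((F (g ^ n) : IS S) : AA).2 l x = n * ((F g : IS S) : AA).2 l x := by
        intro n
        induction n with
        | zero =>
          rw [pow_zero, hFV 1 V.one_mem]
          simp
        | succ n ih =>
          have h1 := hFcoc (g ^ n) (U.pow_mem hδ n) g hδ
          have h2 := congrArg (fun a : IS S => (a : AA).2 l x) h1
          change ((F (g ^ n * g) : IS S) : AA).2 l x = ((F g : IS S) : AA).2 l (x * g ^ n) +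
            ((F (g ^ n) : IS S) : AA).2 l x at h2
          have h3 : x * g ^ n = rl l (δ ^ n) * x := by
            rw [hg, map_pow]
            have : x⁻¹ * rl l δ * x = x⁻¹ * rl l δ * (x⁻¹)⁻¹ := by rw [inv_inv]
            rw [this, conj_pow]
            group
          rw [h3, (F g).2.2.2.1 l, ih] at h2
          rw [pow_succ, h2]
          push_cast
          ring
      have hfi : V.FiniteIndex := (famS S).finiteIndex V hV
      obtain ⟨n, hn, hgn⟩ : ∃ n : ℕ, 0 < n ∧ g ^ n ∈ V :=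
        ⟨V.index, Nat.pos_of_ne_zero hfi.index_ne_zero, Subgroup.pow_index_mem V g⟩
      have h1 := hpow n
      rw [hFV _ hgn] at h1
      have h2 : ((n : ℤ)) ≠ 0 := by exact_mod_cast hn.ne'
      have h3 : (n : ℤ) * ((F g : IS S) : AA).2 l x = 0 := h1.symm
      exact (mul_eq_zero.mp h3).resolve_left h2
    let ρ : Representation ℤ (Gl l) ℤ := 1
    obtain ⟨D, h1, h2, h3⟩ := shapiro_one (r := rl l) (ρ := ρ) (U := U)
      (fun g w => ((F g : IS S) : AA).2 l w) (by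
        intro g _ δ w
        exact (F g).2.2.2.1 l δ w) (by
        intro g hg h hh w
        have h1 := congrArg (fun a : IS S => (a : AA).2 l w) (hFcoc g hg h hh)
        exact h1) (fun _ => 0) (by
        intro x δ hδ
        have := hloc x δ hδ
        simp only [this, map_zero, sub_zero])
    refine ⟨D, h1, h2, fun h0 => ?_⟩
    funext w
    obtain ⟨δ, x, u, hu, hD⟩ := h3 w
    rw [hD]
    simp only [h0 u hu]
    simp
  choose D hD1 hD2 hD3 using key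
  have hDV : ∀ v ∈ V, ∀ l w, D l (w * v) = D l w := by
    intro v hv l w
    have h1 := hD2 l v (hVU hv) w
    rw [hFV v hv] at h1
    have h2 : (0 : ℤ) = D l (w * v) - D l w := h1
    omega
  have hD0 : ∀ l, (∀ g ∈ U, ((F g : IS S) : AA).2 l = 0) → D l = 0 := hD3
  have hmem : ((0, fun l w => D l w) : AA) ∈ IS S := by
    refine ⟨fun l _ => zero_mem _, fun l _ => rfl, fun l δ w => hD1 l δ w, fun l hl => ?_, ?_,
      V, hV, fun v hv l w => ⟨rfl, hDV v hv l w⟩⟩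
    · have := hD0 l fun g _ => (F g).2.2.2.2.1 l hl
      funext w
      simp only [this]
    · refine hfin.subset fun l hl => ?_
      by_contra hcon
      apply hl
      have : D l = 0 := hD0 l fun g hg => by
        by_contra h
        apply hcon
        simp only [Set.mem_iUnion]
        exact ⟨_, ⟨⟨g, hg⟩, rfl⟩, by rw [← hFU g hg]; exact h⟩
      funext w
      simp only [this]
  refine ⟨⟨_, hmem⟩, rfl, fun g => ?_⟩
  apply Subtype.ext
  apply Prod.ext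
  · rw [hc]
    funext l w
    exact (sub_zero (0 : Additive (Om l)ˣ)).symm
  · funext l w
    have h1 := hD2 l g g.2 w
    rw [hFU _ g.2] at h1
    exact h1

end Fermat.Agent.GlobalCFT
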