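import Fermat.Agent.GlobalCFT.Units

/-!
# Finite places of a number field and embeddings into `PadicAlgCl l`
-/

set_option autoImplicit false

namespace Fermat.Agent.GlobalCFT

open NumberField IsDedekindDomain Polynomial

variable {K : Type*} [Field K] [NumberField K] {l : ℕ} [hl : Fact l.Prime]

lemma norm_int_le (φ : K →+* PadicAlgCl l) (a : 𝓞 K) : ‖φ (a : K)‖ ≤ 1 := by
  have h1 : IsIntegral ℤ (φ (a : K)) := (RingOfIntegers.isIntegral_coe a).map φ.toIntAlgHom
  have h2 : φ (a : K) ∈ (Valued.v : Valuation (PadicAlgCl l) NNReal).valuationSubring := by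
    have h3 : IsIntegral (Valued.v : Valuation (PadicAlgCl l) NNReal).valuationSubring
      (φ (a : K)) := h1.tower_top
    obtain ⟨y, hy⟩ := IsIntegrallyClosed.isIntegral_iff.mp h3
    rw [← hy]; exact y.2
  exact_mod_cast h2

omit [NumberField K] in
lemma norm_natCast_lt : ‖(l : PadicAlgCl l)‖ < 1 := by
  have h1 : ((l : ℚ_[l]) : PadicAlgCl l) = (l : PadicAlgCl l) := by simp
  rw [← h1, PadicAlgCl.norm_extends, Padic.norm_p]
  exact inv_lt_one_of_one_lt₀ (by exact_mod_cast hl.out.one_lt)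

lemma norm_natCast_pos : 0 < ‖(l : PadicAlgCl l)‖ :=
  norm_pos_iff.mpr (by exact_mod_cast hl.out.ne_zero)

/-- restriction to the ring of integers -/
noncomputable def phiO (φ : K →+* PadicAlgCl l) : 𝓞 K →+* PadicAlgCl l := φ.comp (algebraMap (𝓞 K) K)

/-- The ideal of `K` induced by an embedding into `PadicAlgCl l`. -/
noncomputable def idealOf (φ : K →+* PadicAlgCl l) : Ideal (𝓞 K) where
  carrier := {a | ‖phiO φ a‖ < 1}
  add_mem' := fun {a b} ha hb => by
    change ‖phiO φ (a + b)‖ < 1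
    rw [map_add]
    exact (IsUltrametricDist.norm_add_le_max _ _).trans_lt (max_lt ha hb)
  zero_mem' := by
    change ‖phiO φ 0‖ < 1
    rw [map_zero, norm_zero]
    exact one_pos
  smul_mem' := fun c {a} ha => by
    change ‖phiO φ (c * a)‖ < 1
    rw [map_mul, norm_mul]
    exact (mul_le_of_le_one_left (norm_nonneg _) (norm_int_le φ c)).trans_lt ha

/-- The prime of `K` induced by an embedding into `PadicAlgCl l`. -/
noncomputable def primeOf (φ : K →+* PadicAlgCl l) : HeightOneSpectrum (𝓞 K) where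
  asIdeal := idealOf φ
  isPrime := by
    constructor
    · rw [Ideal.ne_top_iff_one]
      change ¬ ‖phiO φ 1‖ < 1
      rw [map_one, norm_one]
      exact lt_irrefl _
    · intro a b hab
      change ‖phiO φ (a * b)‖ < 1 at hab
      rw [map_mul, norm_mul] at hab
      by_contra h
      rw [not_or] at h
      have h1 : ‖phiO φ a‖ = 1 := le_antisymm (norm_int_le φ a) (not_lt.mp h.1)
      have h2 : ‖phiO φ b‖ = 1 := le_antisymm (norm_int_le φ b) (not_lt.mp h.2)
      rw [h1, h2, mul_one] at hab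
      exact lt_irrefl _ hab
  ne_bot := by
    intro h
    have h1 : (l : 𝓞 K) ∈ idealOf φ := by
      change ‖phiO φ (l : 𝓞 K)‖ < 1
      rw [map_natCast]
      exact norm_natCast_lt
    rw [h, Ideal.mem_bot] at h1
    exact hl.out.ne_zero (by exact_mod_cast h1)

variable (φ : K →+* PadicAlgCl l)

lemma mem_primeOf {a : 𝓞 K} : a ∈ (primeOf φ).asIdeal ↔ ‖φ (a : K)‖ < 1 := Iff.rfl

lemma natCast_mem_primeOf : (l : 𝓞 K) ∈ (primeOf φ).asIdeal := by
  rw [mem_primeOf]
  have : φ ((l : 𝓞 K) : K) = (l : PadicAlgCl l) := by simp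
  rw [this]
  exact norm_natCast_lt

lemma norm_le_of_valuation_le {z : K} (h : (primeOf φ).valuation K z ≤ 1) : ‖φ z‖ ≤ 1 := by
  obtain ⟨n, ⟨d, hd⟩, hnd⟩ := HeightOneSpectrum.exists_primeCompl_mul_eq_of_integer _ z h
  have h1 : ‖φ (d : K)‖ = 1 := by
    refine le_antisymm (norm_int_le φ d) (not_lt.mp fun hlt => ?_)
    exact hd ((mem_primeOf φ).mpr hlt)
  have h2 : ‖φ z‖ * ‖φ (d : K)‖ = ‖φ (n : K)‖ := by rw [← norm_mul, ← map_mul]; exact congrArg _ (congrArg _ hnd)
  rw [h1, mul_one] at h2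
  rw [h2]
  exact norm_int_le φ n

lemma norm_eq_one_of_valuation_eq_one {z : K} (h : (primeOf φ).valuation K z = 1) :
    ‖φ z‖ = 1 := by
  refine le_antisymm (norm_le_of_valuation_le φ h.le) ?_
  have h1 : ‖φ z⁻¹‖ ≤ 1 := norm_le_of_valuation_le φ (by rw [map_inv₀, h, inv_one])
  have hz : z ≠ 0 := by
    rintro rfl
    rw [map_zero] at h
    exact zero_ne_one h
  rw [map_inv₀, norm_inv] at h1
  have hpos : 0 < ‖φ z‖ := norm_pos_iff.mpr ((map_ne_zero φ).mpr hz)
  exact (inv_le_one₀ hpos).mp h1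

lemma valuation_lt_one_iff {z : K} : (primeOf φ).valuation K z < 1 ↔ ‖φ z‖ < 1 := by
  constructor
  · intro h
    obtain ⟨n, ⟨d, hd⟩, hnd⟩ := HeightOneSpectrum.exists_primeCompl_mul_eq_of_integer _ z h.le
    have h1 : ‖φ (d : K)‖ = 1 := by
      refine le_antisymm (norm_int_le φ d) (not_lt.mp fun hlt => ?_)
      exact hd ((mem_primeOf φ).mpr hlt)
    have h2 : ‖φ z‖ * ‖φ (d : K)‖ = ‖φ (n : K)‖ := by
      rw [← norm_mul, ← map_mul]; exact congrArg _ (congrArg _ hnd)
    rw [h1, mul_one] at h2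
    rw [h2, ← mem_primeOf, ← HeightOneSpectrum.valuation_lt_one_iff_mem (K := K)]
    change (primeOf φ).valuation K (algebraMap (𝓞 K) K n) < 1
    rw [← hnd, map_mul]
    exact (mul_le_of_le_one_right' (HeightOneSpectrum.valuation_le_one _ _)).trans_lt h
  · intro h
    by_contra hcon
    rw [not_lt] at hcon
    have h1 : (primeOf φ).valuation K z⁻¹ ≤ 1 := by
      rw [map_inv₀]
      exact inv_le_one_of_one_le₀ hcon
    have h2 := norm_le_of_valuation_le φ h1
    have hz : z ≠ 0 := by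
      rintro rfl
      rw [map_zero] at hcon
      exact absurd hcon (not_le.mpr zero_lt_one)
    rw [map_inv₀, norm_inv] at h2
    have hpos : 0 < ‖φ z‖ := norm_pos_iff.mpr ((map_ne_zero φ).mpr hz)
    exact absurd ((inv_le_one₀ hpos).mp h2) (not_le.mpr h)

lemma valuation_eq_one_iff {z : K} : (primeOf φ).valuation K z = 1 ↔ ‖φ z‖ = 1 := by
  constructor
  · exact norm_eq_one_of_valuation_eq_one φ
  · intro h
    have hz : z ≠ 0 := by
      rintro rfl
      rw [map_zero, norm_zero] at h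
      exact zero_ne_one h
    refine le_antisymm ?_ ?_
    · by_contra hcon
      rw [not_le] at hcon
      have h1 : (primeOf φ).valuation K z⁻¹ < 1 := by
        rw [map_inv₀]
        exact inv_lt_one_of_one_lt₀ hcon
      rw [valuation_lt_one_iff, map_inv₀, norm_inv, h, inv_one] at h1
      exact lt_irrefl _ h1
    · by_contra hcon
      rw [not_le, valuation_lt_one_iff, h] at hcon
      exact lt_irrefl _ hcon

/-- The norms induced by two embeddings with the same prime coincide. -/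
lemma norm_eq_of_primeOf_eq {φ φ' : K →+* PadicAlgCl l} (h : primeOf φ = primeOf φ') (y : K) :
    ‖φ y‖ = ‖φ' y‖ := by
  by_cases hy : y = 0
  · rw [hy, map_zero, map_zero]
  have hl0 : (l : K) ≠ 0 := by exact_mod_cast hl.out.ne_zero
  set v := primeOf φ with hv
  set a := v.valuationOfNeZero (Units.mk0 y hy) with ha
  set b := v.valuationOfNeZero (Units.mk0 (l : K) hl0) with hb
  -- `y^(-b) l^a` has valuation one
  set z : Kˣ := Units.mk0 y hy ^ (-b.toAdd) * Units.mk0 (l : K) hl0 ^ a.toAdd with hz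
  have hz1 : v.valuation K (z : K) = 1 := by
    rw [← HeightOneSpectrum.valuationOfNeZero_eq]
    have : v.valuationOfNeZero z = 1 := by
      rw [hz, map_mul, map_zpow, map_zpow, ← ha, ← hb]
      apply Multiplicative.toAdd.injective
      rw [toAdd_mul, toAdd_zpow, toAdd_zpow, toAdd_one, smul_eq_mul, smul_eq_mul]
      ring
    rw [this]
    rfl
  have hbneg : b.toAdd < 0 := by
    have h1 : v.valuation K ((l : 𝓞 K) : K) < 1 :=
      (HeightOneSpectrum.valuation_lt_one_iff_mem (K := K) v _).mpr (natCast_mem_primeOf φ)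
    have h2 : ((l : 𝓞 K) : K) = ((Units.mk0 (l : K) hl0 : Kˣ) : K) := by simp
    rw [h2, ← HeightOneSpectrum.valuationOfNeZero_eq, ← hb, ← WithZero.coe_one,
      WithZero.coe_lt_coe] at h1
    exact h1
  have key : ∀ ψ : K →+* PadicAlgCl l, primeOf ψ = v →
      ‖ψ y‖ ^ (-b.toAdd) = (‖(l : PadicAlgCl l)‖ ^ a.toAdd)⁻¹ := by
    intro ψ hψ
    have h1 : ‖ψ (z : K)‖ = 1 := norm_eq_one_of_valuation_eq_one ψ (by rw [hψ]; exact hz1)
    rw [hz, Units.val_mul, Units.val_zpow_eq_zpow_val, Units.val_zpow_eq_zpow_val, Units.val_mk0,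
      Units.val_mk0, map_mul, map_zpow₀, map_zpow₀, norm_mul, norm_zpow, norm_zpow,
      map_natCast] at h1
    exact eq_inv_of_mul_eq_one_left h1
  have e := (key φ rfl).trans (key φ' h.symm).symm
  obtain ⟨n, hn⟩ : ∃ n : ℕ, -b.toAdd = n + 1 := ⟨(-b.toAdd - 1).toNat, by omega⟩
  rw [hn] at e
  have e' : ‖φ y‖ ^ (n + 1) = ‖φ' y‖ ^ (n + 1) := by exact_mod_cast e
  exact (pow_left_inj₀ (norm_nonneg _) (norm_nonneg _) (Nat.succ_ne_zero n)).mp e'

/-- approximation of a polynomial with `l`-adic coefficients by a rational one -/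
lemma exists_rat_poly (g : ℚ_[l][X]) (s : Finset (PadicAlgCl l)) {c : ℝ} (hc : 0 < c) :
    ∃ h : ℚ[X], ∀ x ∈ s, ‖aeval x h - aeval x g‖ < c := by
  set R : ℝ := 1 + ∑ x ∈ s, ‖x‖ with hR
  have hR1 : 1 ≤ R := by
    rw [hR]
    have : 0 ≤ ∑ x ∈ s, ‖x‖ := Finset.sum_nonneg fun _ _ => norm_nonneg _
    linarith
  have hRx : ∀ x ∈ s, ‖x‖ ≤ R := by
    intro x hx
    have := Finset.single_le_sum (f := fun x : PadicAlgCl l => ‖x‖) (fun _ _ => norm_nonneg _) hx
    rw [hR]
    linarith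
  have hRn : 0 < R ^ g.natDegree := pow_pos (by linarith) _
  choose r hr using fun i : ℕ => Padic.rat_dense l (g.coeff i)
    (ε := c / R ^ g.natDegree) (div_pos hc hRn)
  refine ⟨∑ i ∈ Finset.range (g.natDegree + 1), C (r i) * X ^ i, fun x hx => ?_⟩
  have h1 : aeval x (∑ i ∈ Finset.range (g.natDegree + 1), C (r i) * X ^ i) - aeval x g =
      ∑ i ∈ Finset.range (g.natDegree + 1),
        algebraMap ℚ_[l] (PadicAlgCl l) ((r i : ℚ_[l]) - g.coeff i) * x ^ i := by
    rw [aeval_eq_sum_range (p := g) x, map_sum, ← Finset.sum_sub_distrib]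
    refine Finset.sum_congr rfl fun i _ => ?_
    rw [map_mul, aeval_C, map_pow, aeval_X, map_sub, sub_mul, Algebra.smul_def]
    congr 2
  rw [h1]
  have hle : ∀ i ∈ Finset.range (g.natDegree + 1),
      ‖algebraMap ℚ_[l] (PadicAlgCl l) ((r i : ℚ_[l]) - g.coeff i) * x ^ i‖ < c := by
    intro i hi
    rw [norm_mul, norm_pow]
    have h2 : ‖algebraMap ℚ_[l] (PadicAlgCl l) ((r i : ℚ_[l]) - g.coeff i)‖ <
        c / R ^ g.natDegree := by
      have := PadicAlgCl.norm_extends l ((r i : ℚ_[l]) - g.coeff i)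
      rw [this, norm_sub_rev]
      exact hr i
    have h3 : ‖x‖ ^ i ≤ R ^ g.natDegree := by
      refine (pow_le_pow_left₀ (norm_nonneg _) (hRx x hx) i).trans ?_
      exact pow_le_pow_right₀ hR1 (by have := Finset.mem_range.mp hi; omega)
    calc ‖algebraMap ℚ_[l] (PadicAlgCl l) ((r i : ℚ_[l]) - g.coeff i)‖ * ‖x‖ ^ i
        ≤ ‖algebraMap ℚ_[l] (PadicAlgCl l) ((r i : ℚ_[l]) - g.coeff i)‖ * R ^ g.natDegree :=
          mul_le_mul_of_nonneg_left h3 (norm_nonneg _)
      _ < c / R ^ g.natDegree * R ^ g.natDegree := mul_lt_mul_of_pos_right h2 hRn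
      _ = c := div_mul_cancel₀ _ hRn.ne'
  obtain ⟨i, hi, hmax⟩ := IsUltrametricDist.exists_norm_finsetSum_le
    (Finset.range (g.natDegree + 1))
    (fun i => algebraMap ℚ_[l] (PadicAlgCl l) ((r i : ℚ_[l]) - g.coeff i) * x ^ i)
  exact hmax.trans_lt (hle i (hi ⟨0, Finset.mem_range.mpr (Nat.succ_pos _)⟩))

/-- Two embeddings with the same prime differ by a local automorphism. -/
theorem exists_algEquiv_of_primeOf_eq {φ φ' : K →+* PadicAlgCl l} (h : primeOf φ = primeOf φ') :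
    ∃ δ : PadicAlgCl l ≃ₐ[ℚ_[l]] PadicAlgCl l, ∀ y, φ' y = δ (φ y) := by
  obtain ⟨θ, hθ⟩ := Field.exists_primitive_element ℚ K
  set g := minpoly ℚ_[l] (φ θ) with hg
  have hφ : ∀ (ψ : K →+* PadicAlgCl l) (q : ℚ[X]), ψ (aeval θ q) = aeval (ψ θ) q := by
    intro ψ q
    rw [aeval_def, aeval_def, hom_eval₂]
    congr 1
    exact Subsingleton.elim _ _
  by_cases h0 : aeval (φ' θ) g = 0
  · have halg : Algebra.IsAlgebraic ℚ_[l] (PadicAlgCl l) := PadicAlgCl.isAlgebraic l
    have hnorm : Normal ℚ_[l] (PadicAlgCl l) := IsAlgClosure.normal ℚ_[l] (PadicAlgCl l)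
    obtain ⟨δ, hδ⟩ := minpoly.exists_algEquiv_of_root (K := ℚ_[l]) (x := φ' θ) (y := φ θ)
      (halg.isAlgebraic _) h0
    refine ⟨δ.symm, fun y => ?_⟩
    obtain ⟨q, rfl⟩ : ∃ q : ℚ[X], aeval θ q = y := by
      have : y ∈ Algebra.adjoin ℚ {θ} := by
        rw [← IntermediateField.adjoin_simple_toSubalgebra_of_isAlgebraic
          (Algebra.IsAlgebraic.isAlgebraic θ), hθ]
        trivial
      rw [Algebra.adjoin_singleton_eq_range_aeval] at this
      obtain ⟨q, hq⟩ := this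
      exact ⟨q, hq⟩
    rw [hφ, hφ]
    have h1 : φ' θ = δ.symm (φ θ) := by rw [← hδ, AlgEquiv.symm_apply_apply]
    rw [h1, aeval_def, aeval_def]
    have h2 := hom_eval₂ q (algebraMap ℚ (PadicAlgCl l)) (δ.symm : PadicAlgCl l →+* PadicAlgCl l)
      (φ θ)
    have h3 : ((δ.symm : PadicAlgCl l →+* PadicAlgCl l)).comp (algebraMap ℚ (PadicAlgCl l)) =
      algebraMap ℚ (PadicAlgCl l) := Subsingleton.elim _ _
    rw [h3] at h2
    exact h2.symm
  · exfalso
    classical
    obtain ⟨q, hq⟩ := exists_rat_poly g {φ θ, φ' θ} (norm_pos_iff.mpr h0)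
    have h1 := hq (φ θ) (by simp)
    have h2 := hq (φ' θ) (by simp)
    rw [hg, minpoly.aeval, sub_zero, ← hφ, norm_eq_of_primeOf_eq h, hφ, ← hg] at h1
    have h3 : ‖aeval (φ' θ) g‖ ≤ max ‖aeval (φ' θ) q‖ ‖aeval (φ' θ) q - aeval (φ' θ) g‖ := by
      have : aeval (φ' θ) g = aeval (φ' θ) q + -(aeval (φ' θ) q - aeval (φ' θ) g) := by ring
      conv_lhs => rw [this]
      refine (IsUltrametricDist.norm_add_le_max _ _).trans ?_
      rw [norm_neg]
    exact absurd h3 (not_le.mpr (max_lt h1 h2))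

/-- Every prime above `l` comes from an embedding. -/
theorem exists_primeOf_eq (v : HeightOneSpectrum (𝓞 K)) (hv : (l : 𝓞 K) ∈ v.asIdeal) :
    ∃ φ : K →+* PadicAlgCl l, primeOf φ = v := by
  obtain ⟨x, hx1, hx2⟩ := exists_gen v
  have hxle : ∀ w : HeightOneSpectrum (𝓞 K), w.valuation K (x : K) ≤ 1 := by
    intro w
    by_cases hw : w = v
    · rw [hw, hx2, ← WithZero.coe_one, WithZero.coe_le_coe]
      change (-(classNumber K : ℤ)) ≤ 0
      omega
    · exact (hx1 w hw).le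
  obtain ⟨a, ha⟩ := HeightOneSpectrum.mem_integers_of_valuation_le_one K (x : K) hxle
  have hav : a ∈ v.asIdeal := by
    rw [← HeightOneSpectrum.valuation_lt_one_iff_mem (K := K)]
    change v.valuation K (algebraMap (𝓞 K) K a) < 1
    rw [ha, hx2, ← WithZero.coe_one, WithZero.coe_lt_coe]
    change (-(classNumber K : ℤ)) < 0
    have : 0 < classNumber K := Fintype.card_pos
    omega
  by_contra hcon
  push Not at hcon
  have hall : ∀ σ : K →ₐ[ℚ] PadicAlgCl l, ‖σ (x : K)‖ = 1 := by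
    intro σ
    have h1 := hx1 (primeOf (σ : K →+* PadicAlgCl l)) (hcon _)
    exact norm_eq_one_of_valuation_eq_one (σ : K →+* PadicAlgCl l) h1
  have h1 := Algebra.norm_eq_prod_embeddings ℚ (PadicAlgCl l) (x : K)
  have h2 : ‖algebraMap ℚ (PadicAlgCl l) (Algebra.norm ℚ (x : K))‖ = 1 := by
    rw [h1, norm_prod]
    exact Finset.prod_eq_one fun σ _ => hall σ
  have h3 : Algebra.norm ℚ (x : K) = ((Algebra.norm ℤ a : ℤ) : ℚ) := by
    rw [← ha]
    exact (Algebra.coe_norm_int a).symm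
  rw [h3] at h2
  have h4 : ¬ (l : ℤ) ∣ Algebra.norm ℤ a := by
    rintro ⟨c, hc⟩
    rw [hc] at h2
    have h5 : algebraMap ℚ (PadicAlgCl l) (((l : ℤ) * c : ℤ) : ℚ) =
        (l : PadicAlgCl l) * ((c : ℚ_[l]) : PadicAlgCl l) := by
      push_cast
      simp
    rw [h5, norm_mul, PadicAlgCl.norm_extends] at h2
    have h6 : ‖(c : ℚ_[l])‖ ≤ 1 := Padic.norm_int_le_one c
    have h7 := norm_natCast_lt (l := l)
    have h8 : ‖(l : PadicAlgCl l)‖ * ‖(c : ℚ_[l])‖ < 1 :=
      (mul_le_of_le_one_right (norm_nonneg _) h6).trans_lt h7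
    exact absurd h2 h8.ne
  have h5 : ((Algebra.norm ℤ a).natAbs : 𝓞 K) ∈ v.asIdeal := by
    have := Ideal.absNorm_mem (Ideal.span {a} : Ideal (𝓞 K))
    rw [Ideal.absNorm_span_singleton] at this
    exact (Ideal.span_singleton_le_iff_mem _).mpr hav this
  have h6 : Nat.Coprime l (Algebra.norm ℤ a).natAbs := by
    rw [Nat.Prime.coprime_iff_not_dvd hl.out, ← Int.natCast_dvd]
    exact h4
  obtain ⟨u, w, huw⟩ := Nat.isCoprime_iff_coprime.mpr h6
  apply v.isPrime.ne_top
  rw [Ideal.eq_top_iff_one]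
  have h7 : (1 : 𝓞 K) = (u : 𝓞 K) * (l : 𝓞 K) + (w : 𝓞 K) * ((Algebra.norm ℤ a).natAbs : 𝓞 K) := by
    have := congrArg (Int.cast : ℤ → 𝓞 K) huw
    push_cast at this
    rw [← this]
    congr 2
    simp
  rw [h7]
  exact v.asIdeal.add_mem (v.asIdeal.mul_mem_left _ hv) (v.asIdeal.mul_mem_left _ h5)

end Fermat.Agent.GlobalCFT
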