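import Fermat.Agent.GlobalCFT.Index

/-!
# Herbrand quotient of a finitely generated module over a group of prime order
-/

set_option autoImplicit false

namespace Fermat.Agent.GlobalCFT

open Subgroup Polynomial

section poly

variable {p : ℕ} [hp : Fact p.Prime]

lemma prod_one_sub_zeta {ζ : ℂ} (hζ : IsPrimitiveRoot ζ p) :
    ∏ i ∈ Finset.range (p - 1), (1 - ζ ^ (i + 1)) = p := by
  have h1 := eval_one_cyclotomic_prime (R := ℂ) (p := p)
  rw [cyclotomic_eq_prod_X_sub_primitiveRoots hζ, eval_prod] at h1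
  rw [← h1]
  refine Finset.prod_bij (fun i _ => ζ ^ (i + 1)) ?_ ?_ ?_ ?_
  · intro i hi
    rw [Finset.mem_range] at hi
    rw [mem_primitiveRoots hp.out.pos]
    refine hζ.pow_of_coprime _ ?_
    exact Nat.Coprime.symm (Nat.Coprime.symm
      ((Nat.coprime_comm.mp ((hp.out.coprime_iff_not_dvd).mpr (Nat.not_dvd_of_pos_of_lt (by omega)
        (by omega))))))
  · intro i hi j hj hij
    rw [Finset.mem_range] at hi hj
    have := hζ.pow_inj (by omega) (by omega) hij
    omega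
  · intro μ hμ
    rw [mem_primitiveRoots hp.out.pos] at hμ
    obtain ⟨i, hi, hc, rfl⟩ := hζ.isPrimitiveRoot_iff.mp hμ
    have hi0 : i ≠ 0 := by
      rintro rfl
      rw [Nat.coprime_zero_left] at hc
      exact hp.out.one_lt.ne' hc
    exact ⟨i - 1, by rw [Finset.mem_range]; omega, by rw [Nat.sub_add_cancel (by omega)]⟩
  · intro i hi
    simp

/-- `∏ (1 - X^i) = p` modulo the `p`-th cyclotomic polynomial. -/
theorem exists_poly_identity : ∃ R : ℤ[X],
    ∏ i ∈ Finset.range (p - 1), (1 - X ^ (i + 1)) = C (p : ℤ) + R * ∑ i ∈ Finset.range p, X ^ i := by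
  set ζ : ℂ := Complex.exp (2 * Real.pi * Complex.I / p)
  have hζ : IsPrimitiveRoot ζ p := Complex.isPrimitiveRoot_exp p hp.out.ne_zero
  have h1 : aeval ζ (∏ i ∈ Finset.range (p - 1), (1 - X ^ (i + 1)) - C (p : ℤ)) = 0 := by
    rw [map_sub, map_prod]
    simp only [map_sub, map_one, map_pow, aeval_X]
    rw [prod_one_sub_zeta hζ]
    simp
  have h2 := minpoly.isIntegrallyClosed_dvd (hζ.isIntegral hp.out.pos) h1
  rw [← cyclotomic_eq_minpoly hζ hp.out.pos, cyclotomic_prime] at h2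
  obtain ⟨R, hR⟩ := h2
  exact ⟨R, by rw [mul_comm R, ← hR]; ring⟩

end poly

section ev

variable {A : Type*} [CommGroup A]

/-- `σ` as an additive endomorphism. -/
def aE (σ : A →* A) : AddMonoid.End (Additive A) := MonoidHom.toAdditive σ

/-- The endomorphism of `A` given by a polynomial in `σ`. -/
noncomputable def ev (σ : A →* A) (P : ℤ[X]) : A →* A :=
  MonoidHom.toAdditive.symm (show Additive A →+ Additive A from aeval (aE σ) P)

variable (σ : A →* A)

lemma ev_apply (P : ℤ[X]) (x : A) : ev σ P x =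
    Additive.toMul (aeval (aE σ) P (Additive.ofMul x)) := rfl

lemma ev_mul (P R : ℤ[X]) : ev σ (P * R) = (ev σ P).comp (ev σ R) := by
  ext x
  rw [ev_apply, map_mul]
  rfl

lemma ev_mul_apply (P R : ℤ[X]) (x : A) : ev σ (P * R) x = ev σ P (ev σ R x) := by
  rw [ev_mul]; rfl

lemma ev_add (P R : ℤ[X]) (x : A) : ev σ (P + R) x = ev σ P x * ev σ R x := by
  rw [ev_apply, map_add]
  rfl

lemma ev_sub (P R : ℤ[X]) (x : A) : ev σ (P - R) x = ev σ P x / ev σ R x := by
  rw [ev_apply, map_sub]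
  rfl

lemma ev_one (x : A) : ev σ 1 x = x := by
  rw [ev_apply, map_one]
  rfl

lemma ev_X (x : A) : ev σ X x = σ x := by
  rw [ev_apply, aeval_X]
  rfl

lemma ev_C (n : ℕ) (x : A) : ev σ (C (n : ℤ)) x = x ^ n := by
  rw [ev_apply, aeval_C]
  simp

lemma ev_pow (P : ℤ[X]) (n : ℕ) (x : A) : ev σ (P ^ n) x = (ev σ P)^[n] x := by
  induction n generalizing x with
  | zero => rw [pow_zero, ev_one]; rfl
  | succ n ih => rw [pow_succ, ev_mul_apply, ih, Function.iterate_succ_apply]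

lemma ev_X_pow (n : ℕ) (x : A) : ev σ (X ^ n) x = σ^[n] x := by
  induction n generalizing x with
  | zero => rw [pow_zero, ev_one]; rfl
  | succ n ih => rw [pow_succ, ev_mul_apply, ih, ev_X, Function.iterate_succ_apply]

lemma ev_sum {ι : Type*} (s : Finset ι) (P : ι → ℤ[X]) (x : A) :
    ev σ (∑ i ∈ s, P i) x = ∏ i ∈ s, ev σ (P i) x := by
  classical
  induction s using Finset.induction_on with
  | empty =>
    rw [Finset.sum_empty, Finset.prod_empty, ev_apply, map_zero]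
    rfl
  | insert a s ha ih => rw [Finset.sum_insert ha, Finset.prod_insert ha, ev_add, ih]

lemma ev_comm (P R : ℤ[X]) (x : A) : ev σ P (ev σ R x) = ev σ R (ev σ P x) := by
  rw [← ev_mul_apply, ← ev_mul_apply, mul_comm]

/-- A `σ`-stable subgroup is stable under all polynomials in `σ`. -/
lemma ev_mem {H : Subgroup A} (hH : H.map σ ≤ H) (P : ℤ[X]) {x : A} (hx : x ∈ H) :
    ev σ P x ∈ H := by
  have hpow : ∀ n, σ^[n] x ∈ H := by
    intro n
    induction n with
    | zero => exact hx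
    | succ n ih => rw [Function.iterate_succ_apply']; exact hH ⟨_, ih, rfl⟩
  induction P using Polynomial.induction_on' with
  | add P R h1 h2 => rw [ev_add]; exact H.mul_mem h1 h2
  | monomial n a =>
    rw [← C_mul_X_pow_eq_monomial, ev_mul_apply, ev_X_pow]
    have : ∀ y : A, ev σ (C a) y = y ^ a := by
      intro y
      rw [ev_apply, aeval_C]
      simp
    rw [this]
    exact H.zpow_mem (hpow n) a

lemma ev_map_le {H : Subgroup A} (hH : H.map σ ≤ H) (P : ℤ[X]) : H.map (ev σ P) ≤ H := by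
  rintro _ ⟨x, hx, rfl⟩
  exact ev_mem σ hH P hx

/-- `σ - 1`. -/
noncomputable def dif : A →* A := ev σ (X - 1)

/-- The norm. -/
noncomputable def nm (p : ℕ) : A →* A := ev σ (∑ i ∈ Finset.range p, X ^ i)

lemma dif_apply (x : A) : dif σ x = σ x / x := by rw [dif, ev_sub, ev_X, ev_one]

lemma nm_apply (p : ℕ) (x : A) : nm σ p x = ∏ i ∈ Finset.range p, σ^[i] x := by
  rw [nm, ev_sum]
  exact Finset.prod_congr rfl fun i _ => ev_X_pow σ i x

lemma dif_nm {p : ℕ} {x : A} (hx : σ^[p] x = x) : dif σ (nm σ p x) = 1 := by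
  rw [dif, nm, ← ev_mul_apply, mul_comm, geom_sum_mul, ev_sub, ev_X_pow, ev_one, hx, div_self']

lemma nm_dif {p : ℕ} {x : A} (hx : σ^[p] x = x) : nm σ p (dif σ x) = 1 := by
  rw [dif, nm, ← ev_mul_apply, geom_sum_mul, ev_sub, ev_X_pow, ev_one, hx, div_self']

lemma mem_ker_dif {x : A} : x ∈ (dif σ).ker ↔ σ x = x := by
  rw [MonoidHom.mem_ker, dif_apply, div_eq_one]

lemma nm_of_fixed {p : ℕ} {x : A} (hx : σ x = x) : nm σ p x = x ^ p := by
  rw [nm_apply]
  have : ∀ i, σ^[i] x = x := fun i => Function.iterate_fixed hx i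
  rw [Finset.prod_congr rfl fun i _ => this i, Finset.prod_const, Finset.card_range]

end ev

section main

variable {A : Type*} [CommGroup A] (σ : A →* A) {p : ℕ} [hp : Fact p.Prime] {H : Subgroup A}

/-- `1 - σ^i` and `1 - σ` have the same kernel and image, for `i` prime to `p`. -/
lemma same_ker_range (hH : H.map σ ≤ H) (hσ : ∀ x ∈ H, σ^[p] x = x) {i : ℕ} (hi : Nat.Coprime i p) :
    H.map (ev σ (1 - X ^ i)) = H.map (dif σ) ∧
      H ⊓ (ev σ (1 - X ^ i)).ker = H ⊓ (dif σ).ker := by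
  obtain ⟨j, hj⟩ : ∃ j : ℕ, i * j ≡ 1 [MOD p] := by
    have h1 : IsUnit (i : ZMod p) := (ZMod.isUnit_iff_coprime i p).mpr hi
    obtain ⟨u, hu⟩ := h1
    refine ⟨(↑(u⁻¹) : ZMod p).val, ?_⟩
    rw [← ZMod.natCast_eq_natCast_iff, Nat.cast_mul, ZMod.natCast_val, ZMod.cast_id, ← hu,
      Units.mul_inv, Nat.cast_one]
  -- `σ^(ij) = σ` on `H`
  have hmod : ∀ n : ℕ, ∀ x ∈ H, σ^[n] x = σ^[n % p] x := by
    intro n x hx
    have hiter : ∀ m, σ^[p * m] x = x := by
      intro m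
      rw [Function.iterate_mul]
      exact Function.iterate_fixed (hσ x hx) m
    conv_lhs => rw [← Nat.mod_add_div n p, Function.iterate_add_apply, hiter]
  have hij : ∀ x ∈ H, ev σ (X ^ (i * j)) x = σ x := by
    intro x hx
    rw [ev_X_pow, hmod _ x hx, hj, ← hmod _ x hx]
    rfl
  have e1 : (1 - X ^ i : ℤ[X]) = (X - 1) * (-∑ k ∈ Finset.range i, X ^ k) := by
    have := geom_sum_mul (X : ℤ[X]) i
    linear_combination this
  have e2 : ∀ x ∈ H, dif σ x = ev σ (1 - X ^ i) (ev σ (-∑ k ∈ Finset.range j, (X ^ i) ^ k) x) := by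
    intro x hx
    rw [← ev_mul_apply]
    have h3 : ((1 - X ^ i) * (-∑ k ∈ Finset.range j, (X ^ i) ^ k) : ℤ[X]) = X ^ (i * j) - 1 := by
      have := geom_sum_mul (X ^ i : ℤ[X]) j
      rw [pow_mul]
      linear_combination this
    rw [h3, ev_sub, hij x hx, ev_one, dif_apply]
  constructor
  · apply le_antisymm
    · rintro _ ⟨x, hx, rfl⟩
      refine ⟨ev σ (-∑ k ∈ Finset.range i, X ^ k) x, ev_mem σ hH _ hx, ?_⟩
      rw [dif, ← ev_mul_apply, ← e1]
    · rintro _ ⟨x, hx, rfl⟩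
      exact ⟨_, ev_mem σ hH _ hx, (e2 x hx).symm⟩
  · apply le_antisymm
    · rintro x ⟨hx, hx2⟩
      refine ⟨hx, ?_⟩
      have hx2' : ev σ (1 - X ^ i) x = 1 := hx2
      change dif σ x = 1
      rw [e2 x hx, ev_comm, hx2', map_one]
    · rintro x ⟨hx, hx2⟩
      refine ⟨hx, ?_⟩
      have hx2' : ev σ (X - 1) x = 1 := hx2
      change ev σ (1 - X ^ i) x = 1
      rw [e1, ev_mul_apply, ev_comm, hx2', map_one]

/-- composition of the `1 - σ^i`. -/
lemma Q_prod {N : Subgroup A} (hq : QF (dif σ) N)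
    (h : ∀ i < p - 1, N.map (ev σ (1 - X ^ (i + 1))) = N.map (dif σ) ∧
      N ⊓ (ev σ (1 - X ^ (i + 1))).ker = N ⊓ (dif σ).ker) (n : ℕ) (hn : n ≤ p - 1) :
    QF (ev σ (∏ i ∈ Finset.range n, (1 - X ^ (i + 1)))) N ∧
      Q (ev σ (∏ i ∈ Finset.range n, (1 - X ^ (i + 1)))) N = Q (dif σ) N ^ n := by
  induction n with
  | zero =>
    have h1 : ∀ x ∈ N, MonoidHom.id A x =
        ev σ (∏ i ∈ Finset.range 0, (1 - X ^ (i + 1))) x := by
      intro x _
      rw [Finset.prod_range_zero, ev_one]; rfl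
    have h2 : QF (MonoidHom.id A) N := by
      refine ⟨by rw [Subgroup.map_id], by rw [Subgroup.map_id, relIndex_self]; exact one_ne_zero, ?_⟩
      have : (MonoidHom.id A).ker = ⊥ := by ext x; simp
      rw [this, inf_bot_eq, Subgroup.card_bot]
      exact one_ne_zero
    refine ⟨h2.congr h1, ?_⟩
    rw [← Q_congr h1, pow_zero, Q, Subgroup.map_id, relIndex_self]
    have : (MonoidHom.id A).ker = ⊥ := by ext x; simp
    rw [this, inf_bot_eq, Subgroup.card_bot]
    norm_num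
  | succ n ih =>
    obtain ⟨h1, h2⟩ := ih (by omega)
    obtain ⟨h3, h4⟩ := h n (by omega)
    have h5 : QF (ev σ (1 - X ^ (n + 1))) N := by
      obtain ⟨a, b, c⟩ := hq
      exact ⟨by rw [h3]; exact a, by rw [h3]; exact b, by rw [h4]; exact c⟩
    have h6 : Q (ev σ (1 - X ^ (n + 1))) N = Q (dif σ) N := by rw [Q, Q, h3, h4]
    have h7 := Q_comp h1 h5
    rw [Finset.prod_range_succ, ev_mul]
    refine ⟨h7.1, ?_⟩
    rw [h7.2, h2, h6, ← pow_succ]

/-- The map `x ↦ x^p`. -/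
noncomputable abbrev pw (A : Type*) [CommGroup A] (p : ℕ) : A →* A := powMonoidHom p

lemma pw_map_le (p : ℕ) (H : Subgroup A) : H.map (pw A p) ≤ H := by
  rintro _ ⟨x, hx, rfl⟩
  exact H.pow_mem hx p

/-- **Herbrand quotient of a module over a group of prime order** with finite `q`-index of
multiplication by `p`. -/
theorem herbrand_cyclic (hH : H.map σ ≤ H) (hσ : ∀ x ∈ H, σ^[p] x = x) (hq : QF (pw A p) H) :
    (H.map (nm σ p)).relIndex (H ⊓ (dif σ).ker) ≠ 0 ∧
    (H.map (dif σ)).relIndex (H ⊓ (nm σ p).ker) ≠ 0 ∧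
    QF (pw A p) (H ⊓ (dif σ).ker) ∧
    (((H.map (nm σ p)).relIndex (H ⊓ (dif σ).ker) : ℚ) /
      ((H.map (dif σ)).relIndex (H ⊓ (nm σ p).ker) : ℚ)) ^ (p - 1) * Q (pw A p) H =
      Q (pw A p) (H ⊓ (dif σ).ker) ^ p := by
  set f := dif σ with hf
  set g := nm σ p with hg
  have hfg : ∀ x ∈ H, f (g x) = 1 := fun x hx => dif_nm σ (hσ x hx)
  have hgf : ∀ x ∈ H, g (f x) = 1 := fun x hx => nm_dif σ (hσ x hx)
  have hfH : H.map f ≤ H := ev_map_le σ hH _
  have hgH : H.map g ≤ H := ev_map_le σ hH _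
  set F := H ⊓ f.ker with hFdef
  set N := H ⊓ g.ker with hNdef
  have hgF : H.map g ≤ F := le_inf hgH (by rintro _ ⟨x, hx, rfl⟩; exact hfg x hx)
  have hfN : H.map f ≤ N := le_inf hfH (by rintro _ ⟨x, hx, rfl⟩; exact hgf x hx)
  have hgF' : ∀ x ∈ F, g x = pw A p x := by
    rintro x ⟨-, hx⟩
    exact nm_of_fixed σ ((mem_ker_dif σ).mp hx)
  -- `H^p ≤ F N`
  have hpFN : H.map (pw A p) ≤ F ⊔ N := by
    rintro _ ⟨x, hx, rfl⟩
    have h1 : pw A p x = g x * (pw A p x / g x) := by rw [mul_div_cancel]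
    rw [h1]
    refine Subgroup.mul_mem_sup (hgF ⟨x, hx, rfl⟩) ⟨?_, ?_⟩
    · exact H.div_mem (H.pow_mem hx p) (hgH ⟨x, hx, rfl⟩)
    · change g (pw A p x / g x) = 1
      rw [_root_.map_div, hgF' (g x) (hgF ⟨x, hx, rfl⟩)]
      change g (x ^ p) / g x ^ p = 1
      rw [map_pow, div_self']
  have hFNle : F ⊔ N ≤ H := sup_le inf_le_left inf_le_left
  have hFNi : (F ⊔ N).relIndex H ≠ 0 := by
    intro h0
    exact hq.idx (relIndex_eq_zero_of_le_left hpFN h0)
  -- q-index of `F ⊔ N`, using finiteness; then split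
  -- Step 1: exact sequence for `g` on `H`: `Q pw H = Q pw N * Q pw (H.map g)`
  have hcomm : ∀ x, g (pw A p x) = pw A p (g x) := fun x => map_pow g x p
  -- the image of `F` under `pw` has finite index in `F`
  have hNF : (N ⊓ F) = F ⊓ (pw A p).ker := by
    ext x
    constructor
    · rintro ⟨⟨h1, h2⟩, h3⟩
      refine ⟨h3, ?_⟩
      have h2' : g x = 1 := h2
      change pw A p x = 1
      rw [← hgF' x h3, h2']
    · rintro ⟨h1, h2⟩
      refine ⟨⟨h1.1, ?_⟩, h1⟩
      change g x = 1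
      rw [hgF' x h1]
      exact h2
  have hQFN : QF (pw A p) (F ⊔ N) ∧ Q (pw A p) (F ⊔ N) = Q (pw A p) H :=
    Q_fin_index hFNle hFNi hq (pw_map_le p _)
  -- finiteness of `F ⊓ ker pw`
  have hFfin : Nat.card ↥(F ⊓ (pw A p).ker) ≠ 0 := by
    have h1 := card_mul_relIndex (A := A) (B := F ⊓ (pw A p).ker) (K := H ⊓ (pw A p).ker)
      (inf_le_inf_right _ inf_le_left)
    intro h0
    rw [h0, zero_mul] at h1
    exact hq.fin h1.symm
  have hNfin : Nat.card ↥(N ⊓ (pw A p).ker) ≠ 0 := by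
    have h1 := card_mul_relIndex (A := A) (B := N ⊓ (pw A p).ker) (K := H ⊓ (pw A p).ker)
      (inf_le_inf_right _ inf_le_left)
    intro h0
    rw [h0, zero_mul] at h1
    exact hq.fin h1.symm
  -- index of `pw F` in `F`
  have hgFN : (F ⊔ N).map g = F.map (pw A p) := by
    rw [Subgroup.map_sup]
    have h1 : N.map g = ⊥ := by
      rw [eq_bot_iff]
      rintro _ ⟨x, ⟨-, hx⟩, rfl⟩
      exact hx
    rw [h1, sup_bot_eq]
    exact map_congr' hgF'
  have hfFN : (F ⊔ N).map f = N.map f := by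
    rw [Subgroup.map_sup]
    have h1 : F.map f = ⊥ := by
      rw [eq_bot_iff]
      rintro _ ⟨x, ⟨-, hx⟩, rfl⟩
      exact hx
    rw [h1, bot_sup_eq]
  have c1 : (F ⊔ N).relIndex H = (F.map (pw A p)).relIndex (H.map g) := by
    rw [relIndex_of_inf_le g hFNle (le_sup_right : N ≤ F ⊔ N), hgFN]
  have c2 : (F ⊔ N).relIndex H = (N.map f).relIndex (H.map f) := by
    rw [relIndex_of_inf_le f hFNle (le_sup_left : F ≤ F ⊔ N), hfFN]
  have hpFle : F.map (pw A p) ≤ H.map g := by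
    rw [← hgFN]; exact Subgroup.map_mono hFNle
  have hfNle : N.map f ≤ H.map f := Subgroup.map_mono inf_le_left
  have d1 := relIndex_mul_relIndex _ _ _ hpFle hgF
  have d2 := relIndex_mul_relIndex _ _ _ hfNle hfN
  rw [← c1] at d1
  rw [← c2] at d2
  -- finiteness of `[F : pF]`, `[N : pN]`
  have hsup : (F.map (pw A p)) ⊔ (N.map (pw A p)) = (F ⊔ N).map (pw A p) :=
    (Subgroup.map_sup _ _ _).symm
  -- `Q_exact` for `g` on `F ⊔ N`
  have hgr : QF (pw A p) F := by
    refine ⟨pw_map_le p _, ?_, hFfin⟩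
    -- use the map `g : F ⊔ N → F^p` and finite index
    have e1 := relIndex_eq_map_mul g (pw_map_le (A := A) p (F ⊔ N))
    have e2 : (((F ⊔ N).map (pw A p)).map g) = (F.map (pw A p)).map (pw A p) := by
      rw [Subgroup.map_map]
      have : g.comp (pw A p) = (pw A p).comp g := by ext x; exact hcomm x
      rw [this, ← Subgroup.map_map, hgFN]
    rw [e2, hgFN] at e1
    have h1 : ((F.map (pw A p)).map (pw A p)).relIndex (F.map (pw A p)) ≠ 0 := by
      intro h0
      apply hQFN.1.idx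
      rw [e1, h0, zero_mul]
    have e3 := relIndex_eq_map_mul (pw A p) (pw_map_le (A := A) p F)
    rw [e3]
    refine mul_ne_zero h1 ?_
    have e4 : (F.map (pw A p)).relIndex (F ⊓ (pw A p).ker) ∣ Nat.card ↥(F ⊓ (pw A p).ker) :=
      relIndex_dvd_card _ _
    intro h0
    rw [h0, zero_dvd_iff] at e4
    exact hFfin e4
  have hqN : QF (pw A p) N := by
    refine ⟨pw_map_le p _, ?_, hNfin⟩
    -- use `f : F ⊔ N → N`
    have e1 := relIndex_eq_map_mul f (pw_map_le (A := A) p (F ⊔ N))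
    have e2 : (((F ⊔ N).map (pw A p)).map f) = (N.map f).map (pw A p) := by
      rw [Subgroup.map_map]
      have : f.comp (pw A p) = (pw A p).comp f := by ext x; exact map_pow f x p
      rw [this, ← Subgroup.map_map, hfFN]
    rw [e2, hfFN] at e1
    have h1 : ((N.map f).map (pw A p)).relIndex (N.map f) ≠ 0 := by
      intro h0
      apply hQFN.1.idx
      rw [e1, h0, zero_mul]
    have e3 := relIndex_eq_map_mul f (pw_map_le (A := A) p N)
    have e5 : (N.map (pw A p)).map f = (N.map f).map (pw A p) := by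
      rw [Subgroup.map_map, Subgroup.map_map]
      congr 1
      ext x; exact map_pow f x p
    rw [e5] at e3
    rw [e3]
    refine mul_ne_zero h1 ?_
    have e6 : N ⊓ f.ker = F ⊓ (pw A p).ker := by
      rw [← hNF]
      rw [hFdef, ← inf_assoc, inf_eq_left.mpr (inf_le_left : N ≤ H)]
    rw [e6]
    have e4 : (N.map (pw A p)).relIndex (F ⊓ (pw A p).ker) ∣ Nat.card ↥(F ⊓ (pw A p).ker) :=
      relIndex_dvd_card _ _
    intro h0
    rw [h0, zero_dvd_iff] at e4
    exact hFfin e4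
  have hHg : QF (pw A p) (H.map g) ∧ Q (pw A p) (H.map g) = Q (pw A p) F := by
    refine Q_fin_index hgF ?_ hgr (pw_map_le p _)
    intro h0
    exact hgr.idx (by rw [← d1, h0, mul_zero])
  have hsplit := Q_exact g hcomm (pw_map_le p H) hqN hHg.1
  rw [hHg.2] at hsplit
  -- the `q`-index of `f` on `N`
  have hfNN : N.map f ≤ N := by
    rintro _ ⟨x, hx, rfl⟩
    exact hfN ⟨x, hx.1, rfl⟩
  have hkerfN : N ⊓ f.ker = F ⊓ (pw A p).ker := by
    rw [← hNF, hFdef, ← inf_assoc, inf_eq_left.mpr (inf_le_left : N ≤ H)]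
  have hσN : N.map σ ≤ N := by
    rintro _ ⟨x, ⟨hx1, hx2⟩, rfl⟩
    refine ⟨hH ⟨x, hx1, rfl⟩, ?_⟩
    have hx2' : g x = 1 := hx2
    change g (σ x) = 1
    rw [hg, nm, ← ev_X σ x, ev_comm]
    change ev σ X (g x) = 1
    rw [hx2', map_one]
  have hcop : ∀ i < p - 1, Nat.Coprime (i + 1) p := fun i hi =>
    Nat.coprime_comm.mp ((hp.out.coprime_iff_not_dvd).mpr (Nat.not_dvd_of_pos_of_lt (by omega)
      (by omega)))
  -- finiteness of `f` on `N` : image of `∏ (1 - σ^i) = p` is contained in the image of `f`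
  obtain ⟨R, hR⟩ := exists_poly_identity (p := p)
  have hprodN : ∀ x ∈ N, ev σ (∏ i ∈ Finset.range (p - 1), (1 - X ^ (i + 1))) x = pw A p x := by
    rintro x ⟨-, hx⟩
    have hx' : g x = 1 := hx
    rw [hR, ev_add, ev_C, ev_mul_apply]
    change x ^ p * ev σ R (g x) = x ^ p
    rw [hx', map_one, mul_one]
  have hpN_le : N.map (pw A p) ≤ N.map f := by
    rintro _ ⟨x, hx, rfl⟩
    rw [← hprodN x hx]
    obtain ⟨m, hm⟩ : ∃ m, p - 1 = m + 1 := ⟨p - 2, by have := hp.out.two_le; omega⟩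
    rw [hm, Finset.prod_range_succ', zero_add, pow_one, mul_comm, ev_mul_apply]
    refine ⟨ev σ (-1) (ev σ (∏ k ∈ Finset.range m, (1 - X ^ (k + 1 + 1))) x),
      ev_mem σ hσN _ (ev_mem σ hσN _ hx), ?_⟩
    change ev σ (X - 1) (ev σ (-1) _) = _
    rw [← ev_mul_apply σ (X - 1) (-1)]
    congr 2
    ring
  have hqf : QF f N := by
    refine ⟨hfNN, ?_, by rw [hkerfN]; exact hFfin⟩
    intro h0
    exact hqN.idx (relIndex_eq_zero_of_le_left hpN_le h0)
  have hpow := Q_prod σ (p := p) hqf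
    (fun i hi => same_ker_range σ hσN (fun x hx => hσ x hx.1) (hcop i hi)) (p - 1) le_rfl
  have hQN : Q (pw A p) N = Q f N ^ (p - 1) := by
    rw [← hpow.2]
    exact (Q_congr hprodN).symm
  -- final computation
  have n1 : (H.map g).relIndex F ≠ 0 := fun h0 => hgr.idx (by rw [← d1, h0, mul_zero])
  have n2 : (H.map f).relIndex N ≠ 0 := fun h0 => hqf.idx (by rw [← d2, h0, mul_zero])
  refine ⟨n1, n2, hgr, ?_⟩
  have hratio : ((H.map g).relIndex F : ℚ) / ((H.map f).relIndex N : ℚ) * Q f N =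
      Q (pw A p) F := by
    rw [Q, Q, hkerfN, ← d1, ← d2]
    have k1 : ((F ⊔ N).relIndex H : ℚ) ≠ 0 := by exact_mod_cast hFNi
    have k2 : ((H.map f).relIndex N : ℚ) ≠ 0 := by exact_mod_cast n2
    push_cast
    field_simp
  have hQf0 : Q f N ≠ 0 := hqf.ne_zero
  rw [hsplit.2, hQN, ← hratio]
  obtain ⟨m, hm⟩ : ∃ m, p = m + 1 := ⟨p - 1, by have := hp.out.pos; omega⟩
  have hm' : p - 1 = m := by omega
  rw [hm', hm]
  ring

end main

end Fermat.Agent.GlobalCFT
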