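import Fermat.Agent.GlobalCFT.Local
import Fermat.Agent.GCFT.Diag

/-!
# The local hypotheses of the semilocal theory for the idele modules
-/

set_option autoImplicit false

namespace Fermat.Agent.GlobalCFT

open Fermat.Agent.Coh Fermat.Agent.GCFT

/-- The field of algebraic numbers. -/
local notation "Qb" => AlgebraicClosure ℚ
/-- The absolute Galois group. -/
local notation "GQ" => (AlgebraicClosure ℚ ≃ₐ[ℚ] AlgebraicClosure ℚ)

variable {l : Nat.Primes} {V U : Subgroup GQ} {σ : GQ} {p : ℕ}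

/-- The local decomposition group. -/
def Dx (l : Nat.Primes) (W : Subgroup GQ) (x : GQ) : Subgroup (Gl l) where
  carrier := {τ | ∃ w ∈ W, rl l τ * x = x * w}
  one_mem' := ⟨1, W.one_mem, by simp⟩
  mul_mem' := by
    rintro a b ⟨w, hw, h⟩ ⟨w', hw', h'⟩
    refine ⟨w * w', W.mul_mem hw hw', ?_⟩
    rw [map_mul, mul_assoc, h', ← mul_assoc, h, mul_assoc]
  inv_mem' := by
    rintro a ⟨w, hw, h⟩
    refine ⟨w⁻¹, W.inv_mem hw, ?_⟩
    rw [map_inv, inv_mul_eq_iff_eq_mul, ← mul_assoc, h]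
    group

lemma mem_Dx {W : Subgroup GQ} {x : GQ} {τ : Gl l} :
    τ ∈ Dx l W x ↔ ∃ w ∈ W, rl l τ * x = x * w := Iff.rfl

/-- The local field. -/
noncomputable def Kx (l : Nat.Primes) (W : Subgroup GQ) (x : GQ) :
    IntermediateField ℚ_[(l : ℕ)] (Om l) := IntermediateField.fixedField (Dx l W x)

lemma mem_Kx {W : Subgroup GQ} {x : GQ} {y : Om l} :
    y ∈ Kx l W x ↔ ∀ τ : Gl l, ∀ w ∈ W, rl l τ * x = x * w → τ y = y := by
  rw [Kx, IntermediateField.mem_fixedField_iff]
  constructor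
  · intro h τ w hw hτ
    exact h τ ⟨w, hw, hτ⟩
  · rintro h τ ⟨w, hw, hτ⟩
    exact h τ w hw hτ

lemma Kx_mono {W W' : Subgroup GQ} (h : W ≤ W') (x : GQ) : Kx l W' x ≤ Kx l W x := by
  intro y hy
  rw [mem_Kx] at hy ⊢
  intro τ w hw hτ
  exact hy τ w (h hw) hτ

/-- the fixed field of an open subgroup has a primitive element -/
theorem exists_primitive {W : Subgroup GQ} (hW : IsOpen (W : Set GQ)) :
    ∃ θ : Qb, ∀ g : GQ, g θ = θ ↔ g ∈ W := by
  have hcl : IsClosed (W : Set GQ) := Subgroup.isClosed_of_isOpen W hW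
  let F : IntermediateField ℚ Qb := IntermediateField.fixedField W
  have h1 : F.fixingSubgroup = W := InfiniteGalois.fixingSubgroup_fixedField ⟨W, hcl⟩
  have hfin : FiniteDimensional ℚ F := by
    apply (InfiniteGalois.isOpen_iff_finite F).mp
    rw [h1]
    exact hW
  obtain ⟨θ, hθ⟩ := Field.exists_primitive_element ℚ F
  refine ⟨θ, fun g => ⟨fun hg => ?_, fun hg => ?_⟩⟩
  · rw [← h1, IntermediateField.mem_fixingSubgroup_iff]
    intro x hx
    have h2 : (⟨x, hx⟩ : F) ∈ IntermediateField.adjoin ℚ {θ} := by rw [hθ]; trivial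
    have h3 : ∀ y ∈ IntermediateField.adjoin ℚ {θ}, g (y : Qb) = (y : Qb) := by
      intro y hy
      induction hy using IntermediateField.adjoin_induction with
      | mem y hy =>
        rw [Set.mem_singleton_iff] at hy
        rw [hy, hg]
      | algebraMap q => exact g.commutes q
      | add a b _ _ ha hb =>
        change g ((a : Qb) + b) = (a : Qb) + b
        rw [map_add, ha, hb]
      | inv a _ ha =>
        change g ((a : Qb)⁻¹) = (a : Qb)⁻¹
        rw [map_inv₀, ha]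
      | mul a b _ _ ha hb =>
        change g ((a : Qb) * b) = (a : Qb) * b
        rw [map_mul, ha, hb]
    exact h3 _ h2
  · exact (IntermediateField.mem_fixedField_iff W _).mp θ.2 g hg

lemma il_mem_Kx {W : Subgroup GQ} {x : GQ} {θ : Qb} (hθ : ∀ w ∈ W, w θ = θ) :
    il l (x θ) ∈ Kx l W x := by
  rw [mem_Kx]
  intro τ w hw h
  rw [← il_rl, ← AlgEquiv.mul_apply, h, AlgEquiv.mul_apply, hθ w hw]

lemma finite_Kx {W : Subgroup GQ} (hW : IsOpen (W : Set GQ)) (x : GQ) :
    FiniteDimensional ℚ_[(l : ℕ)] (Kx l W x) := by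
  obtain ⟨θ, hθ⟩ := exists_primitive hW
  have hint : IsIntegral ℚ_[(l : ℕ)] (il l (x θ)) := Algebra.IsIntegral.isIntegral _
  have hfin : FiniteDimensional ℚ_[(l : ℕ)]
      (IntermediateField.adjoin ℚ_[(l : ℕ)] {il l (x θ)}) :=
    IntermediateField.adjoin.finiteDimensional hint
  have hle : Kx l W x ≤ IntermediateField.adjoin ℚ_[(l : ℕ)] {il l (x θ)} := by
    have h1 : (IntermediateField.adjoin ℚ_[(l : ℕ)] {il l (x θ)}).fixingSubgroup ≤ Dx l W x := by
      intro τ hτ
      rw [IntermediateField.mem_fixingSubgroup_iff] at hτ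
      have h2 : τ (il l (x θ)) = il l (x θ) :=
        hτ _ (IntermediateField.mem_adjoin_simple_self _ _)
      rw [← il_rl] at h2
      have h3 : rl l τ (x θ) = x θ := (il l).toRingHom.injective h2
      refine ⟨x⁻¹ * rl l τ * x, (hθ _).mp ?_, by group⟩
      rw [AlgEquiv.mul_apply, AlgEquiv.mul_apply, h3, ← AlgEquiv.mul_apply, inv_mul_cancel,
        AlgEquiv.one_apply]
    have h2 := IntermediateField.fixedField_antitone h1
    haveI : IsAlgClosure ℚ_[(l : ℕ)] (Om l) := ⟨inferInstance, inferInstance⟩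
    haveI : IsGalois ℚ_[(l : ℕ)] (Om l) := IsAlgClosure.isGalois ℚ_[(l : ℕ)] (Om l)
    rw [InfiniteGalois.fixedField_fixingSubgroup] at h2
    exact h2
  exact FiniteDimensional.of_injective
    (IntermediateField.inclusion hle).toLinearMap (IntermediateField.inclusion hle).injective

theorem local_all (C : Cyc V U σ p) (hV : IsOpen (V : Set GQ)) (x : GQ) (δ : Gl l) {v : GQ}
    (hv : v ∈ V) (h : rl l δ * x = x * σ * v) :
    ((Lu (Kx l V x)).map (Nd p δ)).relIndex (Lu (Kx l U x)) = p ∧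
      ∀ u ∈ Lu (Kx l V x), Nd p δ u = 1 → ∃ w ∈ Lu (Kx l V x), actU δ w / w = u := by
  haveI := finite_Kx (l := l) hV x
  have hpw : ∀ j : ℕ, ∃ v' ∈ V, rl l (δ ^ j) * x = x * σ ^ j * v' := fun j => C.delta_pow hv h j
  apply local_main C.prime (Kx_mono C.le x)
  · intro y hy
    rw [mem_Kx] at hy ⊢
    intro τ w hw hτ
    have h1 : rl l (δ⁻¹ * τ * δ) * x = x * (v⁻¹ * (σ⁻¹ * w * σ) * v) := by
      rw [map_mul, map_mul, map_inv, mul_assoc, h]
      have h2 : (rl l δ)⁻¹ * x = x * v⁻¹ * σ⁻¹ := by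
        rw [inv_mul_eq_iff_eq_mul, ← mul_assoc, ← mul_assoc, h]
        group
      calc (rl l δ)⁻¹ * rl l τ * (x * σ * v) = (rl l δ)⁻¹ * (rl l τ * x) * (σ * v) := by group
        _ = (rl l δ)⁻¹ * x * (w * (σ * v)) := by rw [hτ]; group
        _ = _ := by rw [h2]; group
    have h3 := hy (δ⁻¹ * τ * δ) _ (V.mul_mem (V.mul_mem (V.inv_mem hv) (C.conj' C.mem hw)) hv) h1
    rw [AlgEquiv.mul_apply, AlgEquiv.mul_apply] at h3
    have h4 := congrArg δ h3
    rw [← AlgEquiv.mul_apply δ δ⁻¹, mul_inv_cancel, AlgEquiv.one_apply] at h4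
    exact h4
  · intro y hy
    rw [mem_Kx] at hy
    constructor
    · intro hδ
      rw [mem_Kx]
      intro τ u hu hτ
      obtain ⟨j, -, v', hv', rfl⟩ := C.gen u hu
      obtain ⟨v'', hv'', hj⟩ := hpw j
      have hδj : ∀ j : ℕ, (δ ^ j) y = y := by
        intro j
        induction j with
        | zero => rfl
        | succ j ih => rw [pow_succ, AlgEquiv.mul_apply, hδ, ih]
      have h1 : rl l ((δ ^ j)⁻¹ * τ) * x = x * (v''⁻¹ * v') := by
        rw [map_mul, map_inv, mul_assoc, hτ, inv_mul_eq_iff_eq_mul,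
          ← mul_assoc (rl l (δ ^ j)) x, hj]
        group
      have h3 := hy _ _ (V.mul_mem (V.inv_mem hv'') hv') h1
      have h4 : τ y = (δ ^ j) (((δ ^ j)⁻¹ * τ) y) := by
        rw [← AlgEquiv.mul_apply, mul_inv_cancel_left]
      rw [h4, h3, hδj]
    · intro hyU
      rw [mem_Kx] at hyU
      exact hyU δ (σ * v) (U.mul_mem C.mem (C.le hv)) (by rw [h]; group)
  · intro y hy
    rw [mem_Kx] at hy
    obtain ⟨v'', hv'', hj⟩ := hpw p
    exact hy (δ ^ p) (σ ^ p * v'') (V.mul_mem ((C.pow p).mpr dvd_rfl) hv'') (by rw [hj]; group)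
  · have hσ : σ ∉ V := by
      intro h1
      have := (C.pow 1).mp (by rwa [pow_one])
      exact C.prime.one_lt.ne' (Nat.dvd_one.mp this)
    obtain ⟨θ, hθ⟩ := exists_primitive hV
    refine ⟨il l (x θ), il_mem_Kx (fun w hw => (hθ w).mpr hw), ?_⟩
    rw [← il_rl, ← AlgEquiv.mul_apply, h, AlgEquiv.mul_apply, (hθ v).mpr hv, AlgEquiv.mul_apply]
    intro h1
    have h2 := x.injective ((il l).toRingHom.injective h1)
    exact hσ ((hθ σ).mp h2)

lemma mem_fixM_Om {W : Subgroup GQ} {x : GQ} {m : Additive (Om l)ˣ} :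
    m ∈ fixM (rl l) (repOm l) W x ↔ m.toMul ∈ Lu (Kx l W x) := by
  rw [mem_fixM, mem_Lu, mem_Kx]
  constructor
  · intro h τ w hw hτ
    have := h τ w hw hτ
    rw [← repOm_apply, this]
  · intro h τ w hw hτ
    apply Additive.toMul.injective
    apply Units.ext
    rw [repOm_apply]
    exact h τ w hw hτ

lemma locN_Om (δ : Gl l) (m : Additive (Om l)ˣ) :
    (locN (repOm l) p δ m).toMul = Nd p δ m.toMul := by
  rw [locN_apply, Nd, MonoidHom.finsetProd_apply, toMul_sum]
  rfl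

theorem local_index (C : Cyc V U σ p) (hV : IsOpen (V : Set GQ)) (x : GQ) (δ : Gl l) {v : GQ}
    (hv : v ∈ V) (h : rl l δ * x = x * σ * v) :
    ((fixM (rl l) (repOm l) V x).map (locN (repOm l) p δ)).relIndex
      (fixM (rl l) (repOm l) U x) = p := by
  have h1 := (local_all C hV x δ hv h).1
  have h2 : fixM (rl l) (repOm l) U x = Subgroup.toAddSubgroup (Lu (Kx l U x)) := by
    ext m
    exact mem_fixM_Om
  have h3 : (fixM (rl l) (repOm l) V x).map (locN (repOm l) p δ) =
      Subgroup.toAddSubgroup ((Lu (Kx l V x)).map (Nd p δ)) := by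
    ext m
    constructor
    · rintro ⟨n, hn, rfl⟩
      exact ⟨n.toMul, mem_fixM_Om.mp hn, (locN_Om δ n).symm⟩
    · rintro ⟨n, hn, hnm⟩
      refine ⟨Additive.ofMul n, mem_fixM_Om.mpr hn, ?_⟩
      apply Additive.toMul.injective
      rw [locN_Om]
      exact hnm
  rw [h2, h3, Subgroup.relIndex_toAddSubgroup]
  exact h1

theorem local_h90 (C : Cyc V U σ p) (hV : IsOpen (V : Set GQ)) (x : GQ) (δ : Gl l) {v : GQ}
    (hv : v ∈ V) (h : rl l δ * x = x * σ * v) (m : Additive (Om l)ˣ)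
    (hm : ∀ τ : Gl l, ∀ w ∈ V, rl l τ * x = x * w → repOm l τ m = m)
    (hN : ∑ j ∈ Finset.range p, repOm l (δ ^ j) m = 0) :
    ∃ n : Additive (Om l)ˣ, (∀ τ : Gl l, ∀ w ∈ V, rl l τ * x = x * w → repOm l τ n = n) ∧
      repOm l δ n - n = m := by
  obtain ⟨w, hw, hw2⟩ := (local_all C hV x δ hv h).2 m.toMul
    (mem_fixM_Om.mp (show m ∈ fixM (rl l) (repOm l) V x from hm)) (by
      rw [← locN_Om, locN_apply, hN, toMul_zero])
  refine ⟨Additive.ofMul w, (mem_fixM_Om (W := V) (x := x)).mpr hw, ?_⟩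
  apply Additive.toMul.injective
  rw [toMul_sub]
  exact hw2

/-! ### divisors -/

/-- the trivial representation on the integers -/
noncomputable abbrev repT (l : Nat.Primes) : Representation ℤ (Gl l) ℤ := 1

lemma fixM_T (W : Subgroup GQ) (x : GQ) : fixM (rl l) (repT l) W x = ⊤ := by
  rw [eq_top_iff]
  intro m _ τ w hw h
  rfl

lemma local_index_T (x : GQ) (δ : Gl l) :
    ((fixM (rl l) (repT l) V x).map (locN (repT l) p δ)).relIndex
      (fixM (rl l) (repT l) U x) = p := by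
  rw [fixM_T, fixM_T, AddSubgroup.relIndex_top_right]
  have h1 : (⊤ : AddSubgroup ℤ).map (locN (repT l) p δ) = AddSubgroup.zmultiples (p : ℤ) := by
    ext m
    rw [Int.mem_zmultiples_iff]
    constructor
    · rintro ⟨n, -, rfl⟩
      rw [locN_apply]
      change (p : ℤ) ∣ ∑ j ∈ Finset.range p, n
      rw [Finset.sum_const, Finset.card_range, nsmul_eq_mul]
      exact dvd_mul_right _ _
    · rintro ⟨n, rfl⟩
      refine ⟨n, trivial, ?_⟩
      rw [locN_apply]
      change ∑ j ∈ Finset.range p, n = _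
      rw [Finset.sum_const, Finset.card_range, nsmul_eq_mul]
  rw [h1, Int.index_zmultiples, Int.natAbs_natCast]

lemma local_h90_T (hp : p.Prime) (δ : Gl l) (m : ℤ)
    (hN : ∑ j ∈ Finset.range p, repT l (δ ^ j) m = 0) : m = 0 := by
  change ∑ j ∈ Finset.range p, m = 0 at hN
  rw [Finset.sum_const, Finset.card_range, nsmul_eq_mul] at hN
  rcases mul_eq_zero.mp hN with h | h
  · exact absurd (by exact_mod_cast h) hp.ne_zero
  · exact h

end Fermat.Agent.GlobalCFT
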