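import Mathlib

/-!
# Index calculus for endomorphisms of commutative groups
-/

set_option autoImplicit false

namespace Fermat.Agent.GlobalCFT

open Subgroup

variable {A C : Type*} [CommGroup A] [CommGroup C]

/-- The basic index formula. -/
theorem relIndex_eq_map_mul (f : A →* C) {B K : Subgroup A} (h : B ≤ K) :
    B.relIndex K = (B.map f).relIndex (K.map f) * B.relIndex (K ⊓ f.ker) := by
  have h1 : (B.map f).relIndex (K.map f) = (B ⊔ f.ker).relIndex K := by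
    rw [relIndex_map_map]
    have : K ⊔ f.ker = K ⊔ (B ⊔ f.ker) := by
      rw [← sup_assoc, sup_eq_left.mpr h]
    rw [this, relIndex_sup_right]
  have h2 : B.relIndex (K ⊓ f.ker) = B.relIndex ((B ⊔ f.ker) ⊓ K) := by
    have : (B ⊔ f.ker) ⊓ K = (K ⊓ f.ker) ⊔ B := by
      rw [sup_inf_assoc_of_le f.ker h, sup_comm, inf_comm]
    rw [this, relIndex_sup_right]
  rw [h1, h2, mul_comm, relIndex_inf_mul_relIndex, inf_eq_left.mpr le_sup_left]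

theorem card_eq_map_mul (f : A →* C) (K : Subgroup A) :
    Nat.card K = Nat.card (K.map f) * Nat.card ↥(K ⊓ f.ker) := by
  have := relIndex_eq_map_mul f (bot_le : (⊥ : Subgroup A) ≤ K)
  simpa only [Subgroup.map_bot, relIndex_bot_left] using this

theorem card_mul_relIndex {B K : Subgroup A} (h : B ≤ K) :
    Nat.card B * B.relIndex K = Nat.card K := by
  have := relIndex_mul_relIndex _ _ _ (bot_le : (⊥ : Subgroup A) ≤ B) h
  simpa only [relIndex_bot_left] using this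

theorem relIndex_of_inf_le (f : A →* C) {B K : Subgroup A} (h : B ≤ K) (h' : K ⊓ f.ker ≤ B) :
    B.relIndex K = (B.map f).relIndex (K.map f) := by
  rw [relIndex_eq_map_mul f h, relIndex_eq_one.mpr h', mul_one]

/-- `φ` has finite kernel and cokernel on `H`. -/
structure QF (φ : A →* A) (H : Subgroup A) : Prop where
  map_le : H.map φ ≤ H
  idx : (H.map φ).relIndex H ≠ 0
  fin : Nat.card ↥(H ⊓ φ.ker) ≠ 0

/-- The `q`-index of an endomorphism. -/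
noncomputable def Q (φ : A →* A) (H : Subgroup A) : ℚ :=
  ((H.map φ).relIndex H : ℚ) / (Nat.card ↥(H ⊓ φ.ker) : ℚ)

theorem QF.ne_zero {φ : A →* A} {H : Subgroup A} (h : QF φ H) : Q φ H ≠ 0 :=
  div_ne_zero (by exact_mod_cast h.idx) (by exact_mod_cast h.fin)

theorem map_congr' {φ φ' : A →* C} {H : Subgroup A} (h : ∀ x ∈ H, φ x = φ' x) :
    H.map φ = H.map φ' := by
  ext y
  simp only [Subgroup.mem_map]
  constructor
  · rintro ⟨x, hx, rfl⟩; exact ⟨x, hx, (h x hx).symm⟩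
  · rintro ⟨x, hx, rfl⟩; exact ⟨x, hx, h x hx⟩

theorem inf_ker_congr' {φ φ' : A →* C} {H : Subgroup A} (h : ∀ x ∈ H, φ x = φ' x) :
    H ⊓ φ.ker = H ⊓ φ'.ker := by
  ext y
  simp only [Subgroup.mem_inf, MonoidHom.mem_ker]
  constructor
  · rintro ⟨h1, h2⟩; exact ⟨h1, by rw [← h y h1, h2]⟩
  · rintro ⟨h1, h2⟩; exact ⟨h1, by rw [h y h1, h2]⟩

theorem Q_congr {φ φ' : A →* A} {H : Subgroup A} (h : ∀ x ∈ H, φ x = φ' x) : Q φ H = Q φ' H := by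
  rw [Q, Q, map_congr' h, inf_ker_congr' h]

theorem QF.congr {φ φ' : A →* A} {H : Subgroup A} (h : ∀ x ∈ H, φ x = φ' x) (hq : QF φ H) :
    QF φ' H := by
  obtain ⟨h1, h2, h3⟩ := hq
  rw [map_congr' h] at h1 h2
  rw [inf_ker_congr' h] at h3
  exact ⟨h1, h2, h3⟩

/-- Multiplicativity for compositions. -/
theorem Q_comp {φ ψ : A →* A} {H : Subgroup A} (hφ : QF φ H) (hψ : QF ψ H) :
    QF (φ.comp ψ) H ∧ Q (φ.comp ψ) H = Q φ H * Q ψ H := by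
  obtain ⟨f1, f2, f3⟩ := hφ
  obtain ⟨g1, g2, g3⟩ := hψ
  have hm : H.map (φ.comp ψ) = (H.map ψ).map φ := (Subgroup.map_map _ _ _).symm
  have hle : (H.map ψ).map φ ≤ H.map φ := Subgroup.map_mono g1
  have e1 := relIndex_mul_relIndex _ _ _ hle f1
  have e2 := relIndex_eq_map_mul φ g1
  have e3 := card_mul_relIndex (A := A) (B := H.map ψ ⊓ φ.ker) (K := H ⊓ φ.ker)
    (inf_le_inf_right _ g1)
  have e3' : (H.map ψ ⊓ φ.ker).relIndex (H ⊓ φ.ker) = (H.map ψ).relIndex (H ⊓ φ.ker) := by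
    rw [← inf_relIndex_right (H.map ψ) (H ⊓ φ.ker)]
    congr 1
    rw [← inf_assoc, inf_eq_left.mpr g1]
  rw [e3'] at e3
  have e4 := card_eq_map_mul ψ (H ⊓ (φ.comp ψ).ker)
  have e5 : (H ⊓ (φ.comp ψ).ker).map ψ = H.map ψ ⊓ φ.ker := by
    ext y
    simp only [Subgroup.mem_map, Subgroup.mem_inf, MonoidHom.mem_ker, MonoidHom.comp_apply]
    constructor
    · rintro ⟨x, ⟨hx, hx'⟩, rfl⟩; exact ⟨⟨x, hx, rfl⟩, hx'⟩
    · rintro ⟨⟨x, hx, rfl⟩, hy⟩; exact ⟨x, ⟨hx, hy⟩, rfl⟩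
  have e6 : H ⊓ (φ.comp ψ).ker ⊓ ψ.ker = H ⊓ ψ.ker := by
    ext y
    simp only [Subgroup.mem_inf, MonoidHom.mem_ker, MonoidHom.comp_apply]
    constructor
    · rintro ⟨⟨h1, -⟩, h2⟩; exact ⟨h1, h2⟩
    · rintro ⟨h1, h2⟩; exact ⟨⟨h1, by rw [h2, map_one]⟩, h2⟩
  rw [e5, e6] at e4
  rw [← hm] at e1 e2
  set a := (H.map (φ.comp ψ)).relIndex (H.map φ)
  set b := (H.map φ).relIndex H
  set c := (H.map ψ).relIndex H
  set d := (H.map ψ).relIndex (H ⊓ φ.ker)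
  set u := Nat.card ↥(H.map ψ ⊓ φ.ker)
  set v := Nat.card ↥(H ⊓ φ.ker)
  set w := Nat.card ↥(H ⊓ ψ.ker)
  have ha : a ≠ 0 := fun h => g2 (by rw [e2, h, zero_mul])
  have hd : d ≠ 0 := fun h => g2 (by rw [e2, h, mul_zero])
  have hu : u ≠ 0 := fun h => f3 (by rw [← e3, h, zero_mul])
  refine ⟨⟨hm ▸ hle.trans f1, ?_, ?_⟩, ?_⟩
  · rw [← e1]; exact mul_ne_zero ha f2
  · rw [e4]; exact mul_ne_zero hu g3
  · rw [Q, Q, Q, ← e1, e4]
    change ((a * b : ℕ) : ℚ) / ((u * w : ℕ) : ℚ) = (b : ℚ) / v * (c / w)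
    rw [e2, ← e3]
    have hu' : (u : ℚ) ≠ 0 := by exact_mod_cast hu
    have hd' : (d : ℚ) ≠ 0 := by exact_mod_cast hd
    have hw' : (w : ℚ) ≠ 0 := by exact_mod_cast g3
    push_cast
    field_simp

/-- Multiplicativity in exact sequences. -/
theorem Q_exact {φ : A →* A} {ψ : C →* C} (h : A →* C) (hc : ∀ x, h (φ x) = ψ (h x))
    {H : Subgroup A} (hH : H.map φ ≤ H) (h1 : QF φ (H ⊓ h.ker)) (h2 : QF ψ (H.map h)) :
    QF φ H ∧ Q φ H = Q φ (H ⊓ h.ker) * Q ψ (H.map h) := by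
  obtain ⟨-, f2, f3⟩ := h1
  obtain ⟨-, g2, g3⟩ := h2
  have hNle : (H ⊓ h.ker).map φ ≤ H.map φ ⊓ (H ⊓ h.ker) := by
    rintro _ ⟨x, ⟨hx1, hx2⟩, rfl⟩
    refine ⟨⟨x, hx1, rfl⟩, hH ⟨x, hx1, rfl⟩, ?_⟩
    have hx2' : h x = 1 := hx2
    change h (φ x) = 1
    rw [hc, hx2', map_one]
  have e1 := relIndex_eq_map_mul h hH
  have hD : (H.map φ).map h = (H.map h).map ψ := by
    rw [Subgroup.map_map, Subgroup.map_map]
    exact map_congr' fun x _ => hc x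
  rw [hD] at e1
  have e2 := relIndex_mul_relIndex _ _ _ hNle inf_le_right
  rw [inf_relIndex_right] at e2
  have e3 := card_eq_map_mul h (H ⊓ φ.ker)
  have e3' : H ⊓ φ.ker ⊓ h.ker = H ⊓ h.ker ⊓ φ.ker := by rw [inf_right_comm]
  rw [e3'] at e3
  have hle4 : (H ⊓ φ.ker).map h ≤ H.map h ⊓ ψ.ker := by
    rintro _ ⟨x, ⟨hx1, hx2⟩, rfl⟩
    refine ⟨⟨x, hx1, rfl⟩, ?_⟩
    have hx2' : φ x = 1 := hx2
    change ψ (h x) = 1
    rw [← hc, hx2', map_one]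
  have e4 := card_mul_relIndex hle4
  -- the snake
  let K : Subgroup A := H ⊓ (h.ker).comap φ
  let B : Subgroup A := (H ⊓ h.ker) ⊔ (H ⊓ φ.ker)
  have hBK : B ≤ K := by
    refine sup_le ?_ ?_
    · rintro x ⟨hx1, hx2⟩
      have hx2' : h x = 1 := hx2
      refine ⟨hx1, ?_⟩
      change h (φ x) = 1
      rw [hc, hx2', map_one]
    · rintro x ⟨hx1, hx2⟩
      have hx2' : φ x = 1 := hx2
      refine ⟨hx1, ?_⟩
      change h (φ x) = 1
      rw [hx2', map_one]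
  have e5 := relIndex_of_inf_le φ hBK (by
    rintro x ⟨⟨hx1, -⟩, hx2⟩
    exact (le_sup_right : H ⊓ φ.ker ≤ B) ⟨hx1, hx2⟩)
  have e6 := relIndex_of_inf_le h hBK (by
    rintro x ⟨⟨hx1, -⟩, hx2⟩
    exact (le_sup_left : H ⊓ h.ker ≤ B) ⟨hx1, hx2⟩)
  have m1 : B.map φ = (H ⊓ h.ker).map φ := by
    rw [Subgroup.map_sup]
    have : (H ⊓ φ.ker).map φ = ⊥ := by
      rw [eq_bot_iff]
      rintro _ ⟨x, ⟨-, hx⟩, rfl⟩
      exact hx
    rw [this, sup_bot_eq]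
  have m2 : K.map φ = H.map φ ⊓ (H ⊓ h.ker) := by
    ext y
    constructor
    · rintro ⟨x, ⟨hx1, hx2⟩, rfl⟩
      exact ⟨⟨x, hx1, rfl⟩, hH ⟨x, hx1, rfl⟩, hx2⟩
    · rintro ⟨⟨x, hx1, rfl⟩, -, hx3⟩
      exact ⟨x, ⟨hx1, hx3⟩, rfl⟩
  have m3 : B.map h = (H ⊓ φ.ker).map h := by
    rw [Subgroup.map_sup]
    have : (H ⊓ h.ker).map h = ⊥ := by
      rw [eq_bot_iff]
      rintro _ ⟨x, ⟨-, hx⟩, rfl⟩
      exact hx
    rw [this, bot_sup_eq]
  have m4 : K.map h = H.map h ⊓ ψ.ker := by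
    ext y
    constructor
    · rintro ⟨x, ⟨hx1, hx2⟩, rfl⟩
      have hx2' : h (φ x) = 1 := hx2
      refine ⟨⟨x, hx1, rfl⟩, ?_⟩
      change ψ (h x) = 1
      rw [← hc, hx2']
    · rintro ⟨⟨x, hx1, rfl⟩, hx2⟩
      have hx2' : ψ (h x) = 1 := hx2
      refine ⟨x, ⟨hx1, ?_⟩, rfl⟩
      change h (φ x) = 1
      rw [hc, hx2']
  rw [m1, m2] at e5
  rw [m3, m4] at e6
  have e7 := e5.symm.trans e6
  rw [e7] at e2
  set a := (H.map φ).relIndex H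
  set b := ((H.map h).map ψ).relIndex (H.map h)
  set c := (H.map φ).relIndex (H ⊓ h.ker)
  set d := ((H ⊓ h.ker).map φ).relIndex (H ⊓ h.ker)
  set u := Nat.card ↥(H ⊓ φ.ker)
  set v := Nat.card ↥((H ⊓ φ.ker).map h)
  set w := Nat.card ↥(H ⊓ h.ker ⊓ φ.ker)
  set z := Nat.card ↥(H.map h ⊓ ψ.ker)
  set t := ((H ⊓ φ.ker).map h).relIndex (H.map h ⊓ ψ.ker)
  have ht : t ≠ 0 := fun h => f2 (by rw [← e2, h, zero_mul])
  have hc0 : c ≠ 0 := fun h => f2 (by rw [← e2, h, mul_zero])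
  have hv : v ≠ 0 := fun h => g3 (by rw [← e4, h, zero_mul])
  refine ⟨⟨hH, ?_, ?_⟩, ?_⟩
  · change a ≠ 0
    rw [e1]; exact mul_ne_zero g2 hc0
  · change u ≠ 0
    rw [e3]; exact mul_ne_zero hv f3
  · rw [Q, Q, Q]
    change (a : ℚ) / u = (d : ℚ) / w * (b / z)
    rw [e1, e3, ← e2, ← e4]
    have ht' : (t : ℚ) ≠ 0 := by exact_mod_cast ht
    have hv' : (v : ℚ) ≠ 0 := by exact_mod_cast hv
    have hw' : (w : ℚ) ≠ 0 := by exact_mod_cast f3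
    push_cast
    field_simp

theorem Q_fin_index_aux {φ : A →* A} {H H' : Subgroup A} (hle : H' ≤ H) (hi : H'.relIndex H ≠ 0)
    (hH : H.map φ ≤ H) (hH' : H'.map φ ≤ H') :
    ∃ s t : ℕ, s ≠ 0 ∧ t ≠ 0 ∧ (H'.map φ).relIndex H' * (s * t) = (H.map φ).relIndex H * s ∧
      Nat.card ↥(H ⊓ φ.ker) = Nat.card ↥(H' ⊓ φ.ker) * t := by
  have e1 := relIndex_mul_relIndex _ _ _ hH' hle
  have e2 := relIndex_mul_relIndex _ _ _ (Subgroup.map_mono (f := φ) hle) hH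
  have e3 := relIndex_eq_map_mul φ hle
  have e4 := card_mul_relIndex (A := A) (B := H' ⊓ φ.ker) (K := H ⊓ φ.ker)
    (inf_le_inf_right _ hle)
  have e4' : (H' ⊓ φ.ker).relIndex (H ⊓ φ.ker) = H'.relIndex (H ⊓ φ.ker) := by
    rw [← inf_relIndex_right H' (H ⊓ φ.ker)]
    congr 1
    rw [← inf_assoc, inf_eq_left.mpr hle]
  rw [e4'] at e4
  refine ⟨(H'.map φ).relIndex (H.map φ), H'.relIndex (H ⊓ φ.ker), ?_, ?_, ?_, e4.symm⟩
  · intro h; apply hi; rw [e3, h, zero_mul]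
  · intro h; apply hi; rw [e3, h, mul_zero]
  · rw [← e3, e1, ← e2, mul_comm]

theorem Q_fin_index {φ : A →* A} {H H' : Subgroup A} (hle : H' ≤ H) (hi : H'.relIndex H ≠ 0)
    (hq : QF φ H) (hH' : H'.map φ ≤ H') : QF φ H' ∧ Q φ H' = Q φ H := by
  obtain ⟨s, t, hs, ht, e1, e2⟩ := Q_fin_index_aux hle hi hq.map_le hH'
  obtain ⟨f1, f2, f3⟩ := hq
  have h1 : (H'.map φ).relIndex H' ≠ 0 := by
    intro h
    rw [h, zero_mul] at e1
    exact mul_ne_zero f2 hs e1.symm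
  have h2 : Nat.card ↥(H' ⊓ φ.ker) ≠ 0 := by
    intro h
    rw [h, zero_mul] at e2
    exact f3 e2
  refine ⟨⟨hH', h1, h2⟩, ?_⟩
  rw [Q, Q, e2, div_eq_div_iff (by exact_mod_cast h2) (by exact_mod_cast mul_ne_zero h2 ht)]
  have hs' : (s : ℚ) ≠ 0 := by exact_mod_cast hs
  apply mul_right_cancel₀ hs'
  have := congrArg (Nat.cast : ℕ → ℚ) e1
  push_cast at this ⊢
  linear_combination (Nat.card ↥(H' ⊓ φ.ker) : ℚ) * this

theorem Q_fin_index' {φ : A →* A} {H H' : Subgroup A} (hle : H' ≤ H) (hi : H'.relIndex H ≠ 0)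
    (hH : H.map φ ≤ H) (hq : QF φ H') : QF φ H ∧ Q φ H' = Q φ H := by
  obtain ⟨s, t, hs, ht, e1, e2⟩ := Q_fin_index_aux hle hi hH hq.map_le
  obtain ⟨f1, f2, f3⟩ := hq
  have h1 : (H.map φ).relIndex H ≠ 0 := by
    intro h
    rw [h, zero_mul] at e1
    exact mul_ne_zero f2 (mul_ne_zero hs ht) e1
  have h2 : Nat.card ↥(H ⊓ φ.ker) ≠ 0 := by
    rw [e2]; exact mul_ne_zero f3 ht
  exact ⟨⟨hH, h1, h2⟩, (Q_fin_index hle hi ⟨hH, h1, h2⟩ f1).2⟩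

/-! ### The hexagon -/

/-- Half of the hexagon. -/
theorem hexagon_half {f g : A →* A} {H E : Subgroup A} (hE : E ≤ H)
    (hf : H.map f ≤ H) (hg : H.map g ≤ H) (hfE : E.map f ≤ E) (hgE : E.map g ≤ E)
    (hfg : ∀ x ∈ H, f (g x) = 1) :
    (E.map g).relIndex (E ⊓ f.ker) =
      (H.map g).relIndex (E ⊓ f.ker) * (E.map g).relIndex (E ⊓ H.map g) ∧
    (H.map g).relIndex (H ⊓ f.ker) =
      (H.map g).relIndex (E ⊓ f.ker) * (E ⊓ f.ker ⊔ H.map g).relIndex (H ⊓ f.ker) ∧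
    (H.map g ⊔ E).relIndex (H ⊓ E.comap f) =
      (E ⊓ f.ker ⊔ H.map g).relIndex (H ⊓ f.ker) * (E.map f).relIndex (E ⊓ H.map f) := by
  have hgk : H.map g ≤ f.ker := by rintro _ ⟨x, hx, rfl⟩; exact hfg x hx
  refine ⟨?_, ?_, ?_⟩
  · have hle : E.map g ≤ H.map g ⊓ (E ⊓ f.ker) := by
      rintro _ ⟨x, hx, rfl⟩
      exact ⟨⟨x, hE hx, rfl⟩, hgE ⟨x, hx, rfl⟩, hfg x (hE hx)⟩
    have e := relIndex_mul_relIndex _ _ _ hle inf_le_right
    rw [inf_relIndex_right] at e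
    have e' : H.map g ⊓ (E ⊓ f.ker) = E ⊓ H.map g := by
      rw [inf_left_comm, inf_eq_left.mpr hgk]
    rw [e'] at e
    rw [← e, mul_comm]
  · have hle : E ⊓ f.ker ⊔ H.map g ≤ H ⊓ f.ker :=
      sup_le (inf_le_inf_right _ hE) (le_inf hg hgk)
    have e := relIndex_mul_relIndex _ _ _ (le_sup_right : H.map g ≤ E ⊓ f.ker ⊔ H.map g) hle
    rw [relIndex_sup_right] at e
    exact e.symm
  · have hle1 : H.map g ⊔ E ≤ (H ⊓ f.ker) ⊔ E := sup_le_sup_right (le_inf hg hgk) _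
    have hle2 : (H ⊓ f.ker) ⊔ E ≤ H ⊓ E.comap f := by
      refine sup_le ?_ ?_
      · rintro x ⟨hx1, hx2⟩
        have hx2' : f x = 1 := hx2
        refine ⟨hx1, ?_⟩
        change f x ∈ E
        rw [hx2']
        exact E.one_mem
      · intro x hx
        exact ⟨hE hx, hfE ⟨x, hx, rfl⟩⟩
    have e := relIndex_mul_relIndex _ _ _ hle1 hle2
    have e1 : (H.map g ⊔ E).relIndex ((H ⊓ f.ker) ⊔ E) =
        (E ⊓ f.ker ⊔ H.map g).relIndex (H ⊓ f.ker) := by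
      have : (H ⊓ f.ker) ⊔ E = (H ⊓ f.ker) ⊔ (H.map g ⊔ E) := by
        rw [← sup_assoc, sup_eq_left.mpr (le_inf hg hgk)]
      rw [this, relIndex_sup_right, ← inf_relIndex_right]
      congr 1
      rw [inf_comm, inf_comm, sup_inf_assoc_of_le _ (le_inf hg hgk), sup_comm]
      congr 1
      rw [← inf_assoc, inf_eq_left.mpr hE]
    have e2 : ((H ⊓ f.ker) ⊔ E).relIndex (H ⊓ E.comap f) = (E.map f).relIndex (E ⊓ H.map f) := by
      rw [relIndex_of_inf_le f hle2]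
      · congr 1
        · rw [Subgroup.map_sup]
          have : (H ⊓ f.ker).map f = ⊥ := by
            rw [eq_bot_iff]
            rintro _ ⟨x, ⟨-, hx⟩, rfl⟩
            exact hx
          rw [this, bot_sup_eq]
        · ext y
          constructor
          · rintro ⟨x, ⟨hx1, hx2⟩, rfl⟩
            exact ⟨hx2, ⟨x, hx1, rfl⟩⟩
          · rintro ⟨hy, ⟨x, hx, rfl⟩⟩
            exact ⟨x, ⟨hx, hy⟩, rfl⟩
      · rintro x ⟨⟨hx1, -⟩, hx2⟩
        exact (le_sup_left : H ⊓ f.ker ≤ (H ⊓ f.ker) ⊔ E) ⟨hx1, hx2⟩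
    rw [e1, e2] at e
    exact e.symm

/-- **The Herbrand hexagon** in index form. -/
theorem hexagon {f g : A →* A} {H E : Subgroup A} (hE : E ≤ H)
    (hf : H.map f ≤ H) (hg : H.map g ≤ H) (hfE : E.map f ≤ E) (hgE : E.map g ≤ E)
    (hfg : ∀ x ∈ H, f (g x) = 1) (hgf : ∀ x ∈ H, g (f x) = 1) :
    (H.map g).relIndex (H ⊓ f.ker) * (E.map f).relIndex (E ⊓ g.ker) *
        (H.map f ⊔ E).relIndex (H ⊓ E.comap g) =
      (H.map f).relIndex (H ⊓ g.ker) * (E.map g).relIndex (E ⊓ f.ker) *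
        (H.map g ⊔ E).relIndex (H ⊓ E.comap f) := by
  obtain ⟨a1, a2, a3⟩ := hexagon_half hE hf hg hfE hgE hfg
  obtain ⟨b1, b2, b3⟩ := hexagon_half hE hg hf hgE hfE hgf
  rw [a1, a2, a3, b1, b2, b3]
  ring

/-- Finiteness for the quotient. -/
theorem hexagon_ne_zero {f g : A →* A} {H E : Subgroup A} (hE : E ≤ H)
    (hf : H.map f ≤ H) (hg : H.map g ≤ H) (hfE : E.map f ≤ E) (hgE : E.map g ≤ E)
    (hfg : ∀ x ∈ H, f (g x) = 1) (hgf : ∀ x ∈ H, g (f x) = 1)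
    (h1 : (H.map g).relIndex (H ⊓ f.ker) ≠ 0) (h2 : (E.map f).relIndex (E ⊓ g.ker) ≠ 0) :
    (H.map g ⊔ E).relIndex (H ⊓ E.comap f) ≠ 0 := by
  obtain ⟨a1, a2, a3⟩ := hexagon_half hE hf hg hfE hgE hfg
  obtain ⟨b1, b2, b3⟩ := hexagon_half hE hg hf hgE hfE hgf
  rw [a3]
  refine mul_ne_zero ?_ ?_
  · intro h; apply h1; rw [a2, h, mul_zero]
  · intro h; apply h2; rw [b1, h, mul_zero]

end Fermat.Agent.GlobalCFT
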