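import Fermat.Agent.GlobalCFT.KumMu
import Fermat.Agent.GlobalCFT.KumKS
import Fermat.Agent.GCFT.H1C

/-!
# Kummer theory: `H¹` and the locally trivial part of `H²` with coefficients in `μ_p`
-/

set_option autoImplicit false
set_option linter.style.haveILetI false

namespace Fermat.Agent.GlobalCFT

open Fermat.Agent.Coh Fermat.Agent.GCFT NumberField IsDedekindDomain Fermat.Agent.PT
  Fermat.Agent.GalD Fermat.Agent.LocalCFT ExtCitation

/-- The field of algebraic numbers. -/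
local notation "Qb" => AlgebraicClosure ℚ
/-- The absolute Galois group. -/
local notation "GQ" => (AlgebraicClosure ℚ ≃ₐ[ℚ] AlgebraicClosure ℚ)

variable {S : Finset Nat.Primes} {U : Subgroup GQ}

/-- Hilbert 90 for `KS`, subtype version -/
theorem h90_KS (hU : (famS S).IsOpen U) (z : U → KS S)
    (hz : ∀ g h : U, z (g * h) = repK S g (z h) + z g) (hsm : ((famS S).res U).Sm1 z) :
    ∃ b : KS S, ∀ g : U, z g = repK S g b - b := by
  classical
  obtain ⟨_, ⟨W, hW, rfl⟩, hsm⟩ := hsm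
  obtain ⟨b, hb⟩ := exists_of_cocycle hU (fun g => if h : g ∈ U then z ⟨g, h⟩ else 0) (by
    intro g hg h hh
    rw [dif_pos (U.mul_mem hg hh), dif_pos hg, dif_pos hh]
    exact hz ⟨g, hg⟩ ⟨h, hh⟩) ⟨W, hW, fun g hg w hw hwW => by
      rw [dif_pos (U.mul_mem hg hw), dif_pos hg]
      exact hsm ⟨g, hg⟩ ⟨w, hw⟩ hwW⟩
  refine ⟨b, fun g => ?_⟩
  rw [← hb g g.2, dif_pos g.2]

variable {p : ℕ} [hp : Fact p.Prime] (hpS : pPrime p ∈ S)

section H1

/-- Kummer relation in degree one -/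
def KRel (z : U → ZMod p) (x : KS S) : Prop :=
  ∃ y : KS S, p • y = x ∧ ∀ u : U, jG hpS (z u) = repK S u y - y

variable {hpS}

lemma KRel.sub {z z' : U → ZMod p} {x x' : KS S} (h : KRel hpS z x) (h' : KRel hpS z' x') :
    KRel hpS (z - z') (x - x') := by
  obtain ⟨y, h1, h2⟩ := h
  obtain ⟨y', h1', h2'⟩ := h'
  refine ⟨y - y', by rw [nsmul_sub, h1, h1'], fun u => ?_⟩
  rw [Pi.sub_apply, map_sub, h2, h2', map_sub]
  abel

lemma KRel.add {z z' : U → ZMod p} {x x' : KS S} (h : KRel hpS z x) (h' : KRel hpS z' x') :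
    KRel hpS (z + z') (x + x') := by
  obtain ⟨y, h1, h2⟩ := h
  obtain ⟨y', h1', h2'⟩ := h'
  refine ⟨y + y', by rw [nsmul_add, h1, h1'], fun u => ?_⟩
  rw [Pi.add_apply, map_add, h2, h2', map_add]
  abel

lemma muQ_eq_self (hUp : ∀ u ∈ U, cycloChar p u = 1) {u : GQ} (hu : u ∈ U) (a : ZMod p) :
    muQ p u a = a := by
  have h0 : muQ p u a = (cycloChar p u : ZMod p) * a := rfl
  rw [h0, hUp u hu, Units.val_one, one_mul]

lemma repK_jG (hUp : ∀ u ∈ U, cycloChar p u = 1) {u : GQ} (hu : u ∈ U) (a : ZMod p) :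
    repK S u (jG hpS a) = jG hpS a := by
  rw [← jG_comm, muQ_eq_self hUp hu]

lemma KRel.eq_zero (hUp : ∀ u ∈ U, cycloChar p u = 1) {z : U → ZMod p} {x : KS S}
    (h : KRel hpS z x) {y' : KS S} (hy' : y' ∈ FKU S U) (hx : p • y' = x) : z = 0 := by
  obtain ⟨y, h1, h2⟩ := h
  obtain ⟨a, ha⟩ := exists_jG hpS (y - y') (by rw [nsmul_sub, h1, hx, sub_self])
  funext u
  apply jG_injective hpS
  rw [h2 u, Pi.zero_apply, map_zero]
  have h3 : y = jG hpS a + y' := by rw [ha]; abel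
  rw [h3, map_add, repK_jG hUp u.2, hy' u u.2]
  abel

lemma KRel.of_zero {x : KS S} (h : KRel (U := U) hpS 0 x) : ∃ y ∈ FKU S U, p • y = x := by
  obtain ⟨y, h1, h2⟩ := h
  refine ⟨y, fun u hu => ?_, h1⟩
  have := h2 ⟨u, hu⟩
  rw [Pi.zero_apply, map_zero] at this
  exact sub_eq_zero.mp this.symm

/-- the elements whose divisor is divisible by `p` -/
lemma KRel.exists_left (hU : (famS S).IsOpen U) (hUp : ∀ u ∈ U, cycloChar p u = 1)
    (z : ↥(Z1 ((famS S).res U) (rep (muQ p) U))) :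
    ∃ x ∈ FKU S U, (∃ D ∈ DVU S U, p • D = dk S x) ∧ KRel hpS (z : U → ZMod p) x := by
  obtain ⟨y, hy⟩ := h90_KS hU (fun u => jG hpS ((z : U → ZMod p) u)) (by
    intro g h
    rw [z.2.2 g h, map_add]
    congr 1
    exact jG_comm hpS (g : GQ) _) (z.2.1.post _)
  refine ⟨p • y, fun u hu => ?_, ⟨dk S y, ⟨rfl, fun u hu => ?_⟩, (map_nsmul _ _ _).symm⟩, y, rfl, hy⟩
  · rw [map_nsmul, ← sub_eq_zero, ← nsmul_sub, ← hy ⟨u, hu⟩, nsmul_jG]
  · rw [← dk_comm, ← sub_eq_zero, ← map_sub, ← hy ⟨u, hu⟩, dk_jG]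

omit hp in
lemma dvd_of_dk {x : KS S} {D : IS S} (h : p • D = dk S x) (l : Nat.Primes) (hl : l ∉ S) (g : GQ) :
    (p : ℤ) ∣ divl l (x : Additive Qbˣ) g := by
  refine ⟨(D : AA).2 l g, ?_⟩
  rw [← dk_snd x hl g, ← h]
  change (p • (D : AA)).2 l g = _
  rw [Prod.smul_snd, Pi.smul_apply, Pi.smul_apply, nsmul_eq_mul]

lemma KRel.exists_right {x : KS S} (hx : x ∈ FKU S U)
    {D : IS S} (hD : p • D = dk S x) :
    ∃ z : ↥(Z1 ((famS S).res U) (rep (muQ p) U)), KRel hpS (z : U → ZMod p) x := by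
  obtain ⟨y, hy⟩ := exists_root_KS hp.out (pp := pPrime p) rfl hpS x
    (fun l hl g => dvd_of_dk hD l hl g)
  have h1 : ∀ u : U, ∃ a, jG hpS a = repK S (u : GQ) y - y := by
    intro u
    apply exists_jG
    rw [nsmul_sub, ← map_nsmul, hy, hx u u.2, sub_self]
  choose z hz using h1
  refine ⟨⟨z, ⟨?_, fun g h => ?_⟩⟩, y, hy, hz⟩
  · obtain ⟨W, hW, hWy⟩ := smRep_smooth (famS S) repQb y
    refine ⟨_, ⟨W, hW, rfl⟩, fun g w hw => ?_⟩
    apply jG_injective hpS
    rw [hz, hz]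
    change repK S ((g : GQ) * (w : GQ)) y - y = _
    rw [map_mul, Module.End.mul_apply]
    congr 2
    exact hWy w hw
  · apply jG_injective hpS
    rw [hz, map_add, hz]
    change repK S ((g : GQ) * (h : GQ)) y - y = jG hpS (muQ p (g : GQ) (z h)) + _
    rw [jG_comm, hz, map_mul, Module.End.mul_apply, map_sub]
    abel

variable (hpS)

include hpS in
/-- **Kummer theory in degree one.** -/
theorem card_H1 (hU : (famS S).IsOpen U) (hUp : ∀ u ∈ U, cycloChar p u = 1) :
    Nat.card (H1 ((famS S).res U) (rep (muQ p) U)) =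
      ((AddSubgroup.toSubgroup (FKU S U)).map (pw (Multiplicative (KS S)) p)).relIndex
        (AddSubgroup.toSubgroup (FKU S U) ⊓ ((AddSubgroup.toSubgroup (DVU S U)).map
          (pw (Multiplicative (IS S)) p)).comap (AddMonoidHom.toMultiplicative (dk S))) := by
  classical
  set E := AddSubgroup.toSubgroup (FKU S U) with hE
  set K := E ⊓ ((AddSubgroup.toSubgroup (DVU S U)).map
          (pw (Multiplicative (IS S)) p)).comap (AddMonoidHom.toMultiplicative (dk S)) with hK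
  have hmk0 : ∀ z : ↥(Z1 ((famS S).res U) (rep (muQ p) U)),
      H1.mk ((famS S).res U) (rep (muQ p) U) z = 0 ↔ (z : U → ZMod p) = 0 := by
    intro z
    rw [H1.mk_eq_zero]
    constructor
    · rintro ⟨v, hv⟩
      funext g
      rw [hv g, Pi.zero_apply, sub_eq_zero]
      exact muQ_eq_self hUp g.2 v
    · intro h
      exact ⟨0, fun g => by rw [h, map_zero, sub_zero]; rfl⟩
  have hex : ∀ x : K, ∃ z : ↥(Z1 ((famS S).res U) (rep (muQ p) U)),
      KRel hpS (z : U → ZMod p) (Multiplicative.toAdd (x : Multiplicative (KS S))) := by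
    intro x
    obtain ⟨h1, D, hD1, hD2⟩ := x.2
    exact KRel.exists_right h1 (D := Multiplicative.toAdd D) (congrArg Multiplicative.toAdd hD2)
  choose φ hφ using hex
  have huniq : ∀ (z z' : ↥(Z1 ((famS S).res U) (rep (muQ p) U))) (x : KS S),
      KRel hpS (z : U → ZMod p) x → KRel hpS (z' : U → ZMod p) x → z = z' := by
    intro z z' x h h'
    have h1 := (h.sub h').eq_zero hUp (y' := 0) (FKU S U).zero_mem (by rw [smul_zero, sub_self])
    exact Subtype.ext (sub_eq_zero.mp h1)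
  have hone : ∀ x : K, (x : Multiplicative (KS S)) = 1 → φ x = 0 := by
    intro x hx
    have h1 := hφ x
    rw [hx] at h1
    exact Subtype.ext (h1.eq_zero hUp (y' := 0) (FKU S U).zero_mem (smul_zero _))
  let Φ : K →* Multiplicative (H1 ((famS S).res U) (rep (muQ p) U)) :=
    { toFun := fun x => Multiplicative.ofAdd (H1.mk ((famS S).res U) (rep (muQ p) U) (φ x))
      map_one' := by
        rw [hone 1 rfl, map_zero]
        rfl
      map_mul' := fun x x' => by
        have h1 : φ (x * x') = φ x + φ x' := by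
          apply huniq _ _ (Multiplicative.toAdd ((x * x' : K) : Multiplicative (KS S))) (hφ _)
          exact (hφ x).add (hφ x')
        rw [h1, map_add]
        rfl }
  have hsurj : Function.Surjective Φ := by
    intro y
    obtain ⟨z, hz⟩ := H1.mk_surjective (Multiplicative.toAdd y)
    obtain ⟨x, hx1, ⟨D, hD1, hD2⟩, hx3⟩ := KRel.exists_left (hpS := hpS) hU hUp z
    refine ⟨⟨Multiplicative.ofAdd x, hx1, Multiplicative.ofAdd D, hD1,
      congrArg Multiplicative.ofAdd hD2⟩, ?_⟩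
    have h1 := huniq _ _ _ (hφ ⟨Multiplicative.ofAdd x, hx1, Multiplicative.ofAdd D, hD1,
      congrArg Multiplicative.ofAdd hD2⟩) hx3
    change Multiplicative.ofAdd (H1.mk ((famS S).res U) (rep (muQ p) U) (φ _)) = y
    rw [h1, hz]
    rfl
  have hker : (E.map (pw (Multiplicative (KS S)) p)).subgroupOf K = Φ.ker := by
    ext x
    rw [Subgroup.mem_subgroupOf, MonoidHom.mem_ker]
    constructor
    · rintro ⟨y, hy, hyx⟩
      have h1 := (hφ x).eq_zero hUp (y' := Multiplicative.toAdd y) hy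
        (congrArg Multiplicative.toAdd hyx)
      exact congrArg Multiplicative.ofAdd ((hmk0 _).mpr h1)
    · intro h
      have h1 : (φ x : U → ZMod p) = 0 := (hmk0 _).mp (congrArg Multiplicative.toAdd h)
      have h2 := hφ x
      rw [h1] at h2
      obtain ⟨y, hy1, hy2⟩ := h2.of_zero
      exact ⟨Multiplicative.ofAdd y, hy1, congrArg Multiplicative.ofAdd hy2⟩
  rw [Subgroup.relIndex, hker, Subgroup.index_ker, MonoidHom.range_eq_top.mpr hsurj,
    Subgroup.card_top]
  rfl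

end H1

end Fermat.Agent.GlobalCFT
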