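import Fermat.Agent.GlobalCFT.Reduce
import Fermat.Agent.GCFT.DivSurj

/-!
# The index formula of Kummer theory
-/

set_option autoImplicit false
set_option linter.style.haveILetI false

namespace Fermat.Agent.GlobalCFT

open Fermat.Agent.Coh Fermat.Agent.GCFT NumberField IsDedekindDomain

/-- The field of algebraic numbers. -/
local notation "Qb" => AlgebraicClosure ℚ
/-- The absolute Galois group. -/
local notation "GQ" => (AlgebraicClosure ℚ ≃ₐ[ℚ] AlgebraicClosure ℚ)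

section abs

open Subgroup

/-- The abstract index formula. -/
theorem kummer_index {A C : Type*} [CommGroup A] [CommGroup C] (d : A →* C) {p : ℕ}
    (E : Subgroup A) (D : Subgroup C) (htf : ∀ c ∈ D, c ^ p = 1 → c = 1)
    (hED : E.map d ≤ D) (hfin : (E.map d).relIndex D ≠ 0) :
    (E.map (pw A p)).relIndex (E ⊓ (D.map (pw C p)).comap d) =
      ((E ⊓ d.ker).map (pw A p)).relIndex (E ⊓ d.ker) *
        (D.map (pw C p) ⊔ E.map d).relIndex D := by
  set K := E ⊓ (D.map (pw C p)).comap d with hK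
  set B := E.map (pw A p) with hB
  set D₀ := E.map d with hD₀
  have hBK : B ≤ K := by
    rintro _ ⟨x, hx, rfl⟩
    refine ⟨E.pow_mem hx p, d x, hED ⟨x, hx, rfl⟩, ?_⟩
    exact (map_pow d x p).symm
  have h1 := relIndex_eq_map_mul d hBK
  have h2 : K ⊓ d.ker = E ⊓ d.ker := by
    ext x
    constructor
    · rintro ⟨⟨hx1, -⟩, hx2⟩
      exact ⟨hx1, hx2⟩
    · rintro ⟨hx1, hx2⟩
      refine ⟨⟨hx1, ?_⟩, hx2⟩
      have : d x = 1 := hx2
      change d x ∈ D.map (pw C p)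
      rw [this]
      exact one_mem _
  have h3 : B ⊓ (E ⊓ d.ker) = (E ⊓ d.ker).map (pw A p) := by
    ext y
    constructor
    · rintro ⟨⟨x, hx, rfl⟩, -, hy⟩
      refine ⟨x, ⟨hx, ?_⟩, rfl⟩
      have h4 : d x ^ p = 1 := by
        rw [← map_pow]
        exact hy
      exact htf _ (hED ⟨x, hx, rfl⟩) h4
    · rintro ⟨x, ⟨hx1, hx2⟩, rfl⟩
      have hx2' : d x = 1 := hx2
      refine ⟨⟨x, hx1, rfl⟩, E.pow_mem hx1 p, ?_⟩
      change d (x ^ p) = 1
      rw [map_pow, hx2', one_pow]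
  have h4 : B.map d = D₀.map (pw C p) := by
    rw [hB, hD₀, Subgroup.map_map, Subgroup.map_map]
    exact map_congr' fun x _ => map_pow d x p
  have h5 : K.map d = D₀ ⊓ D.map (pw C p) := by
    ext y
    constructor
    · rintro ⟨x, ⟨hx1, hx2⟩, rfl⟩
      exact ⟨⟨x, hx1, rfl⟩, hx2⟩
    · rintro ⟨⟨x, hx1, rfl⟩, hx2⟩
      exact ⟨x, ⟨hx1, hx2⟩, rfl⟩
  have h6 : D₀ ⊓ D.map (pw C p) = (D ⊓ D₀.comap (pw C p)).map (pw C p) := by
    ext y
    constructor
    · rintro ⟨hy, x, hx, rfl⟩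
      exact ⟨x, ⟨hx, hy⟩, rfl⟩
    · rintro ⟨x, ⟨hx1, hx2⟩, rfl⟩
      exact ⟨hx2, x, hx1, rfl⟩
  have hle : D₀ ≤ D ⊓ D₀.comap (pw C p) := le_inf hED fun x hx => D₀.pow_mem hx p
  have h7 : (D₀.map (pw C p)).relIndex (D₀ ⊓ D.map (pw C p)) =
      D₀.relIndex (D ⊓ D₀.comap (pw C p)) := by
    rw [h6]
    refine (relIndex_of_inf_le (pw C p) hle ?_).symm
    rintro x ⟨⟨hx1, -⟩, hx2⟩
    rw [htf x hx1 hx2]
    exact one_mem _
  have e1 := relIndex_mul_relIndex _ _ _ hle inf_le_left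
  have e2 := relIndex_mul_relIndex D₀ (D.map (pw C p) ⊔ D₀) D le_sup_right
    (sup_le (pw_map_le p D) hED)
  have e3 : (D ⊓ D₀.comap (pw C p)).relIndex D = D₀.relIndex (D.map (pw C p)) := by
    rw [inf_relIndex_left, relIndex_comap]
  have e4 : D₀.relIndex (D.map (pw C p) ⊔ D₀) = D₀.relIndex (D.map (pw C p)) := by
    rw [relIndex_sup_right]
  rw [e3] at e1
  rw [e4] at e2
  have hm : D₀.relIndex (D.map (pw C p)) ≠ 0 := by
    intro h
    rw [h, mul_zero] at e1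
    exact hfin e1.symm
  have h8 : D₀.relIndex (D ⊓ D₀.comap (pw C p)) = (D.map (pw C p) ⊔ D₀).relIndex D := by
    apply Nat.eq_of_mul_eq_mul_left (Nat.pos_of_ne_zero hm)
    rw [e2, mul_comm, e1]
  rw [h1, h2, h4, h5, h7, h8, ← inf_relIndex_right B, h3, mul_comm]

end abs

variable {S : Finset Nat.Primes} {U : Subgroup GQ}

/-- the divisor part of an idele -/
noncomputable def sn (S : Finset Nat.Primes) : IS S →+ IS S where
  toFun a := ⟨(0, (a : AA).2), fun _ _ => zero_mem _, fun _ _ => rfl, a.2.2.2.1, a.2.2.2.2.1,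
    a.2.2.2.2.2.1, by
      obtain ⟨V, hV, h⟩ := a.2.2.2.2.2.2
      exact ⟨V, hV, fun u hu l x => ⟨rfl, (h u hu l x).2⟩⟩⟩
  map_zero' := rfl
  map_add' a b := by
    apply Subtype.ext
    apply Prod.ext
    · exact (add_zero _).symm
    · rfl

@[simp] lemma sn_fst (a : IS S) : ((sn S a : IS S) : AA).1 = 0 := rfl

@[simp] lemma sn_snd (a : IS S) : ((sn S a : IS S) : AA).2 = (a : AA).2 := rfl

lemma sn_comm (g : GQ) (a : IS S) : sn S (repI S g a) = repI S g (sn S a) := by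
  apply Subtype.ext
  apply Prod.ext
  · rfl
  · rfl

/-- the divisor of an element of `KS`, as an idele -/
noncomputable def dk (S : Finset Nat.Primes) : KS S →+ IS S :=
  (sn S).comp (iKS S).toAddMonoidHom

lemma dk_comm (g : GQ) (x : KS S) : dk S (repK S g x) = repI S g (dk S x) := by
  change sn S (iKS S (repK S g x)) = repI S g (sn S (iKS S x))
  rw [iKS_comm, sn_comm]

lemma dk_fst (x : KS S) : ((dk S x : IS S) : AA).1 = 0 := rfl

lemma dk_snd (x : KS S) {l : Nat.Primes} (hl : l ∉ S) (g : GQ) :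
    ((dk S x : IS S) : AA).2 l g = divl l (x : Additive Qbˣ) g := diagFun_snd_not hl _ _

/-- the invariant divisors -/
def DVU (S : Finset Nat.Primes) (U : Subgroup GQ) : AddSubgroup (IS S) where
  carrier := {a | (a : AA).1 = 0 ∧ ∀ u ∈ U, repI S u a = a}
  zero_mem' := ⟨rfl, fun u _ => map_zero _⟩
  add_mem' {a b} ha hb := ⟨by
      change (a : AA).1 + (b : AA).1 = 0
      rw [ha.1, hb.1, add_zero], fun u hu => by rw [map_add, ha.2 u hu, hb.2 u hu]⟩
  neg_mem' {a} ha := ⟨by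
      change -(a : AA).1 = 0
      rw [ha.1, neg_zero], fun u hu => by rw [map_neg, ha.2 u hu]⟩

lemma mem_DVU {a : IS S} : a ∈ DVU S U ↔ (a : AA).1 = 0 ∧ ∀ u ∈ U, repI S u a = a := Iff.rfl

/-- the multiplicative group of the fixed field -/
def FKU (S : Finset Nat.Primes) (U : Subgroup GQ) : AddSubgroup (KS S) where
  carrier := {x | ∀ u ∈ U, repK S u x = x}
  zero_mem' u _ := map_zero _
  add_mem' {a b} ha hb u hu := by rw [map_add, ha u hu, hb u hu]
  neg_mem' {a} ha u hu := by rw [map_neg, ha u hu]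

lemma mem_FKU {x : KS S} : x ∈ FKU S U ↔ ∀ u ∈ U, repK S u x = x := Iff.rfl

lemma dk_mem_DVU {x : KS S} (hx : x ∈ FKU S U) : dk S x ∈ DVU S U :=
  ⟨rfl, fun u hu => by rw [← dk_comm, hx u hu]⟩

lemma DVU_torsionFree {p : ℕ} (hp : p ≠ 0) {a : IS S} (ha : (a : AA).1 = 0) (h : p • a = 0) :
    a = 0 := by
  apply Subtype.ext
  apply Prod.ext
  · exact ha
  · funext l g
    have h1 := congrArg (fun b : IS S => (b : AA).2 l g) h
    have h2 : ∀ n : ℕ, ((n • a : IS S) : AA).2 l g = n * (a : AA).2 l g := by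
      intro n
      change (n • (a : AA)).2 l g = _
      rw [Prod.smul_snd, Pi.smul_apply, Pi.smul_apply, nsmul_eq_mul]
    have h3 : ((p • a : IS S) : AA).2 l g = 0 := h1
    rw [h2] at h3
    have h4 : (p : ℤ) ≠ 0 := by exact_mod_cast hp
    exact (mul_eq_zero.mp h3).resolve_left h4

/-- an invariant divisor as an invariant idele -/
lemma DVU_mem_FF {a : IS S} (ha : a ∈ DVU S U) : a ∈ FF (repI S) U :=
  (mem_FF (repI S)).mpr ha.2

lemma toKS_mem_FKU (hU : (famS S).IsOpen U) {x : Qb} (hx : x ∈ fld U) (hx0 : x ≠ 0) :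
    GCFT.toKS hU hx hx0 ∈ FKU S U := by
  intro u hu
  apply Subtype.ext
  apply Additive.toMul.injective
  apply Units.ext
  exact mem_fld.mp hx u hu

/-- divisors with equal ideal class differ by a principal divisor -/
theorem exists_of_class (hU : (famS S).IsOpen U) [NumberField (fld U)] {a b : IS S}
    (ha : (a : AA).1 = 0) (hb : (b : AA).1 = 0) {A₁ A₂ B₁ B₂ : Ideal (𝓞 (fld U))} (hA₁ : A₁ ≠ 0)
    (hA₂ : A₂ ≠ 0) (hB₁ : B₁ ≠ 0) (hB₂ : B₂ ≠ 0)
    (hA : ∀ l, l ∉ S → ∀ g, mulI U A₁ l g - mulI U A₂ l g = (a : AA).2 l g)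
    (hB : ∀ l, l ∉ S → ∀ g, mulI U B₁ l g - mulI U B₂ l g = (b : AA).2 l g)
    {x y : 𝓞 (fld U)} (hx : x ≠ 0) (hy : y ≠ 0)
    (hxy : Ideal.span {x} * (A₂ * B₁) = Ideal.span {y} * (A₁ * B₂)) :
    ∃ z ∈ FKU S U, dk S z = -a + b := by
  have ex : ((x : 𝓞 (fld U)) : fld U) ≠ 0 := by rwa [Ne, RingOfIntegers.coe_eq_zero_iff]
  have ey : ((y : 𝓞 (fld U)) : fld U) ≠ 0 := by rwa [Ne, RingOfIntegers.coe_eq_zero_iff]
  have ex' : (((x : 𝓞 (fld U)) : fld U) : Qb) ≠ 0 := fun h => ex (Subtype.ext h)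
  have ey' : (((y : 𝓞 (fld U)) : fld U) : Qb) ≠ 0 := fun h => ey (Subtype.ext h)
  have hspan : ∀ a : 𝓞 (fld U), a ≠ 0 → (Ideal.span {a} : Ideal (𝓞 (fld U))) ≠ 0 := by
    intro a ha h
    exact ha (Ideal.span_singleton_eq_bot.mp h)
  have c1 : ∀ l (hl : l ∉ S) g, divl l
      (GCFT.toKS hU ((x : 𝓞 (fld U)) : fld U).2 ex' : Additive Qbˣ) g =
      mulI U (Ideal.span {x}) l g := by
    intro l hl g
    rw [← cD_kI_int hU x hx ex hl g]
    change divl l _ g = (diagFun S _).2 l g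
    rw [diagFun_snd_not hl]
  have c2 : ∀ l (hl : l ∉ S) g, divl l
      (GCFT.toKS hU ((y : 𝓞 (fld U)) : fld U).2 ey' : Additive Qbˣ) g =
      mulI U (Ideal.span {y}) l g := by
    intro l hl g
    rw [← cD_kI_int hU y hy ey hl g]
    change divl l _ g = (diagFun S _).2 l g
    rw [diagFun_snd_not hl]
  refine ⟨GCFT.toKS hU ((y : 𝓞 (fld U)) : fld U).2 ey' -
    GCFT.toKS hU ((x : 𝓞 (fld U)) : fld U).2 ex',
    (FKU S U).sub_mem (toKS_mem_FKU hU _ _) (toKS_mem_FKU hU _ _), ?_⟩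
  generalize GCFT.toKS hU ((x : 𝓞 (fld U)) : fld U).2 ex' = X at *
  generalize GCFT.toKS hU ((y : 𝓞 (fld U)) : fld U).2 ey' = Y at *
  rw [map_sub]
  apply Subtype.ext
  apply Prod.ext
  · change ((dk S Y : IS S) : AA).1 - ((dk S X : IS S) : AA).1 = -(a : AA).1 + (b : AA).1
    rw [ha, hb, dk_fst, dk_fst]
    simp
  · funext l g
    by_cases hl : l ∈ S
    · have h0 : ∀ c : IS S, (c : AA).2 l g = 0 := fun c => by
        have := c.2.2.2.2.1 l hl
        rw [this]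
        rfl
      rw [h0, h0]
    · change ((dk S Y : IS S) : AA).2 l g - ((dk S X : IS S) : AA).2 l g =
        -(a : AA).2 l g + (b : AA).2 l g
      rw [← hA l hl g, ← hB l hl g, dk_snd _ hl, dk_snd _ hl, c1 l hl, c2 l hl]
      have c3 := congrArg (fun I : Ideal (𝓞 (fld U)) => mulI U I l g) hxy
      change mulI U (Ideal.span {x} * (A₂ * B₁)) l g = mulI U (Ideal.span {y} * (A₁ * B₂)) l g at c3
      rw [mulI_mul U (hspan x hx) (mul_ne_zero hA₂ hB₁), mulI_mul U hA₂ hB₁,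
        mulI_mul U (hspan y hy) (mul_ne_zero hA₁ hB₂), mulI_mul U hA₁ hB₂] at c3
      linarith

/-- **Finiteness of the class group of `S`-integers.** -/
theorem finite_cl (hU : (famS S).IsOpen U) :
    ((AddSubgroup.toSubgroup (FKU S U)).map (AddMonoidHom.toMultiplicative (dk S))).relIndex
      (AddSubgroup.toSubgroup (DVU S U)) ≠ 0 := by
  classical
  haveI := numberField_fld (isOpen_of_famS hU)
  have hex : ∀ a : DVU S U, ∃ J₁ J₂ : Ideal (𝓞 (fld U)),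
      J₁ ≠ 0 ∧ J₂ ≠ 0 ∧ ∀ l, l ∉ S → ∀ g,
        mulI U J₁ l g - mulI U J₂ l g = ((a : IS S) : AA).2 l g := by
    intro a
    exact exists_ideals hU ⟨_, DVU_mem_FF a.2⟩
  choose J₁ J₂ hJ₁ hJ₂ hJ using hex
  have hz : ∀ J : Ideal (𝓞 (fld U)), J ≠ 0 → J ∈ nonZeroDivisors (Ideal (𝓞 (fld U))) := fun J hJ =>
    mem_nonZeroDivisors_of_ne_zero hJ
  let ψ : DVU S U → ClassGroup (𝓞 (fld U)) := fun a =>
    ClassGroup.mk0 ⟨J₁ a, hz _ (hJ₁ a)⟩ / ClassGroup.mk0 ⟨J₂ a, hz _ (hJ₂ a)⟩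
  have key : ∀ a b : DVU S U, ψ a = ψ b → ∃ z ∈ FKU S U, dk S z = -(a : IS S) + b := by
    intro a b hab
    have h1 : ClassGroup.mk0 (⟨J₂ a, hz _ (hJ₂ a)⟩ * ⟨J₁ b, hz _ (hJ₁ b)⟩) =
        ClassGroup.mk0 (⟨J₁ a, hz _ (hJ₁ a)⟩ * ⟨J₂ b, hz _ (hJ₂ b)⟩) := by
      rw [map_mul, map_mul]
      have h2 := div_eq_div_iff_mul_eq_mul.mp hab
      rw [h2, mul_comm]
    obtain ⟨x, y, hx, hy, hxy⟩ := ClassGroup.mk0_eq_mk0_iff.mp h1
    exact exists_of_class hU a.2.1 b.2.1 (hJ₁ a) (hJ₂ a) (hJ₁ b) (hJ₂ b) (hJ a) (hJ b) hx hy hxy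
  set N := ((AddSubgroup.toSubgroup (FKU S U)).map (AddMonoidHom.toMultiplicative (dk S))).subgroupOf
    (AddSubgroup.toSubgroup (DVU S U)) with hN
  have hfinite : Finite (AddSubgroup.toSubgroup (DVU S U) ⧸ N) := by
    refine Finite.of_injective (fun c : AddSubgroup.toSubgroup (DVU S U) ⧸ N =>
      ψ ⟨Multiplicative.toAdd (c.out : Multiplicative (IS S)), c.out.2⟩) ?_
    intro c c' h
    obtain ⟨z, hz1, hz2⟩ := key _ _ h
    rw [← QuotientGroup.out_eq' c, ← QuotientGroup.out_eq' c', QuotientGroup.eq]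
    exact Subgroup.mem_subgroupOf.mpr ⟨Multiplicative.ofAdd z, hz1, congrArg Multiplicative.ofAdd hz2⟩
  change N.index ≠ 0
  exact Subgroup.index_ne_zero_of_finite

end Fermat.Agent.GlobalCFT
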