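import Fermat.Agent.GlobalCFT.KumIdx
import Fermat.Agent.GlobalCFT.Semi

/-!
# Roots of unity in `KS` and the index of `p`-th powers in the group of `S`-units
-/

set_option autoImplicit false
set_option linter.style.haveILetI false

namespace Fermat.Agent.GlobalCFT

open Fermat.Agent.Coh Fermat.Agent.GCFT NumberField IsDedekindDomain Fermat.Agent.PT
  Fermat.Agent.GalD Fermat.Agent.LocalCFT ExtCitation

/-- The field of algebraic numbers. -/
local notation "Qb" => AlgebraicClosure ℚ
/-- The absolute Galois group. -/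
local notation "GQ" => (AlgebraicClosure ℚ ≃ₐ[ℚ] AlgebraicClosure ℚ)

variable {p : ℕ} [hp : Fact p.Prime] {S : Finset Nat.Primes} (hpS : pPrime p ∈ S)

/-- the root of unity in `KS` -/
noncomputable def zS : KS S :=
  ⟨Additive.ofMul (Units.mk0 (zt p) (zt_ne_zero p)), (cycloChar p).ker, cycloChar_open hpS,
    fun u hu => by
      apply Additive.toMul.injective
      apply Units.ext
      exact (mem_ker_cycloChar p).mp hu⟩

lemma nsmul_zS : p • zS hpS = 0 := by
  apply Subtype.ext
  apply Additive.toMul.injective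
  apply Units.ext
  change (zt p : Qb) ^ p = 1
  exact (zt_spec p).pow_eq_one

/-- the inclusion of `μ_p` in `KS` -/
noncomputable def jG : ZMod p →+ KS S :=
  ZMod.lift p ⟨zmultiplesHom _ (zS hpS), by
    rw [zmultiplesHom_apply, natCast_zsmul]
    exact nsmul_zS hpS⟩

lemma jG_natCast (n : ℕ) : jG hpS (n : ZMod p) = n • zS hpS := by
  have h1 : ((n : ℤ) : ZMod p) = (n : ZMod p) := Int.cast_natCast n
  rw [jG, ← h1, ZMod.lift_coe]
  change zmultiplesHom _ (zS hpS) (n : ℤ) = _
  rw [zmultiplesHom_apply, natCast_zsmul]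

lemma val_jG (a : ZMod p) :
    (((jG hpS a : KS S) : Additive Qbˣ).toMul : Qb) = zt p ^ a.val := by
  have : NeZero p := ⟨hp.out.ne_zero⟩
  conv_lhs => rw [← ZMod.natCast_zmod_val a]
  rw [jG_natCast]
  rfl

lemma jG_injective : Function.Injective (jG hpS) := by
  have : NeZero p := ⟨hp.out.ne_zero⟩
  intro a b h
  have h1 := congrArg (fun y : KS S => ((y : Additive Qbˣ).toMul : Qb)) h
  simp only [val_jG] at h1
  exact ZMod.val_injective p ((zt_spec p).pow_inj (ZMod.val_lt a) (ZMod.val_lt b) h1)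

lemma nsmul_jG (b : ZMod p) : p • jG hpS b = 0 := by
  rw [← map_nsmul, nsmul_eq_mul, ZMod.natCast_self, zero_mul, map_zero]

lemma exists_jG (y : KS S) (hy : p • y = 0) : ∃ a, jG hpS a = y := by
  have : NeZero p := ⟨hp.out.ne_zero⟩
  have h1 := congrArg (fun y : KS S => ((y : Additive Qbˣ).toMul : Qb)) hy
  have h2 : (((y : Additive Qbˣ).toMul : Qbˣ) : Qb) ^ p = 1 := h1
  obtain ⟨i, _, hi⟩ := (zt_spec p).eq_pow_of_pow_eq_one h2
  refine ⟨(i : ZMod p), ?_⟩
  rw [jG_natCast]
  apply Subtype.ext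
  apply Additive.toMul.injective
  apply Units.ext
  exact hi

lemma jG_comm (g : GQ) (a : ZMod p) : jG hpS (muQ p g a) = repK S g (jG hpS a) := by
  have : NeZero p := ⟨hp.out.ne_zero⟩
  have h0 : muQ p g a = (cycloChar p g : ZMod p) * a := rfl
  rw [h0]
  set c := (cycloChar p g : ZMod p) with hc
  have h1 : c * a = c.val • a := by rw [nsmul_eq_mul, ZMod.natCast_zmod_val]
  rw [h1, map_nsmul]
  apply Subtype.ext
  apply Additive.toMul.injective
  apply Units.ext
  change (((jG hpS a : KS S) : Additive Qbˣ).toMul : Qb) ^ c.val =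
    g (((jG hpS a : KS S) : Additive Qbˣ).toMul : Qb)
  rw [val_jG, map_pow, cycloChar_spec, ← pow_mul, ← pow_mul, mul_comm]

lemma dk_jG (a : ZMod p) : dk S (jG hpS a) = 0 := by
  apply DVU_torsionFree hp.out.ne_zero (dk_fst _)
  rw [← map_nsmul, nsmul_jG, map_zero]

lemma iKS_jG_snd (a : ZMod p) : ((iKS S (jG hpS a) : IS S) : AA).2 = 0 := by
  have := congrArg (fun b : IS S => (b : AA).2) (dk_jG hpS a)
  exact this

lemma iKS_jG_fst (a : ZMod p) {l : Nat.Primes} (hl : l ∈ S) (x : GQ) :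
    ((iKS S (jG hpS a) : IS S) : AA).1 l x = jl p l (muQ p x a) := by
  apply uval_injective
  rw [uval_jl]
  have h1 : ((iKS S (jG hpS a) : IS S) : AA).1 l x = _ := diagFun_fst hl _ x
  rw [h1]
  change il l (x (((jG hpS a : KS S) : Additive Qbˣ).toMul : Qb)) = _
  have h2 := congrArg (fun y : KS S => ((y : Additive Qbˣ).toMul : Qb)) (jG_comm hpS x a)
  change (((jG hpS (muQ p x a) : KS S) : Additive Qbˣ).toMul : Qb) =
    x (((jG hpS a : KS S) : Additive Qbˣ).toMul : Qb) at h2
  rw [← h2, val_jG, map_pow]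

variable {U : Subgroup GQ}

/-- The `S`-units in `KS`. -/
theorem map_ET_toKS (hS : S.Nonempty) (hU : (famS S).IsOpen U) [NumberField (FFd U)] :
    (ET (TW S U (isOpen_of_famS hU))).map (toKS hU) =
      AddSubgroup.toSubgroup (FKU S U) ⊓ (AddMonoidHom.toMultiplicative (dk S)).ker := by
  have hinj : Function.Injective (AddMonoidHom.toMultiplicative
      (((IS S).subtype.comp (iKS S)).toAddMonoidHom)) := by
    intro x y h
    exact iKS_injective hS (Subtype.ext (congrArg Multiplicative.toAdd h))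
  apply Subgroup.map_injective hinj
  rw [Subgroup.map_map]
  change (ET (TW S U (isOpen_of_famS hU))).map (jW hU) = _
  rw [map_ET (Finset.Subset.refl S) hU]
  ext a
  constructor
  · rintro ⟨⟨x, hx, hxa⟩, ha⟩
    refine ⟨Multiplicative.ofAdd x, ⟨hx, ?_⟩, congrArg Multiplicative.ofAdd hxa⟩
    change Multiplicative.ofAdd (dk S x) = 1
    have h0 : dk S x = 0 := by
      apply Subtype.ext
      apply Prod.ext
      · rfl
      · funext l
        by_cases hl : l ∈ S
        · exact (dk S x).2.2.2.2.1 l hl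
        · have h1 := ha l hl
          have h2 := congrArg (fun b : AA => b.2 l) hxa
          change ((iKS S x : IS S) : AA).2 l = (Multiplicative.toAdd a).2 l at h2
          change ((iKS S x : IS S) : AA).2 l = 0
          rw [h2]
          exact h1
    rw [h0]
    rfl
  · rintro ⟨x, ⟨hx, hx2⟩, rfl⟩
    refine ⟨⟨Multiplicative.toAdd x, hx, rfl⟩, fun l hl => ?_⟩
    have h1 : dk S (Multiplicative.toAdd x) = 0 := congrArg Multiplicative.toAdd hx2
    exact congrArg (fun b : IS S => (b : AA).2 l) h1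

/-- the unit rank -/
theorem two_rank (hp2 : p ≠ 2) (hU : (famS S).IsOpen U) [NumberField (FFd U)]
    (hUp : ∀ u ∈ U, cycloChar p u = 1) : 2 * (Units.rank (FFd U) + 1) = U.index := by
  have hUo := isOpen_of_famS hU
  have hz : zt p ∈ FFd U := mem_FFd.mpr fun u hu =>
    (mem_ker_cycloChar p).mp (MonoidHom.mem_ker.mpr (hUp u hu))
  have hz' : IsPrimitiveRoot (⟨zt p, hz⟩ : FFd U) p :=
    IsPrimitiveRoot.of_map_of_injective (f := algebraMap (FFd U) Qb) (zt_spec p)
      (algebraMap (FFd U) Qb).injective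
  have h2p : 2 < p := lt_of_le_of_ne hp.out.two_le (Ne.symm hp2)
  have h1 := InfinitePlace.IsPrimitiveRoot.nrRealPlaces_eq_zero_of_two_lt (K := FFd U) h2p hz'
  have h2 := InfinitePlace.card_add_two_mul_card_eq_rank (FFd U)
  have h3 := InfinitePlace.card_eq_nrRealPlaces_add_nrComplexPlaces (FFd U)
  have h4 := IntermediateField.finrank_eq_fixingSubgroup_index (F := ℚ) (E' := Qb) (FFd U)
  rw [fixingSubgroup_FFd hUo] at h4
  have h5 : 0 < Module.finrank ℚ (FFd U) := Module.finrank_pos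
  rw [Units.rank]
  omega

include hpS in
/-- **The index of `p`-th powers in the `S`-units.** -/
theorem index_units (hp2 : p ≠ 2) (hU : (famS S).IsOpen U)
    (hUp : ∀ u ∈ U, cycloChar p u = 1) :
    (((AddSubgroup.toSubgroup (FKU S U) ⊓ (AddMonoidHom.toMultiplicative (dk S)).ker).map
      (pw (Multiplicative (KS S)) p)).relIndex
      (AddSubgroup.toSubgroup (FKU S U) ⊓ (AddMonoidHom.toMultiplicative (dk S)).ker)) ^ 2 =
      p ^ (U.index + 2 * ∑ l ∈ S, Nat.card (Pl (rl l) U)) := by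
  haveI := numberField_FFd (isOpen_of_famS hU)
  have hS : S.Nonempty := ⟨_, hpS⟩
  obtain ⟨h1, h2⟩ := Q_ET (TW S U (isOpen_of_famS hU)) hp.out.ne_zero
  obtain ⟨h3, h4⟩ := Q_injective' (ψ := pw (Multiplicative (KS S)) p) (toKS hU)
    (fun x => map_pow _ _ _) (by
      intro x y hxy
      have h3 := congrArg (fun z : Multiplicative (KS S) =>
        ((((Multiplicative.toAdd z : KS S) : Additive Qbˣ).toMul : Qbˣ) : Qb)) hxy
      exact Units.ext (Subtype.ext h3)) h1
  rw [map_ET_toKS hS hU] at h3 h4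
  rw [h2, card_TW] at h4
  set E₀ := AddSubgroup.toSubgroup (FKU S U) ⊓ (AddMonoidHom.toMultiplicative (dk S)).ker with hE₀
  have hcard : Nat.card ↥(E₀ ⊓ (pw (Multiplicative (KS S)) p).ker) = p := by
    have e : ZMod p ≃ ↥(E₀ ⊓ (pw (Multiplicative (KS S)) p).ker) := by
      refine Equiv.ofBijective (fun a => ⟨Multiplicative.ofAdd (jG hpS a), ⟨⟨?_, ?_⟩, ?_⟩⟩) ⟨?_, ?_⟩
      · change ∀ u ∈ U, repK S u (jG hpS a) = jG hpS a
        intro u hu
        rw [← jG_comm]
        have h0 : muQ p u a = (cycloChar p u : ZMod p) * a := rfl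
        rw [h0, hUp u hu, Units.val_one, one_mul]
      · exact congrArg Multiplicative.ofAdd (dk_jG hpS a)
      · exact congrArg Multiplicative.ofAdd (nsmul_jG hpS a)
      · intro a b h
        exact jG_injective hpS (congrArg (fun y : ↥(E₀ ⊓ (pw (Multiplicative (KS S)) p).ker) =>
          Multiplicative.toAdd (y : Multiplicative (KS S))) h)
      · rintro ⟨y, ⟨⟨hy1, hy2⟩, hy3⟩⟩
        obtain ⟨a, ha⟩ := exists_jG hpS (Multiplicative.toAdd y)
          (congrArg Multiplicative.toAdd hy3)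
        exact ⟨a, Subtype.ext (congrArg Multiplicative.ofAdd ha)⟩
    rw [← Nat.card_congr e, Nat.card_zmod]
  have hpQ : (p : ℚ) ≠ 0 := by exact_mod_cast hp.out.ne_zero
  rw [Q, hcard, eq_div_iff hpQ] at h4
  have h5 : ((E₀.map (pw (Multiplicative (KS S)) p)).relIndex E₀) =
      p ^ (Units.rank (FFd U) + 1 + ∑ l ∈ S, Nat.card (Pl (rl l) U)) := by
    have : (((E₀.map (pw (Multiplicative (KS S)) p)).relIndex E₀ : ℕ) : ℚ) =
        ((p ^ (Units.rank (FFd U) + 1 + ∑ l ∈ S, Nat.card (Pl (rl l) U)) : ℕ) : ℚ) := by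
      rw [← h4]
      push_cast
      ring
    exact_mod_cast this
  rw [h5, ← pow_mul]
  congr 1
  have := two_rank (S := S) hp2 hU hUp
  omega

end Fermat.Agent.GlobalCFT
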