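import Fermat.Agent.GlobalCFT.Semilocal
import Fermat.Agent.LocalCFT.NormIndex

/-!
# Local input: norm index and Hilbert 90 inside `PadicAlgCl l`
-/

set_option autoImplicit false

namespace Fermat.Agent.GlobalCFT

open IntermediateField

variable {l : ℕ} [hl : Fact l.Prime]

/-- The units of a subfield of `PadicAlgCl l`. -/
def Lu (L : IntermediateField ℚ_[l] (PadicAlgCl l)) : Subgroup (PadicAlgCl l)ˣ where
  carrier := {u | (u : PadicAlgCl l) ∈ L}
  one_mem' := by
    change ((1 : (PadicAlgCl l)ˣ) : PadicAlgCl l) ∈ L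
    rw [Units.val_one]; exact L.one_mem
  mul_mem' {a b} ha hb := by
    change ((a * b : (PadicAlgCl l)ˣ) : PadicAlgCl l) ∈ L
    rw [Units.val_mul]; exact L.mul_mem ha hb
  inv_mem' {a} ha := by
    change ((a⁻¹ : (PadicAlgCl l)ˣ) : PadicAlgCl l) ∈ L
    rw [Units.val_inv_eq_inv_val]; exact L.inv_mem ha

lemma mem_Lu {L : IntermediateField ℚ_[l] (PadicAlgCl l)} {u : (PadicAlgCl l)ˣ} :
    u ∈ Lu L ↔ (u : PadicAlgCl l) ∈ L := Iff.rfl

/-- the action on units -/
noncomputable def actU (δ : PadicAlgCl l ≃ₐ[ℚ_[l]] PadicAlgCl l) :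
    (PadicAlgCl l)ˣ →* (PadicAlgCl l)ˣ := Units.map (δ : PadicAlgCl l →* PadicAlgCl l)

lemma coe_actU (δ : PadicAlgCl l ≃ₐ[ℚ_[l]] PadicAlgCl l) (u : (PadicAlgCl l)ˣ) :
    ((actU δ u : (PadicAlgCl l)ˣ) : PadicAlgCl l) = δ u := rfl

/-- the norm -/
noncomputable def Nd (p : ℕ) (δ : PadicAlgCl l ≃ₐ[ℚ_[l]] PadicAlgCl l) :
    (PadicAlgCl l)ˣ →* (PadicAlgCl l)ˣ := ∏ j ∈ Finset.range p, actU (δ ^ j)

lemma coe_Nd (p : ℕ) (δ : PadicAlgCl l ≃ₐ[ℚ_[l]] PadicAlgCl l) (u : (PadicAlgCl l)ˣ) :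
    ((Nd p δ u : (PadicAlgCl l)ˣ) : PadicAlgCl l) = ∏ j ∈ Finset.range p, (δ ^ j) (u : PadicAlgCl l) := by
  rw [Nd, MonoidHom.finsetProd_apply, Units.coe_prod]
  rfl

variable {K L : IntermediateField ℚ_[l] (PadicAlgCl l)} {p : ℕ}

theorem local_main (hp : p.Prime) (hKL : K ≤ L) [FiniteDimensional ℚ_[l] L]
    (δ : PadicAlgCl l ≃ₐ[ℚ_[l]] PadicAlgCl l) (hδ : ∀ y ∈ L, δ y ∈ L)
    (hfix : ∀ y ∈ L, (δ y = y ↔ y ∈ K)) (hpow : ∀ y ∈ L, (δ ^ p) y = y)
    (hne : ∃ y ∈ L, δ y ≠ y) :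
    ((Lu L).map (Nd p δ)).relIndex (Lu K) = p ∧
      ∀ u ∈ Lu L, Nd p δ u = 1 → ∃ w ∈ Lu L, actU δ w / w = u := by
  letI : Algebra K L := (IntermediateField.inclusion hKL).toAlgebra
  haveI : IsScalarTower ℚ_[l] K L := IsScalarTower.of_algebraMap_eq (fun x => rfl)
  haveI : FiniteDimensional K L := FiniteDimensional.right ℚ_[l] K L
  have halg : ∀ k : K, ((algebraMap K L k : L) : PadicAlgCl l) = k := fun k => rfl
  -- the automorphism
  let τ₀ : L →ₐ[K] L :=
    { toFun := fun y => ⟨δ y, hδ y y.2⟩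
      map_one' := Subtype.ext (map_one δ)
      map_mul' := fun a b => Subtype.ext (map_mul δ _ _)
      map_zero' := Subtype.ext (map_zero δ)
      map_add' := fun a b => Subtype.ext (map_add δ _ _)
      commutes' := fun k => Subtype.ext ((hfix _ (hKL k.2)).mpr k.2) }
  let τ : L ≃ₐ[K] L := AlgEquiv.ofBijective τ₀ (Algebra.IsAlgebraic.algHom_bijective τ₀)
  have hτ : ∀ y : L, ((τ y : L) : PadicAlgCl l) = δ y := fun y => rfl
  have hτpow : ∀ (j : ℕ) (y : L), (((τ ^ j) y : L) : PadicAlgCl l) = (δ ^ j) y := by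
    intro j
    induction j with
    | zero => intro y; rfl
    | succ j ih =>
      intro y
      rw [pow_succ', pow_succ', AlgEquiv.mul_apply, AlgEquiv.mul_apply, hτ, ih]
  have hpf : Fact p.Prime := ⟨hp⟩
  have hord : orderOf τ = p := by
    apply orderOf_eq_prime
    · ext y
      change (((τ ^ p) y : L) : PadicAlgCl l) = y
      rw [hτpow, hpow y y.2]
    · intro h1
      obtain ⟨y, hy, hy2⟩ := hne
      apply hy2
      have := congrArg (fun g : L ≃ₐ[K] L => ((g ⟨y, hy⟩ : L) : PadicAlgCl l)) h1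
      exact this
  have hfixed : fixedField (Subgroup.zpowers τ) = (⊥ : IntermediateField K L) := by
    rw [eq_bot_iff]
    intro y hy
    have h1 : τ y = y := (mem_fixedField_iff _ y).mp hy τ (Subgroup.mem_zpowers τ)
    have h2 : (y : PadicAlgCl l) ∈ K := by
      rw [← hfix y y.2, ← hτ, h1]
    rw [IntermediateField.mem_bot]
    exact ⟨⟨y, h2⟩, Subtype.ext rfl⟩
  haveI : IsGalois K L := by
    apply IsGalois.of_fixedField_eq_bot
    rw [eq_bot_iff, ← hfixed]
    intro y hy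
    rw [mem_fixedField_iff] at hy ⊢
    exact fun g _ => hy g trivial
  have htop : Subgroup.zpowers τ = ⊤ := by
    have h1 := IntermediateField.fixingSubgroup_fixedField (Subgroup.zpowers τ)
    rw [hfixed, IntermediateField.fixingSubgroup_bot] at h1
    exact h1.symm
  have hgen : ∀ g : Gal(L/K), g ∈ Subgroup.zpowers τ := fun g => by rw [htop]; trivial
  have hrank : Module.finrank K L = p := by
    rw [← IsGalois.card_aut_eq_finrank, ← hord, orderOf_eq_card_of_forall_mem_zpowers hgen]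
  haveI : IsCyclic Gal(L/K) := ⟨τ, hgen⟩
  have hnorm : ∀ y : L, ((algebraMap K L (Algebra.norm K y) : L) : PadicAlgCl l) =
      ∏ j ∈ Finset.range p, (δ ^ j) (y : PadicAlgCl l) := by
    intro y
    rw [Algebra.norm_eq_prod_automorphisms, ← LocalCFT.prod_range_eq hgen hord (fun g => g y)]
    have h1 : ((∏ i ∈ Finset.range p, (τ ^ i) y : L) : PadicAlgCl l) =
        ∏ i ∈ Finset.range p, (((τ ^ i) y : L) : PadicAlgCl l) :=
      map_prod (algebraMap L (PadicAlgCl l)) _ _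
    rw [h1]
    exact Finset.prod_congr rfl fun j _ => hτpow j y
  let i : (L : Type)ˣ →* (PadicAlgCl l)ˣ := Units.map (algebraMap L (PadicAlgCl l) : L →* PadicAlgCl l)
  let k : (K : Type)ˣ →* (PadicAlgCl l)ˣ := Units.map (algebraMap K (PadicAlgCl l) : K →* PadicAlgCl l)
  have hk : Function.Injective k := Units.map_injective (algebraMap K (PadicAlgCl l)).injective
  have lift : ∀ (E : IntermediateField ℚ_[l] (PadicAlgCl l)) (u : (PadicAlgCl l)ˣ), u ∈ Lu E →
      ∃ w : (E : Type)ˣ, ((w : E) : PadicAlgCl l) = u := by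
    intro E u hu
    have h0 : (⟨(u : PadicAlgCl l), hu⟩ : E) ≠ 0 := by
      intro h
      exact u.ne_zero (congrArg Subtype.val h)
    exact ⟨Units.mk0 _ h0, rfl⟩
  have hktop : (⊤ : Subgroup (K : Type)ˣ).map k = Lu K := by
    ext u
    constructor
    · rintro ⟨w, -, rfl⟩
      exact (w : K).2
    · intro hu
      obtain ⟨w, hw⟩ := lift K u hu
      exact ⟨w, trivial, Units.ext hw⟩
  have hNk : (Units.map (Algebra.norm K : L →* K)).range.map k = (Lu L).map (Nd p δ) := by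
    ext u
    constructor
    · rintro ⟨_, ⟨w, rfl⟩, rfl⟩
      refine ⟨i w, (w : L).2, ?_⟩
      apply Units.ext
      rw [coe_Nd]
      exact (hnorm (w : L)).symm
    · rintro ⟨w, hw, rfl⟩
      obtain ⟨w', hw'⟩ := lift L w hw
      refine ⟨_, ⟨w', rfl⟩, ?_⟩
      apply Units.ext
      rw [coe_Nd, ← hw']
      exact hnorm (w' : L)
  constructor
  · have h1 := LocalCFT.norm_index (l := l) (K := K) (L := L) hp hrank
    refine Eq.trans ?_ h1
    rw [← hktop, ← hNk, Subgroup.relIndex_map_map_of_injective _ _ hk,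
      Subgroup.relIndex_top_right]
  · intro u hu hNu
    obtain ⟨u', hu'⟩ := lift L u hu
    have h1 : Algebra.norm K (u' : L) = 1 := by
      apply (algebraMap K L).injective
      apply Subtype.ext
      rw [hnorm, map_one, hu', ← coe_Nd, hNu]
      rfl
    obtain ⟨y, hy⟩ := groupCohomology.exists_div_of_norm_eq_one hgen h1
    refine ⟨(i y)⁻¹, (Lu L).inv_mem (y : L).2, ?_⟩
    apply Units.ext
    rw [← hu', ← hy, Units.val_div_eq_div_val, coe_actU, Units.val_inv_eq_inv_val, map_inv₀]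
    change (δ ((y : L) : PadicAlgCl l))⁻¹ / ((y : L) : PadicAlgCl l)⁻¹ =
      (((y : L) / τ (y : L) : L) : PadicAlgCl l)
    have h2 : (((y : L) / τ (y : L) : L) : PadicAlgCl l) =
      ((y : L) : PadicAlgCl l) / δ ((y : L) : PadicAlgCl l) := rfl
    rw [h2]
    have hy0 : ((y : L) : PadicAlgCl l) ≠ 0 := by
      intro h
      exact y.ne_zero (Subtype.ext h)
    have hy1 : δ ((y : L) : PadicAlgCl l) ≠ 0 := (map_ne_zero δ).mpr hy0
    field_simp

end Fermat.Agent.GlobalCFT
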