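import Fermat.Agent.GlobalCFT.Reduce

/-!
# Norm index and Hilbert 90 for the group of `S'`-ideles
-/

set_option autoImplicit false

namespace Fermat.Agent.GlobalCFT

open Fermat.Agent.Coh Fermat.Agent.GCFT NumberField IsDedekindDomain

/-- The field of algebraic numbers. -/
local notation "Qb" => AlgebraicClosure ℚ
/-- The absolute Galois group. -/
local notation "GQ" => (AlgebraicClosure ℚ ≃ₐ[ℚ] AlgebraicClosure ℚ)

variable {S S' : Finset Nat.Primes} {V W U : Subgroup GQ} {σ : GQ} {p : ℕ}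

/-- `σ - 1` on the ambient group -/
noncomputable def dfA (σ : GQ) : AA →+ AA :=
  ((translI σ : AA →ₗ[ℤ] AA) : AA →+ AA) - AddMonoidHom.id AA

/-- the norm on the ambient group -/
noncomputable def nmA (σ : GQ) (p : ℕ) : AA →+ AA :=
  ∑ j ∈ Finset.range p, ((translI (σ ^ j) : AA →ₗ[ℤ] AA) : AA →+ AA)

lemma dfA_apply (σ : GQ) (a : AA) : dfA σ a = translI σ a - a := rfl

lemma nmA_apply (σ : GQ) (p : ℕ) (a : AA) :
    nmA σ p a = ∑ j ∈ Finset.range p, translI (σ ^ j) a := by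
  rw [nmA, AddMonoidHom.finsetSum_apply]
  rfl

lemma nmA_fst (a : AA) (l : Nat.Primes) :
    (nmA σ p a).1 l = nmX GQ (Additive (Om l)ˣ) σ p (a.1 l) := by
  funext g
  rw [nmX_apply, nmA_apply]
  let ev : AA →+ Additive (Om l)ˣ := (Pi.evalAddMonoidHom (fun _ : GQ => Additive (Om l)ˣ) g).comp
        ((Pi.evalAddMonoidHom (fun l : Nat.Primes => GQ → Additive (Om l)ˣ) l).comp
          (AddMonoidHom.fst _ _))
  change ev _ = _
  rw [map_sum]
  rfl

lemma nmA_snd (a : AA) (l : Nat.Primes) : (nmA σ p a).2 l = nmX GQ ℤ σ p (a.2 l) := by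
  funext g
  rw [nmX_apply, nmA_apply]
  let ev : AA →+ ℤ := (Pi.evalAddMonoidHom (fun _ : GQ => ℤ) g).comp
        ((Pi.evalAddMonoidHom (fun _ : Nat.Primes => GQ → ℤ) l).comp (AddMonoidHom.snd _ _))
  change ev _ = _
  rw [map_sum]
  rfl

/-- The index of a subgroup defined by local conditions. -/
theorem relIndex_of_local {A : Type*} [AddCommGroup A] {ι₁ ι₂ : Type*} [Fintype ι₁] [Fintype ι₂]
    {M₁ : ι₁ → Type*} [∀ i, AddCommGroup (M₁ i)] {M₂ : ι₂ → Type*} [∀ i, AddCommGroup (M₂ i)]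
    (N H : AddSubgroup A) (N₁ H₁ : ∀ i, AddSubgroup (M₁ i)) (N₂ H₂ : ∀ i, AddSubgroup (M₂ i))
    (π₁ : ∀ i, A →+ M₁ i) (π₂ : ∀ i, A →+ M₂ i)
    (h1 : ∀ i, ∀ a ∈ H, π₁ i a ∈ H₁ i) (h2 : ∀ i, ∀ a ∈ H, π₂ i a ∈ H₂ i)
    (hs : ∀ (m₁ : ∀ i, M₁ i) (m₂ : ∀ i, M₂ i), (∀ i, m₁ i ∈ H₁ i) → (∀ i, m₂ i ∈ H₂ i) →
      ∃ a ∈ H, (∀ i, π₁ i a = m₁ i) ∧ ∀ i, π₂ i a = m₂ i)
    (hN : ∀ a ∈ H, (a ∈ N ↔ (∀ i, π₁ i a ∈ N₁ i) ∧ ∀ i, π₂ i a ∈ N₂ i)) :
    N.relIndex H = (∏ i, (N₁ i).relIndex (H₁ i)) * ∏ i, (N₂ i).relIndex (H₂ i) := by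
  let Φ : H →+ (∀ i, (H₁ i) ⧸ ((N₁ i).addSubgroupOf (H₁ i))) ×
      (∀ i, (H₂ i) ⧸ ((N₂ i).addSubgroupOf (H₂ i))) :=
    { toFun := fun a => (fun i => QuotientAddGroup.mk ⟨π₁ i a, h1 i a a.2⟩,
        fun i => QuotientAddGroup.mk ⟨π₂ i a, h2 i a a.2⟩)
      map_zero' := by
        apply Prod.ext
        · funext i
          change (QuotientAddGroup.mk (⟨π₁ i 0, _⟩ : H₁ i) :
            (H₁ i) ⧸ ((N₁ i).addSubgroupOf (H₁ i))) = 0
          rw [QuotientAddGroup.eq_zero_iff, AddSubgroup.mem_addSubgroupOf]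
          change π₁ i 0 ∈ N₁ i
          rw [_root_.map_zero]
          exact zero_mem _
        · funext i
          change (QuotientAddGroup.mk (⟨π₂ i 0, _⟩ : H₂ i) :
            (H₂ i) ⧸ ((N₂ i).addSubgroupOf (H₂ i))) = 0
          rw [QuotientAddGroup.eq_zero_iff, AddSubgroup.mem_addSubgroupOf]
          change π₂ i 0 ∈ N₂ i
          rw [_root_.map_zero]
          exact zero_mem _
      map_add' := fun a b => by
        apply Prod.ext
        · funext i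
          change (QuotientAddGroup.mk (⟨π₁ i (a + b), _⟩ : H₁ i) :
            (H₁ i) ⧸ ((N₁ i).addSubgroupOf (H₁ i))) =
            QuotientAddGroup.mk (⟨π₁ i a, _⟩ + ⟨π₁ i b, _⟩ : H₁ i)
          congr 1
          exact Subtype.ext (map_add _ _ _)
        · funext i
          change (QuotientAddGroup.mk (⟨π₂ i (a + b), _⟩ : H₂ i) :
            (H₂ i) ⧸ ((N₂ i).addSubgroupOf (H₂ i))) =
            QuotientAddGroup.mk (⟨π₂ i a, _⟩ + ⟨π₂ i b, _⟩ : H₂ i)
          congr 1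
          exact Subtype.ext (map_add _ _ _) }
  have hsurj : Function.Surjective Φ := by
    rintro ⟨q1, q2⟩
    choose m1 hm1 using fun i => QuotientAddGroup.mk_surjective (q1 i)
    choose m2 hm2 using fun i => QuotientAddGroup.mk_surjective (q2 i)
    obtain ⟨a, ha, ha1, ha2⟩ := hs (fun i => m1 i) (fun i => m2 i) (fun i => (m1 i).2)
      (fun i => (m2 i).2)
    refine ⟨⟨a, ha⟩, ?_⟩
    apply Prod.ext
    · funext i
      refine Eq.trans ?_ (hm1 i)
      change QuotientAddGroup.mk _ = QuotientAddGroup.mk _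
      congr 1
      exact Subtype.ext (ha1 i)
    · funext i
      refine Eq.trans ?_ (hm2 i)
      change QuotientAddGroup.mk _ = QuotientAddGroup.mk _
      congr 1
      exact Subtype.ext (ha2 i)
  have hker : Φ.ker = N.addSubgroupOf H := by
    ext a
    rw [AddMonoidHom.mem_ker, AddSubgroup.mem_addSubgroupOf, hN a a.2, Prod.ext_iff, funext_iff,
      funext_iff]
    refine and_congr (forall_congr' fun i => ?_) (forall_congr' fun i => ?_)
    · change (QuotientAddGroup.mk (⟨π₁ i a, _⟩ : H₁ i) :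
            (H₁ i) ⧸ ((N₁ i).addSubgroupOf (H₁ i))) = 0 ↔ _
      rw [QuotientAddGroup.eq_zero_iff, AddSubgroup.mem_addSubgroupOf]
    · change (QuotientAddGroup.mk (⟨π₂ i a, _⟩ : H₂ i) :
            (H₂ i) ⧸ ((N₂ i).addSubgroupOf (H₂ i))) = 0 ↔ _
      rw [QuotientAddGroup.eq_zero_iff, AddSubgroup.mem_addSubgroupOf]
  rw [AddSubgroup.relIndex, ← hker, AddSubgroup.index_ker, AddMonoidHom.range_eq_top.mpr hsurj]
  have h1 := AddSubgroup.card_top (G := (∀ i, (H₁ i) ⧸ ((N₁ i).addSubgroupOf (H₁ i))) ×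
      (∀ i, (H₂ i) ⧸ ((N₂ i).addSubgroupOf (H₂ i))))
  rw [h1, Nat.card_prod, Nat.card_pi, Nat.card_pi]
  rfl

open Classical in
/-- assembling an idele -/
noncomputable def mkA (S S' : Finset Nat.Primes) (b1 : ∀ l : Nat.Primes, GQ → Additive (Om l)ˣ)
    (b2 : Nat.Primes → GQ → ℤ) : AA :=
  (fun l => if l ∈ S then b1 l else 0, fun l => if l ∈ S' ∧ l ∉ S then b2 l else 0)

section mk

variable {b1 : ∀ l : Nat.Primes, GQ → Additive (Om l)ˣ} {b2 : Nat.Primes → GQ → ℤ}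

lemma mkA_fst {l : Nat.Primes} (hl : l ∈ S) : (mkA S S' b1 b2).1 l = b1 l := if_pos hl

lemma mkA_fst_not {l : Nat.Primes} (hl : l ∉ S) : (mkA S S' b1 b2).1 l = 0 := if_neg hl

lemma mkA_snd {l : Nat.Primes} (hl : l ∈ S') (hl' : l ∉ S) : (mkA S S' b1 b2).2 l = b2 l :=
  if_pos ⟨hl, hl'⟩

lemma mkA_snd_not {l : Nat.Primes} (hl : l ∉ S') : (mkA S S' b1 b2).2 l = 0 :=
  if_neg fun h => hl h.1

lemma mkA_snd_not' {l : Nat.Primes} (hl : l ∈ S) : (mkA S S' b1 b2).2 l = 0 :=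
  if_neg fun h => h.2 hl

lemma mkA_mem (hW : (famS S).IsOpen W) (h1 : ∀ l ∈ S, b1 l ∈ XV (rl l) (repOm l) W)
    (h2 : ∀ l ∈ S', l ∉ S → b2 l ∈ XV (rl l) (repT l) W) :
    mkA S S' b1 b2 ∈ HV S W ⊓ NS S' := by
  have hinv : ∀ u ∈ W, ∀ (l : Nat.Primes) (x : GQ),
      (mkA S S' b1 b2).1 l (x * u) = (mkA S S' b1 b2).1 l x ∧
      (mkA S S' b1 b2).2 l (x * u) = (mkA S S' b1 b2).2 l x := by
    intro u hu l x
    constructor
    · by_cases hl : l ∈ S
      · rw [mkA_fst hl]; exact (h1 l hl).2 u hu x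
      · rw [mkA_fst_not hl]; rfl
    · by_cases hl : l ∈ S
      · rw [mkA_snd_not' hl]; rfl
      · by_cases hl' : l ∈ S'
        · rw [mkA_snd hl' hl]; exact (h2 l hl' hl).2 u hu x
        · rw [mkA_snd_not hl']; rfl
  refine ⟨⟨⟨fun l hl δ x => ?_, fun l hl => mkA_fst_not hl, fun l δ x => ?_,
    fun l hl => mkA_snd_not' hl, ?_, ?_⟩, ?_⟩, fun l hl => mkA_snd_not hl⟩
  · rw [mkA_fst hl]; exact (h1 l hl).1 δ x
  · by_cases hl : l ∈ S
    · rw [mkA_snd_not' hl]; rfl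
    · by_cases hl' : l ∈ S'
      · rw [mkA_snd hl' hl]; exact (h2 l hl' hl).1 δ x
      · rw [mkA_snd_not hl']; rfl
  · refine S'.finite_toSet.subset fun l hl => ?_
    by_contra hcon
    exact hl (mkA_snd_not hcon)
  · obtain ⟨U, hU, hUW⟩ := hW
    exact ⟨U, hU, fun u hu l x => hinv u (hUW hu) l x⟩
  · intro v hv
    apply Prod.ext
    · funext l x
      exact (hinv v hv l x).1
    · funext l x
      exact (hinv v hv l x).2

end mk

lemma fst_mem {a : AA} (ha : a ∈ HV S W) {l : Nat.Primes} (hl : l ∈ S) :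
    a.1 l ∈ XV (rl l) (repOm l) W := by
  refine ⟨fun δ x => ha.1.1 l hl δ x, fun v hv x => ?_⟩
  exact congrArg (fun b : AA => b.1 l x) (ha.2 v hv)

lemma snd_mem {a : AA} (ha : a ∈ HV S W) (l : Nat.Primes) :
    a.2 l ∈ XV (rl l) (repT l) W := by
  refine ⟨fun δ x => ha.1.2.2.1 l δ x, fun v hv x => ?_⟩
  exact congrArg (fun b : AA => b.2 l x) (ha.2 v hv)

lemma eq_of_parts {a b : AA} (ha : a ∈ HV S W ⊓ NS S') (hb : b ∈ HV S W ⊓ NS S')
    (h1 : ∀ l ∈ S, a.1 l = b.1 l) (h2 : ∀ l ∈ S', l ∉ S → a.2 l = b.2 l) : a = b := by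
  apply Prod.ext
  · funext l
    by_cases hl : l ∈ S
    · exact h1 l hl
    · rw [ha.1.1.2.1 l hl, hb.1.1.2.1 l hl]
  · funext l
    by_cases hl : l ∈ S
    · rw [ha.1.1.2.2.2.1 l hl, hb.1.1.2.2.2.1 l hl]
    · by_cases hl' : l ∈ S'
      · exact h2 l hl' hl
      · rw [ha.2 l hl', hb.2 l hl']

variable (C : Cyc V U σ p)
include C

lemma HV_mono : HV S U ≤ HV S V := fun _ ha => ⟨ha.1, fun v hv => ha.2 v (C.le hv)⟩

lemma translI_pow_fixed {a : AA} (h : translI σ a = a) (j : ℕ) : translI (σ ^ j) a = a := by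
  induction j with
  | zero => rw [pow_zero, map_one]; rfl
  | succ j ih => rw [pow_succ, map_mul, Module.End.mul_apply, h, ih]

/-- fixed points -/
lemma mem_HV_of_fixed {a : AA} (ha : a ∈ HV S V) (h : dfA σ a = 0) : a ∈ HV S U := by
  have h1 : translI σ a = a := sub_eq_zero.mp h
  refine ⟨ha.1, fun u hu => ?_⟩
  obtain ⟨j, -, v, hv, rfl⟩ := C.gen u hu
  rw [map_mul, Module.End.mul_apply, ha.2 v hv, translI_pow_fixed C h1]

lemma translI_mem {a : AA} (ha : a ∈ HV S V ⊓ NS S') {u : GQ} (hu : u ∈ U) :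
    translI u a ∈ HV S V ⊓ NS S' := by
  refine ⟨⟨IS_le_comap S u ha.1.1, fun v hv => ?_⟩, fun l hl => ?_⟩
  · have h1 : v * u = u * (u⁻¹ * v * u) := by group
    rw [← Module.End.mul_apply, ← map_mul, h1, map_mul, Module.End.mul_apply,
      ha.1.2 _ (C.conj' hu hv)]
  · funext x
    rw [translI_snd, ha.2 l hl]
    rfl

lemma translI_mem' {a : AA} (ha : a ∈ HV S V) {u : GQ} (hu : u ∈ U) :
    translI u a ∈ HV S V := by
  refine ⟨IS_le_comap S u ha.1, fun v hv => ?_⟩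
  have h1 : v * u = u * (u⁻¹ * v * u) := by group
  rw [← Module.End.mul_apply, ← map_mul, h1, map_mul, Module.End.mul_apply,
    ha.2 _ (C.conj' hu hv)]

lemma translI_p {a : AA} (ha : a ∈ HV S V) : translI (σ ^ p) a = a :=
  ha.2 _ ((C.pow p).mpr dvd_rfl)

lemma nmA_mem {a : AA} (ha : a ∈ HV S V ⊓ NS S') : nmA σ p a ∈ HV S U ⊓ NS S' := by
  have h1 : nmA σ p a ∈ HV S V ⊓ NS S' := by
    rw [nmA_apply]
    exact AddSubgroup.sum_mem _ fun j _ => translI_mem C ha (C.pow_mem j)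
  refine ⟨mem_HV_of_fixed C h1.1 ?_, h1.2⟩
  rw [dfA_apply, sub_eq_zero, nmA_apply, map_sum]
  have h2 : ∀ j ∈ Finset.range p, translI σ (translI (σ ^ j) a) = translI (σ ^ (j + 1)) a := by
    intro j _
    rw [← Module.End.mul_apply, ← map_mul, ← pow_succ']
  rw [Finset.sum_congr rfl h2]
  have h3 := Finset.sum_range_succ' (fun j => translI (σ ^ j) a) p
  have h4 := Finset.sum_range_succ (fun j => translI (σ ^ j) a) p
  rw [h3, translI_p C ha.1, pow_zero, map_one, Module.End.one_apply] at h4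
  exact add_right_cancel h4

/-- **Norm index of `S'`-ideles.** -/
theorem norm_index_H (hSS' : S ⊆ S') (hV : (famS S).IsOpen V) :
    ((HV S V ⊓ NS S').map (nmA σ p)).relIndex (HV S U ⊓ NS S') =
      p ^ ∑ l ∈ S', Nat.card {c : Pl (rl l) U // NonSplit (rl l) V σ c.out} := by
  classical
  have hVo := isOpen_of_famS hV
  have hU : (famS S).IsOpen U := hV.mono C.le
  have hUo := isOpen_of_famS hU
  haveI : ∀ l : Nat.Primes, Finite (Pl (rl l) U) := fun l => finite_Pl l hUo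
  have hN1 : ∀ l : Nat.Primes, ((XV (rl l) (repOm l) V).map
      (nmX GQ (Additive (Om l)ˣ) σ p)).relIndex (XV (rl l) (repOm l) U) =
      p ^ Nat.card {c : Pl (rl l) U // NonSplit (rl l) V σ c.out} := fun l =>
    C.norm_index (r := rl l) (ρ := repOm l) (fun x δ v hv h => local_index C hVo x δ hv h)
  have hN2 : ∀ l : Nat.Primes, ((XV (rl l) (repT l) V).map
      (nmX GQ ℤ σ p)).relIndex (XV (rl l) (repT l) U) =
      p ^ Nat.card {c : Pl (rl l) U // NonSplit (rl l) V σ c.out} := fun l =>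
    C.norm_index (r := rl l) (ρ := repT l) (fun x δ v _ _ => local_index_T x δ)
  have hmain := relIndex_of_local (ι₁ := ↥S) (ι₂ := ↥(S' \ S))
    ((HV S V ⊓ NS S').map (nmA σ p)) (HV S U ⊓ NS S')
    (fun l => (XV (rl l.1) (repOm l.1) V).map (nmX GQ (Additive (Om l.1)ˣ) σ p))
    (fun l => XV (rl l.1) (repOm l.1) U)
    (fun l => (XV (rl l.1) (repT l.1) V).map (nmX GQ ℤ σ p))
    (fun l => XV (rl l.1) (repT l.1) U)
    (fun l => (Pi.evalAddMonoidHom (fun l : Nat.Primes => GQ → Additive (Om l)ˣ) l.1).comp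
          (AddMonoidHom.fst _ _))
    (fun l => (Pi.evalAddMonoidHom (fun _ : Nat.Primes => GQ → ℤ) l.1).comp
          (AddMonoidHom.snd _ _))
    (fun l a ha => fst_mem ha.1 l.2) (fun l a ha => snd_mem ha.1 l.1) (by
      intro m1 m2 hm1 hm2
      let b1 : ∀ l : Nat.Primes, GQ → Additive (Om l)ˣ :=
        fun l => if h : l ∈ S then m1 ⟨l, h⟩ else 0
      let b2 : Nat.Primes → GQ → ℤ := fun l => if h : l ∈ S' \ S then m2 ⟨l, h⟩ else 0
      have hb1 : ∀ l : ↥S, b1 l.1 = m1 l := fun l => dif_pos l.2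
      have hb2 : ∀ l : ↥(S' \ S), b2 l.1 = m2 l := fun l => dif_pos l.2
      refine ⟨mkA S S' b1 b2, mkA_mem hU ?_ ?_, ?_, ?_⟩
      · intro l hl
        rw [hb1 ⟨l, hl⟩]
        exact hm1 ⟨l, hl⟩
      · intro l hl hl'
        have h : l ∈ S' \ S := Finset.mem_sdiff.mpr ⟨hl, hl'⟩
        rw [hb2 ⟨l, h⟩]
        exact hm2 ⟨l, h⟩
      · intro l
        have h1 : (mkA S S' b1 b2).1 l.1 = b1 l.1 := mkA_fst l.2
        exact h1.trans (hb1 l)
      · intro l
        have h := Finset.mem_sdiff.mp l.2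
        have h1 : (mkA S S' b1 b2).2 l.1 = b2 l.1 := mkA_snd h.1 h.2
        exact h1.trans (hb2 l)) (by
      intro a ha
      constructor
      · rintro ⟨b, hb, hba⟩
        constructor
        · intro l
          refine ⟨b.1 l.1, fst_mem hb.1 l.2, ?_⟩
          rw [← nmA_fst, hba]
          rfl
        · intro l
          refine ⟨b.2 l.1, snd_mem hb.1 l.1, ?_⟩
          rw [← nmA_snd, hba]
          rfl
      · rintro ⟨h1, h2⟩
        have h1' : ∀ l ∈ S, ∃ b ∈ XV (rl l) (repOm l) V,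
            nmX GQ (Additive (Om l)ˣ) σ p b = a.1 l := fun l hl => h1 ⟨l, hl⟩
        have h2' : ∀ l ∈ S', l ∉ S → ∃ b ∈ XV (rl l) (repT l) V, nmX GQ ℤ σ p b = a.2 l :=
          fun l hl hl' => h2 ⟨l, Finset.mem_sdiff.mpr ⟨hl, hl'⟩⟩
        choose! b1 hb1 hb1' using h1'
        choose! b2 hb2 hb2' using h2'
        have hmem := mkA_mem (S' := S') hV (fun l hl => hb1 l hl) (fun l hl hl' => hb2 l hl hl')
        refine ⟨mkA S S' b1 b2, hmem, ?_⟩
        refine eq_of_parts (nmA_mem C hmem) ha ?_ ?_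
        · intro l hl
          rw [nmA_fst, mkA_fst hl, hb1' l hl]
        · intro l hl hl'
          rw [nmA_snd, mkA_snd hl hl', hb2' l hl hl'])
  rw [hmain, Finset.prod_congr rfl fun (l : ↥S) _ => hN1 l.1,
    Finset.prod_congr rfl fun (l : ↥(S' \ S)) _ => hN2 l.1,
    Finset.prod_coe_sort S (fun l : Nat.Primes =>
      p ^ Nat.card {c : Pl (rl l) U // NonSplit (rl l) V σ c.out}),
    Finset.prod_coe_sort (S' \ S) (fun l : Nat.Primes =>
      p ^ Nat.card {c : Pl (rl l) U // NonSplit (rl l) V σ c.out}), mul_comm,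
    Finset.prod_sdiff hSS', Finset.prod_pow_eq_pow_sum]

/-- **Hilbert 90 for `S'`-ideles.** -/
theorem h90_H (hV : (famS S).IsOpen V) {a : AA} (ha : a ∈ HV S V ⊓ NS S')
    (hN : nmA σ p a = 0) : ∃ b ∈ HV S V ⊓ NS S', dfA σ b = a := by
  have hVo := isOpen_of_famS hV
  have h1 : ∀ l ∈ S, ∃ b ∈ XV (rl l) (repOm l) V, ∀ y, b (y * σ) - b y = a.1 l y := by
    intro l hl
    refine C.semilocal_h90 (fst_mem ha.1 hl) ?_ ?_
    · intro y
      have h2 := congrArg (fun b : AA => b.1 l y) hN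
      change (nmA σ p a).1 l y = 0 at h2
      rw [nmA_fst] at h2
      exact h2
    · intro x δ v hv h m hm hm'
      exact local_h90 C hVo x δ hv h m hm hm'
  have h2 : ∀ l ∈ S', l ∉ S → ∃ b ∈ XV (rl l) (repT l) V, ∀ y, b (y * σ) - b y = a.2 l y := by
    intro l _ _
    refine C.semilocal_h90 (snd_mem ha.1 l) ?_ ?_
    · intro y
      have h2 := congrArg (fun b : AA => b.2 l y) hN
      change (nmA σ p a).2 l y = 0 at h2
      rw [nmA_snd] at h2
      exact h2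
    · intro x δ v _ _ m _ hm'
      have h3 := local_h90_T C.prime δ m hm'
      exact ⟨0, fun _ _ _ _ => rfl, h3.symm⟩
  choose! b1 hb1 hb1' using h1
  choose! b2 hb2 hb2' using h2
  have hmem := mkA_mem (S' := S') hV (fun l hl => hb1 l hl) (fun l hl hl' => hb2 l hl hl')
  refine ⟨mkA S S' b1 b2, hmem, ?_⟩
  refine eq_of_parts (AddSubgroup.sub_mem _ (translI_mem C hmem C.mem) hmem) ha ?_ ?_
  · intro l hl
    funext y
    change (mkA S S' b1 b2).1 l (y * σ) - (mkA S S' b1 b2).1 l y = a.1 l y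
    rw [mkA_fst hl, hb1' l hl]
  · intro l hl hl'
    funext y
    change (mkA S S' b1 b2).2 l (y * σ) - (mkA S S' b1 b2).2 l y = a.2 l y
    rw [mkA_snd hl hl', hb2' l hl hl']

end Fermat.Agent.GlobalCFT
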