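import Fermat.Agent.GlobalCFT.GPlaces

/-!
# Primes of fixed fields and Galois elements
-/

set_option autoImplicit false

namespace Fermat.Agent.GlobalCFT

open Fermat.Agent.Coh Fermat.Agent.GCFT NumberField IsDedekindDomain

/-- The field of algebraic numbers. -/
local notation "Qb" => AlgebraicClosure ℚ
/-- The absolute Galois group. -/
local notation "GQ" => (AlgebraicClosure ℚ ≃ₐ[ℚ] AlgebraicClosure ℚ)

variable {l : Nat.Primes} {U V : Subgroup GQ}

/-- (T1) Two Galois elements inducing the same prime are in the same double coset. -/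
theorem exists_of_same_prime (hU : IsOpen (U : Set GQ)) {g g' : GQ}
    (h : ∀ a : 𝓞 (FFd U), ‖il l (g ((a : FFd U) : Qb))‖ < 1 ↔
      ‖il l (g' ((a : FFd U) : Qb))‖ < 1) :
    ∃ δ : Gl l, ∃ u ∈ U, g' = rl l δ * g * u := by
  haveI := numberField_FFd hU
  rw [← cl_eq_iff, ← primeOf_phx_eq_iff hU]
  ext a
  rw [mem_primeOf, mem_primeOf]
  exact h a

/-- (T2) Every prime over `l` comes from a Galois element. -/
theorem exists_gal_of_prime (hU : IsOpen (U : Set GQ)) (P : Ideal (𝓞 (FFd U))) [hP : P.IsPrime]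
    (hl : ((l : ℕ) : 𝓞 (FFd U)) ∈ P) :
    ∃ g : GQ, ∀ a : 𝓞 (FFd U), a ∈ P ↔ ‖il l (g ((a : FFd U) : Qb))‖ < 1 := by
  haveI := numberField_FFd hU
  have hne : P ≠ ⊥ := by
    rintro rfl
    rw [Ideal.mem_bot] at hl
    exact l.2.ne_zero (by exact_mod_cast hl)
  obtain ⟨c, hc⟩ := exists_plMap hU (⟨P, hP, hne⟩ : HeightOneSpectrum (𝓞 (FFd U))) hl
  refine ⟨c.out, fun a => ?_⟩
  have h1 : P = (primeOf (phx l U c.out)).asIdeal := (congrArg HeightOneSpectrum.asIdeal hc).symm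
  rw [h1, mem_primeOf]
  rfl

/-- (T2') Primes of the larger field over a given prime. -/
theorem exists_gal_over (hVU : V ≤ U) (hV : IsOpen (V : Set GQ)) {g : GQ}
    (P : Ideal (𝓞 (FFd V))) [hP : P.IsPrime]
    (h : ∀ (a : 𝓞 (FFd V)) (_ : ((a : FFd V) : Qb) ∈ FFd U),
      a ∈ P ↔ ‖il l (g ((a : FFd V) : Qb))‖ < 1) :
    ∃ u ∈ U, ∀ a : 𝓞 (FFd V), a ∈ P ↔ ‖il l (g (u ((a : FFd V) : Qb)))‖ < 1 := by
  have hU : IsOpen (U : Set GQ) := Subgroup.isOpen_mono hVU hV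
  have hl : ((l : ℕ) : 𝓞 (FFd V)) ∈ P := by
    have h1 : (((((l : ℕ) : 𝓞 (FFd V)) : FFd V)) : Qb) = ((l : ℕ) : Qb) := by simp
    rw [h _ (by rw [h1]; exact (FFd U).natCast_mem _), h1, map_natCast, map_natCast]
    exact norm_natCast_lt
  obtain ⟨g', hg'⟩ := exists_gal_of_prime hV P hl
  have hle : FFd U ≤ FFd V := by
    intro y hy
    rw [mem_FFd] at hy ⊢
    exact fun v hv => hy v (hVU hv)
  have key : ∀ a : 𝓞 (FFd U), ‖il l (g' ((a : FFd U) : Qb))‖ < 1 ↔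
      ‖il l (g ((a : FFd U) : Qb))‖ < 1 := by
    intro a
    have hint : IsIntegral ℤ (⟨((a : FFd U) : Qb), hle (a : FFd U).2⟩ : FFd V) := by
      have h1 : IsIntegral ℤ ((a : FFd U) : Qb) :=
        (a.2 : IsIntegral ℤ (a : FFd U)).map (FFd U).val.toRingHom.toIntAlgHom
      exact (isIntegral_algHom_iff ((FFd V).val.toRingHom.toIntAlgHom)
        (FFd V).val.toRingHom.injective).mp h1
    have h2 := hg' ⟨⟨((a : FFd U) : Qb), hle (a : FFd U).2⟩, hint⟩
    have h3 := h ⟨⟨((a : FFd U) : Qb), hle (a : FFd U).2⟩, hint⟩ (a : FFd U).2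
    exact h2.symm.trans h3
  obtain ⟨δ, u, hu, hgu⟩ := exists_of_same_prime hU (fun a => (key a).symm)
  refine ⟨u, hu, fun a => ?_⟩
  rw [hg' a, hgu, AlgEquiv.mul_apply, AlgEquiv.mul_apply, il_rl, norm_gal]

end Fermat.Agent.GlobalCFT
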