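import Fermat.Agent.GlobalCFT.NormH

/-!
# The number of infinite places in an extension of odd prime degree
-/

set_option autoImplicit false

namespace Fermat.Agent.GlobalCFT

open Fermat.Agent.Coh Fermat.Agent.GCFT NumberField IsDedekindDomain IntermediateField

/-- A subfield fixed by an automorphism of prime order: the extension is Galois of degree `p`. -/
theorem galois_of_aut {k Ω : Type*} [Field k] [Field Ω] [Algebra k Ω]
    {K L : IntermediateField k Ω} {p : ℕ} (hp : p.Prime) (hKL : K ≤ L) [FiniteDimensional k L]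
    (δ : Ω ≃ₐ[k] Ω) (hδ : ∀ y ∈ L, δ y ∈ L)
    (hfix : ∀ y ∈ L, (δ y = y ↔ y ∈ K)) (hpow : ∀ y ∈ L, (δ ^ p) y = y)
    (hne : ∃ y ∈ L, δ y ≠ y) :
    letI : Algebra K L := (IntermediateField.inclusion hKL).toAlgebra
    IsGalois K L ∧ Module.finrank K L = p := by
  letI : Algebra K L := (IntermediateField.inclusion hKL).toAlgebra
  haveI : IsScalarTower k K L := IsScalarTower.of_algebraMap_eq (fun x => rfl)
  haveI : FiniteDimensional K L := FiniteDimensional.right k K L
  let τ₀ : L →ₐ[K] L :=
    { toFun := fun y => ⟨δ y, hδ y y.2⟩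
      map_one' := Subtype.ext (map_one δ)
      map_mul' := fun a b => Subtype.ext (map_mul δ _ _)
      map_zero' := Subtype.ext (map_zero δ)
      map_add' := fun a b => Subtype.ext (map_add δ _ _)
      commutes' := fun k => Subtype.ext ((hfix _ (hKL k.2)).mpr k.2) }
  let τ : L ≃ₐ[K] L := AlgEquiv.ofBijective τ₀ (Algebra.IsAlgebraic.algHom_bijective τ₀)
  have hτ : ∀ y : L, ((τ y : L) : Ω) = δ y := fun y => rfl
  have hτpow : ∀ (j : ℕ) (y : L), (((τ ^ j) y : L) : Ω) = (δ ^ j) y := by
    intro j
    induction j with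
    | zero => intro y; rfl
    | succ j ih =>
      intro y
      rw [pow_succ', pow_succ', AlgEquiv.mul_apply, AlgEquiv.mul_apply, hτ, ih]
  have hpf : Fact p.Prime := ⟨hp⟩
  have hord : orderOf τ = p := by
    apply orderOf_eq_prime
    · ext y
      change (((τ ^ p) y : L) : Ω) = y
      rw [hτpow, hpow y y.2]
    · intro h1
      obtain ⟨y, hy, hy2⟩ := hne
      apply hy2
      have := congrArg (fun g : L ≃ₐ[K] L => ((g ⟨y, hy⟩ : L) : Ω)) h1
      exact this
  have hfixed : fixedField (Subgroup.zpowers τ) = (⊥ : IntermediateField K L) := by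
    rw [eq_bot_iff]
    intro y hy
    have h1 : τ y = y := (mem_fixedField_iff _ y).mp hy τ (Subgroup.mem_zpowers τ)
    have h2 : (y : Ω) ∈ K := by
      rw [← hfix y y.2, ← hτ, h1]
    rw [IntermediateField.mem_bot]
    exact ⟨⟨y, h2⟩, Subtype.ext rfl⟩
  haveI hgal : IsGalois K L := by
    apply IsGalois.of_fixedField_eq_bot
    rw [eq_bot_iff, ← hfixed]
    intro y hy
    rw [mem_fixedField_iff] at hy ⊢
    exact fun g _ => hy g trivial
  have htop : Subgroup.zpowers τ = ⊤ := by
    have h1 := IntermediateField.fixingSubgroup_fixedField (Subgroup.zpowers τ)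
    rw [hfixed, IntermediateField.fixingSubgroup_bot] at h1
    exact h1.symm
  have hgen : ∀ g : Gal(L/K), g ∈ Subgroup.zpowers τ := fun g => by rw [htop]; trivial
  have hrank : Module.finrank K L = p := by
    rw [← IsGalois.card_aut_eq_finrank, ← hord, orderOf_eq_card_of_forall_mem_zpowers hgen]
  exact ⟨hgal, hrank⟩

/-- The field of algebraic numbers. -/
local notation "Qb" => AlgebraicClosure ℚ
/-- The absolute Galois group. -/
local notation "GQ" => (AlgebraicClosure ℚ ≃ₐ[ℚ] AlgebraicClosure ℚ)

variable {V W U : Subgroup GQ} {σ : GQ} {p : ℕ}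

theorem card_infinitePlace (C : Cyc V U σ p) (hodd : Odd p) (hV : IsOpen (V : Set GQ))
    [NumberField (FFd V)] [NumberField (FFd U)] :
    Fintype.card (InfinitePlace (FFd V)) = Fintype.card (InfinitePlace (FFd U)) * p := by
  have hle : FFd U ≤ FFd V := by
    intro y hy
    rw [mem_FFd] at hy ⊢
    exact fun v hv => hy v (C.le hv)
  haveI := finite_FFd hV
  have hpow_fix : ∀ (y : Qb), σ y = y → ∀ j : ℕ, (σ ^ j) y = y := by
    intro y hy j
    induction j with
    | zero => rfl
    | succ j ih => rw [pow_succ, AlgEquiv.mul_apply, hy, ih]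
  have hG := galois_of_aut (K := FFd U) (L := FFd V) C.prime hle σ (by
      intro y hy
      rw [mem_FFd] at hy ⊢
      intro v hv
      have h1 : v * σ = σ * (σ⁻¹ * v * σ) := by group
      rw [← AlgEquiv.mul_apply, h1, AlgEquiv.mul_apply, hy _ (C.conj' C.mem hv)]) (by
      intro y hy
      rw [mem_FFd] at hy ⊢
      constructor
      · intro h u hu
        obtain ⟨j, -, v, hv, rfl⟩ := C.gen u hu
        rw [AlgEquiv.mul_apply, hy v hv, hpow_fix y h]
      · intro h
        exact h σ C.mem) (by
      intro y hy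
      rw [mem_FFd] at hy
      exact hy _ ((C.pow p).mpr dvd_rfl)) (by
      by_contra hcon
      push Not at hcon
      have h1 : σ ∈ V := by
        rw [← fixingSubgroup_FFd hV, IntermediateField.mem_fixingSubgroup_iff]
        exact hcon
      have := (C.pow 1).mp (by rwa [pow_one])
      exact C.prime.one_lt.ne' (Nat.dvd_one.mp this))
  letI : Algebra (FFd U) (FFd V) := (IntermediateField.inclusion hle).toAlgebra
  haveI : IsGalois (FFd U) (FFd V) := hG.1
  have hrank : Module.finrank (FFd U) (FFd V) = p := hG.2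
  haveI : IsUnramifiedAtInfinitePlaces (FFd U) (FFd V) :=
    IsUnramifiedAtInfinitePlaces_of_odd_finrank (by rw [hrank]; exact hodd)
  rw [IsUnramifiedAtInfinitePlaces.card_infinitePlace (FFd U) (FFd V), hrank]

end Fermat.Agent.GlobalCFT
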