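import Fermat.Agent.GlobalCFT.Ambient

/-!
# Choice of `S'` and the group of `S'`-units
-/

set_option autoImplicit false

namespace Fermat.Agent.GlobalCFT

open Fermat.Agent.Coh Fermat.Agent.GCFT NumberField IsDedekindDomain

/-- The field of algebraic numbers. -/
local notation "Qb" => AlgebraicClosure ℚ
/-- The absolute Galois group. -/
local notation "GQ" => (AlgebraicClosure ℚ ≃ₐ[ℚ] AlgebraicClosure ℚ)

variable {S S' : Finset Nat.Primes} {V W U : Subgroup GQ}

lemma prime_unique {K : Type*} [Field K] [NumberField K] {v : HeightOneSpectrum (𝓞 K)}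
    {l l' : Nat.Primes} (h1 : ((l : ℕ) : 𝓞 K) ∈ v.asIdeal) (h2 : ((l' : ℕ) : 𝓞 K) ∈ v.asIdeal) :
    l = l' := by
  by_contra hne
  have h3 : Nat.Coprime (l : ℕ) (l' : ℕ) :=
    (Nat.coprime_primes l.2 l'.2).mpr fun h => hne (Subtype.ext h)
  obtain ⟨u, w, huw⟩ := Nat.isCoprime_iff_coprime.mpr h3
  apply v.isPrime.ne_top
  rw [Ideal.eq_top_iff_one]
  have h7 : (1 : 𝓞 K) = (u : 𝓞 K) * ((l : ℕ) : 𝓞 K) + (w : 𝓞 K) * ((l' : ℕ) : 𝓞 K) := by
    have := congrArg (Int.cast : ℤ → 𝓞 K) huw
    push_cast at this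
    exact this.symm
  rw [h7]
  exact Ideal.add_mem _ (Ideal.mul_mem_left _ _ h1) (Ideal.mul_mem_left _ _ h2)

/-- values of the divisor of an invariant idele only depend on the place -/
lemma snd_eq_of_cl {a : AA} (ha : a ∈ HV S V) {l : Nat.Primes} {g g' : GQ}
    (h : cl (rl l) V g = cl (rl l) V g') : a.2 l g = a.2 l g' := by
  obtain ⟨δ, v, hv, rfl⟩ := (cl_eq_iff (rl l) V).mp h
  have h1 := congrArg (fun b : AA => b.2 l (rl l δ * g)) (ha.2 v hv)
  have h2 := ha.1.2.2.1 l δ g
  have h3 : a.2 l (rl l δ * g * v) = a.2 l (rl l δ * g) := h1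
  rw [h3]
  exact h2.symm

/-- **Choice of `S'`.** -/
theorem exists_good (S : Finset Nat.Primes) (hV : (famS S).IsOpen V) :
    ∃ S' : Finset Nat.Primes, S ⊆ S' ∧ ∀ a ∈ HV S V, ∃ e ∈ EV S V, a - e ∈ NS S' := by
  classical
  have hVo := isOpen_of_famS hV
  haveI := numberField_FFd hVo
  obtain ⟨T₀, hT₀⟩ := exists_finset_gen (FFd V)
  choose z hz1 hz2 using hT₀
  choose ch hch using fun v : HeightOneSpectrum (𝓞 (FFd V)) => exists_residue_char v
  refine ⟨S ∪ T₀.image ch, Finset.subset_union_left, fun a ha => ?_⟩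
  haveI : ∀ l : Nat.Primes, Finite (Pl (rl l) V) := fun l => finite_Pl l hVo
  letI : ∀ l : Nat.Primes, Fintype (Pl (rl l) V) := fun l => Fintype.ofFinite _
  have hB := ha.1.2.2.2.2.1
  let B : Finset Nat.Primes := hB.toFinset \ (S ∪ T₀.image ch)
  have hnotT : ∀ l ∉ S ∪ T₀.image ch, ∀ v : HeightOneSpectrum (𝓞 (FFd V)),
      ((l : ℕ) : 𝓞 (FFd V)) ∈ v.asIdeal → v ∉ T₀ := by
    intro l hl v hv hvT
    apply hl
    apply Finset.mem_union_right
    rw [Finset.mem_image]
    exact ⟨v, hvT, prime_unique (hch v) hv⟩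
  let e : AA := ∑ l ∈ B, ∑ c : Pl (rl l) V,
    (a.2 l c.out) • ((jW hV (z (plMap l V c))).toAdd)
  have hjE : ∀ x : (FFd V)ˣ, (jW hV x).toAdd ∈ EV S V := fun x =>
    ⟨(toKS hV x).toAdd, fun v hv => toKS_fixed hV x hv, rfl⟩
  refine ⟨e, ?_, ?_⟩
  · refine AddSubgroup.sum_mem _ fun l _ => AddSubgroup.sum_mem _ fun c _ =>
      AddSubgroup.zsmul_mem _ (hjE _) _
  · rw [mem_NS]
    intro l' hl'
    have hl'S : l' ∉ S := fun h => hl' (Finset.mem_union_left _ h)
    funext g
    have hval : ∀ (l : Nat.Primes), l ∈ B → ∀ c : Pl (rl l) V,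
        ((jW hV (z (plMap l V c))).toAdd).2 l' g =
          if plMap l V c = primeOf (phx l' V g) then 1 else 0 := by
      intro l hl c
      have hl2 : l ∉ S ∪ T₀.image ch := (Finset.mem_sdiff.mp hl).2
      have hg : primeOf (phx l' V g) ∉ T₀ := hnotT l' hl' _ (natCast_mem_primeOf _)
      split_ifs with h
      · apply snd_eq_one hV _ hl'S g
        rw [← h]
        exact hz2 _ (hnotT l hl2 _ (natCast_mem_plMap c))
      · rw [snd_eq_zero_iff hV _ hl'S g]
        exact hz1 _ _ hg fun h' => h h'.symm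
    have he : e.2 l' g = ∑ l ∈ B, ∑ c : Pl (rl l) V,
        a.2 l c.out * (if plMap l V c = primeOf (phx l' V g) then 1 else 0) := by
      let ev : AA →+ ℤ := (Pi.evalAddMonoidHom (fun _ : GQ => ℤ) g).comp
        ((Pi.evalAddMonoidHom (fun _ : Nat.Primes => GQ → ℤ) l').comp (AddMonoidHom.snd _ _))
      change ev e = _
      rw [map_sum]
      refine Finset.sum_congr rfl fun l hl => ?_
      rw [map_sum]
      refine Finset.sum_congr rfl fun c _ => ?_
      rw [map_zsmul, smul_eq_mul]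
      change _ * ((jW hV (z (plMap l V c))).toAdd).2 l' g = _
      rw [hval l hl c]
    have h2 : e.2 l' g = a.2 l' g := by
      rw [he]
      by_cases hl'B : l' ∈ B
      · rw [Finset.sum_eq_single_of_mem l' hl'B]
        · rw [Finset.sum_eq_single (cl (rl l') V g)]
          · rw [if_pos (plMap_cl hVo g), mul_one]
            apply snd_eq_of_cl ha
            exact Quotient.out_eq _
          · intro c _ hc
            rw [if_neg, mul_zero]
            intro h
            apply hc
            apply plMap_injective hVo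
            rw [h, plMap_cl hVo]
          · intro h
            exact absurd (Finset.mem_univ _) h
        · intro l _ hl
          refine Finset.sum_eq_zero fun c _ => ?_
          rw [if_neg, mul_zero]
          intro h
          apply hl
          have h3 := natCast_mem_plMap c
          rw [h] at h3
          exact prime_unique h3 (natCast_mem_primeOf (phx l' V g))
      · have h3 : a.2 l' = 0 := by
          by_contra h
          apply hl'B
          rw [Finset.mem_sdiff, Set.Finite.mem_toFinset]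
          exact ⟨h, hl'⟩
        rw [h3]
        refine Finset.sum_eq_zero fun l hl => Finset.sum_eq_zero fun c _ => ?_
        rw [if_neg, mul_zero]
        intro h
        have h3 := natCast_mem_plMap c
        rw [h] at h3
        have h4 : l = l' := prime_unique h3 (natCast_mem_primeOf (phx l' V g))
        exact hl'B (h4 ▸ hl)
    change a.2 l' g - e.2 l' g = 0
    rw [h2, sub_self]

/-! ### units -/

open Classical in
/-- places above `S'` -/
noncomputable def TW (S' : Finset Nat.Primes) (W : Subgroup GQ) (hW : IsOpen (W : Set GQ))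
    [NumberField (FFd W)] : Finset (HeightOneSpectrum (𝓞 (FFd W))) :=
  haveI : ∀ l : Nat.Primes, Finite (Pl (rl l) W) := fun l => finite_Pl l hW
  letI : ∀ l : Nat.Primes, Fintype (Pl (rl l) W) := fun l => Fintype.ofFinite _
  S'.biUnion fun l => (Finset.univ : Finset (Pl (rl l) W)).image (plMap l W)

lemma mem_TW (hW : IsOpen (W : Set GQ)) [NumberField (FFd W)]
    {v : HeightOneSpectrum (𝓞 (FFd W))} :
    v ∈ TW S' W hW ↔ ∃ l ∈ S', ((l : ℕ) : 𝓞 (FFd W)) ∈ v.asIdeal := by
  classical
  haveI : ∀ l : Nat.Primes, Finite (Pl (rl l) W) := fun l => finite_Pl l hW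
  letI : ∀ l : Nat.Primes, Fintype (Pl (rl l) W) := fun l => Fintype.ofFinite _
  change v ∈ S'.biUnion (fun l => (Finset.univ : Finset (Pl (rl l) W)).image (plMap l W)) ↔ _
  rw [Finset.mem_biUnion]
  constructor
  · rintro ⟨l, hl, hv⟩
    rw [Finset.mem_image] at hv
    obtain ⟨c, -, rfl⟩ := hv
    exact ⟨l, hl, natCast_mem_plMap c⟩
  · rintro ⟨l, hl, hv⟩
    obtain ⟨c, rfl⟩ := exists_plMap hW v hv
    exact ⟨l, hl, Finset.mem_image.mpr ⟨c, Finset.mem_univ _, rfl⟩⟩

lemma card_TW (hW : IsOpen (W : Set GQ)) [NumberField (FFd W)] :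
    (TW S' W hW).card = ∑ l ∈ S', Nat.card (Pl (rl l) W) := by
  classical
  haveI : ∀ l : Nat.Primes, Finite (Pl (rl l) W) := fun l => finite_Pl l hW
  letI : ∀ l : Nat.Primes, Fintype (Pl (rl l) W) := fun l => Fintype.ofFinite _
  change (S'.biUnion (fun l => (Finset.univ : Finset (Pl (rl l) W)).image (plMap l W))).card = _
  rw [Finset.card_biUnion]
  · refine Finset.sum_congr rfl fun l _ => ?_
    rw [Finset.card_image_of_injective _ (plMap_injective hW), Nat.card_eq_fintype_card]
    exact Finset.card_univ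
  · intro _ _ _ _ hne
    change Disjoint _ _
    rw [Finset.disjoint_left]
    intro v hv hv'
    rw [Finset.mem_image] at hv hv'
    obtain ⟨c, -, rfl⟩ := hv
    obtain ⟨c', -, h⟩ := hv'
    exact hne (plMap_prime_unique h.symm)

/-- The principal ideles which are trivial outside `S'` are the `S'`-units. -/
theorem map_ET (hSS' : S ⊆ S') (hW : (famS S).IsOpen W) [NumberField (FFd W)] :
    (ET (TW S' W (isOpen_of_famS hW))).map (jW hW) =
      AddSubgroup.toSubgroup (EV S W ⊓ NS S') := by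
  ext a
  constructor
  · rintro ⟨x, hx, rfl⟩
    refine ⟨⟨(toKS hW x).toAdd, fun v hv => toKS_fixed hW x hv, rfl⟩, ?_⟩
    change ∀ l ∉ S', ((jW hW x).toAdd).2 l = 0
    intro l hl
    funext g
    have hlS : l ∉ S := fun h => hl (hSS' h)
    change ((jW hW x).toAdd).2 l g = 0
    rw [snd_eq_zero_iff hW x hlS g]
    apply (mem_ET _).mp hx
    rw [mem_TW]
    rintro ⟨l', hl', h⟩
    exact hl (prime_unique h (natCast_mem_primeOf (phx l W g)) ▸ hl')
  · rintro ⟨⟨x, hx, hxa⟩, ha⟩
    obtain ⟨y, rfl⟩ := exists_toKS hW x hx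
    refine ⟨y, ?_, ?_⟩
    · apply (mem_ET _).mpr
      intro v hv
      obtain ⟨l, hl⟩ := exists_residue_char v
      have hlS' : l ∉ S' := fun h => hv ((mem_TW _).mpr ⟨l, h, hl⟩)
      have hlS : l ∉ S := fun h => hlS' (hSS' h)
      obtain ⟨c, rfl⟩ := exists_plMap (isOpen_of_famS hW) v hl
      rw [plMap, ← snd_eq_zero_iff hW y hlS]
      have h1 := ha l hlS'
      have h2 := congrArg (fun b : AA => b.2 l c.out) hxa
      change ((jW hW y).toAdd).2 l c.out = (Multiplicative.toAdd a).2 l c.out at h2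
      rw [h2]
      exact congrFun h1 c.out
    · exact congrArg Multiplicative.ofAdd hxa

/-- The `q`-index of the group of `S'`-units. -/
theorem Q_EV (hS : S.Nonempty) (hSS' : S ⊆ S') (hW : (famS S).IsOpen W) [NumberField (FFd W)]
    {n : ℕ} (hn : n ≠ 0) :
    QF (pw (Multiplicative AA) n) (AddSubgroup.toSubgroup (EV S W ⊓ NS S')) ∧
    Q (pw (Multiplicative AA) n) (AddSubgroup.toSubgroup (EV S W ⊓ NS S')) =
      (n : ℚ) ^ (Units.rank (FFd W) + ∑ l ∈ S', Nat.card (Pl (rl l) W)) := by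
  obtain ⟨h1, h2⟩ := Q_ET (TW S' W (isOpen_of_famS hW)) hn
  obtain ⟨h3, h4⟩ := Q_injective' (ψ := pw (Multiplicative AA) n) (jW hW)
    (fun x => map_pow _ _ _) (jW_injective hS hW) h1
  rw [map_ET hSS' hW] at h3 h4
  rw [h2, card_TW] at h4
  exact ⟨h3, h4.symm⟩

end Fermat.Agent.GlobalCFT
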