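import Mathlib

/-!
# Semilocal cohomology for a cyclic group of prime order
-/

set_option autoImplicit false

namespace Fermat.Agent.GlobalCFT

variable {G Γ M : Type*} [Group G] [Group Γ] [AddCommGroup M] (r : Γ →* G)
  (ρ : Representation ℤ Γ M) (V U : Subgroup G)

/-- double cosets -/
def dc : Setoid G where
  r x y := ∃ δ : Γ, ∃ u ∈ U, y = r δ * x * u
  iseqv :=
    { refl := fun x => ⟨1, 1, U.one_mem, by simp⟩
      symm := by
        rintro x y ⟨δ, u, hu, rfl⟩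
        refine ⟨δ⁻¹, u⁻¹, U.inv_mem hu, ?_⟩
        rw [map_inv]
        group
      trans := by
        rintro x y z ⟨δ, u, hu, rfl⟩ ⟨δ', u', hu', rfl⟩
        refine ⟨δ' * δ, u * u', U.mul_mem hu hu', ?_⟩
        rw [map_mul]
        group }

/-- the set of places -/
abbrev Pl : Type _ := Quotient (dc r U)

/-- the class of an element -/
def cl (x : G) : Pl r U := Quotient.mk (dc r U) x

lemma cl_eq_iff {x y : G} : cl r U x = cl r U y ↔ ∃ δ : Γ, ∃ u ∈ U, y = r δ * x * u := by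
  rw [cl, cl, Quotient.eq]
  exact Iff.rfl

/-- the coinduced module -/
def XV : AddSubgroup (G → M) where
  carrier := {f | (∀ (δ : Γ) (x : G), f (r δ * x) = ρ δ (f x)) ∧ ∀ v ∈ V, ∀ x, f (x * v) = f x}
  zero_mem' := ⟨fun δ x => by simp, fun v _ x => rfl⟩
  add_mem' := by
    rintro f g ⟨hf1, hf2⟩ ⟨hg1, hg2⟩
    refine ⟨fun δ x => ?_, fun v hv x => ?_⟩
    · rw [Pi.add_apply, Pi.add_apply, map_add, hf1, hg1]
    · rw [Pi.add_apply, Pi.add_apply, hf2 v hv, hg2 v hv]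
  neg_mem' := by
    rintro f ⟨hf1, hf2⟩
    refine ⟨fun δ x => ?_, fun v hv x => ?_⟩
    · rw [Pi.neg_apply, Pi.neg_apply, map_neg, hf1]
    · rw [Pi.neg_apply, Pi.neg_apply, hf2 v hv]

variable {r ρ V U}

lemma mem_XV {f : G → M} : f ∈ XV r ρ V ↔ (∀ (δ : Γ) (x : G), f (r δ * x) = ρ δ (f x)) ∧
    ∀ v ∈ V, ∀ x, f (x * v) = f x := Iff.rfl

/-- `V` is normal in `U` with `U / V` cyclic of order `p` generated by `σ`. -/
structure Cyc (V U : Subgroup G) (σ : G) (p : ℕ) : Prop where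
  le : V ≤ U
  mem : σ ∈ U
  prime : p.Prime
  conj : ∀ u ∈ U, ∀ v ∈ V, u * v * u⁻¹ ∈ V
  gen : ∀ u ∈ U, ∃ j < p, ∃ v ∈ V, u = σ ^ j * v
  pow : ∀ j : ℕ, σ ^ j ∈ V ↔ p ∣ j

variable {σ : G} {p : ℕ}

namespace Cyc

variable (C : Cyc V U σ p)
include C

lemma conj' {u v : G} (hu : u ∈ U) (hv : v ∈ V) : u⁻¹ * v * u ∈ V := by
  have := C.conj u⁻¹ (U.inv_mem hu) v hv
  rwa [inv_inv] at this

lemma pow_mem (j : ℕ) : σ ^ j ∈ U := U.pow_mem C.mem j

/-- moving `σ^j` past `V` -/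
lemma comm (j : ℕ) {v : G} (hv : v ∈ V) : ∃ v' ∈ V, v * σ ^ j = σ ^ j * v' :=
  ⟨(σ ^ j)⁻¹ * v * σ ^ j, C.conj' (C.pow_mem j) hv, by group⟩

lemma pos : 0 < p := C.prime.pos

/-- General extension lemma. -/
theorem exists_ext (x : Pl r U → G) (hx : ∀ c, cl r U (x c) = c) (Gc : Pl r U → ℕ → M)
    (compat : ∀ c τ j j', j < p → j' < p → ∀ v ∈ V, r τ * (x c * σ ^ j) = x c * σ ^ j' * v →
      ρ τ (Gc c j) = Gc c j') :
    ∃ g ∈ XV r ρ V, ∀ c, ∀ j < p, g (x c * σ ^ j) = Gc c j := by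
  have key : ∀ y : G, ∃ τ : Γ, ∃ j < p, ∃ v ∈ V, y = r τ * (x (cl r U y) * σ ^ j) * v := by
    intro y
    have h1 : cl r U (x (cl r U y)) = cl r U y := hx _
    obtain ⟨τ, u, hu, h2⟩ := (cl_eq_iff r U).mp h1
    obtain ⟨j, hj, v, hv, rfl⟩ := C.gen u hu
    exact ⟨τ, j, hj, v, hv, h2.trans (by group)⟩
  choose τ j hj v hv hy using key
  have char : ∀ (y : G) (c : Pl r U) (τ' : Γ) (j' : ℕ) (v' : G), j' < p → v' ∈ V →
      y = r τ' * (x c * σ ^ j') * v' → ρ (τ y) (Gc (cl r U y) (j y)) = ρ τ' (Gc c j') := by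
    intro y c τ' j' v' hj' hv' hy'
    have hc : cl r U y = c := by
      rw [← hx c]
      symm
      rw [cl_eq_iff]
      exact ⟨τ', σ ^ j' * v', U.mul_mem (C.pow_mem j') (C.le hv'), by rw [hy']; group⟩
    have h1 := hy y
    rw [hc] at h1 ⊢
    have h2 : r (τ'⁻¹ * τ y) * (x c * σ ^ (j y)) = x c * σ ^ j' * (v' * (v y)⁻¹) := by
      rw [map_mul, map_inv]
      have h3 : r (τ y) * (x c * σ ^ (j y)) = y * (v y)⁻¹ := by
        rw [eq_mul_inv_iff_mul_eq]; exact h1.symm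
      rw [mul_assoc, h3, hy']
      group
    have h4 := compat c (τ'⁻¹ * τ y) (j y) j' (hj y) hj' _ (V.mul_mem hv' (V.inv_mem (hv y))) h2
    rw [← h4, map_mul, Module.End.mul_apply, ← Module.End.mul_apply (ρ τ'), ← map_mul,
      mul_inv_cancel, map_one, Module.End.one_apply]
  refine ⟨fun y => ρ (τ y) (Gc (cl r U y) (j y)), ⟨fun δ y => ?_, fun w hw y => ?_⟩, ?_⟩
  · have h1 := char (r δ * y) (cl r U y) (δ * τ y) (j y) (v y) (hj y) (hv y) (by
      conv_lhs => rw [hy y]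
      rw [map_mul]
      group)
    change ρ (τ (r δ * y)) (Gc (cl r U (r δ * y)) (j (r δ * y))) = _
    rw [h1, map_mul]
    rfl
  · exact char (y * w) (cl r U y) (τ y) (j y) (v y * w) (hj y) (V.mul_mem (hv y) hw) (by
      conv_lhs => rw [hy y]
      group)
  · intro c j' hj'
    have h1 := char (x c * σ ^ j') c 1 j' 1 hj' V.one_mem (by simp)
    change ρ (τ (x c * σ ^ j')) _ = _
    rw [h1, map_one]
    rfl

/-- A function in `XV` is determined by its values on the representatives. -/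
theorem ext (x : Pl r U → G) (hx : ∀ c, cl r U (x c) = c) {f g : G → M} (hf : f ∈ XV r ρ V)
    (hg : g ∈ XV r ρ V) (h : ∀ c, ∀ j < p, f (x c * σ ^ j) = g (x c * σ ^ j)) : f = g := by
  funext y
  have h1 : cl r U (x (cl r U y)) = cl r U y := hx _
  obtain ⟨τ, u, hu, h2⟩ := (cl_eq_iff r U).mp h1
  obtain ⟨j, hj, v, hv, rfl⟩ := C.gen u hu
  have h3 : y = r τ * (x (cl r U y) * σ ^ j) * v := by
    conv_lhs => rw [h2]
    group
  rw [h3, hf.2 v hv, hg.2 v hv, hf.1, hg.1, h _ j hj]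

/-- The difference operator preserves `XV`. -/
lemma transl_mem {f : G → M} (hf : f ∈ XV r ρ V) (j : ℕ) : (fun y => f (y * σ ^ j)) ∈ XV r ρ V := by
  refine ⟨fun δ y => ?_, fun v hv y => ?_⟩
  · change f (r δ * y * σ ^ j) = ρ δ (f (y * σ ^ j))
    rw [mul_assoc, hf.1]
  · change f (y * v * σ ^ j) = f (y * σ ^ j)
    obtain ⟨v', hv', h⟩ := C.comm j hv
    rw [mul_assoc, h, ← mul_assoc, hf.2 v' hv']

lemma nm_mem {f : G → M} (hf : f ∈ XV r ρ V) :
    (fun y => ∑ j ∈ Finset.range p, f (y * σ ^ j)) ∈ XV r ρ V := by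
  have : (fun y => ∑ j ∈ Finset.range p, f (y * σ ^ j)) =
      ∑ j ∈ Finset.range p, (fun y => f (y * σ ^ j)) := by
    funext y; simp
  rw [this]
  exact sum_mem fun j _ => C.transl_mem hf j

lemma nm_mem' {f : G → M} (hf : f ∈ XV r ρ V) :
    (fun y => ∑ j ∈ Finset.range p, f (y * σ ^ j)) ∈ XV r ρ U := by
  have h := C.nm_mem hf
  refine ⟨h.1, ?_⟩
  have hs : ∀ y, ∑ j ∈ Finset.range p, f (y * σ * σ ^ j) = ∑ j ∈ Finset.range p, f (y * σ ^ j) := by
    intro y
    have h1 : ∀ j, f (y * σ * σ ^ j) = f (y * σ ^ (j + 1)) := fun j => by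
      rw [pow_succ', mul_assoc]
    rw [Finset.sum_congr rfl fun j _ => h1 j]
    have h2 := Finset.sum_range_succ' (fun j => f (y * σ ^ j)) p
    have h3 := Finset.sum_range_succ (fun j => f (y * σ ^ j)) p
    have h4 : f (y * σ ^ p) = f (y * σ ^ 0) := by
      rw [hf.2 _ ((C.pow p).mpr dvd_rfl), pow_zero, mul_one]
    rw [h3, h4] at h2
    exact (add_right_cancel h2).symm
  have hs' : ∀ (k : ℕ) y, ∑ j ∈ Finset.range p, f (y * σ ^ k * σ ^ j) =
      ∑ j ∈ Finset.range p, f (y * σ ^ j) := by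
    intro k
    induction k with
    | zero => intro y; simp
    | succ k ih => intro y; rw [pow_succ, ← mul_assoc, hs, ih]
  intro u hu y
  obtain ⟨k, -, v, hv, rfl⟩ := C.gen u hu
  change ∑ j ∈ Finset.range p, f (y * (σ ^ k * v) * σ ^ j) = ∑ j ∈ Finset.range p, f (y * σ ^ j)
  rw [← hs' k y]
  have h5 := h.2 v hv (y * σ ^ k)
  rw [mul_assoc] at h5
  exact h5

end Cyc

variable (r V σ) in
/-- `x` is a nonsplit place: there is a local automorphism inducing `σ`. -/
def NonSplit (x : G) : Prop := ∃ δ : Γ, ∃ v ∈ V, r δ * x = x * σ * v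

namespace Cyc

variable (C : Cyc V U σ p)
include C

lemma delta_pow {x : G} {δ : Γ} {v : G} (hv : v ∈ V) (h : r δ * x = x * σ * v) (j : ℕ) :
    ∃ v' ∈ V, r (δ ^ j) * x = x * σ ^ j * v' := by
  induction j with
  | zero => exact ⟨1, V.one_mem, by simp⟩
  | succ j ih =>
    obtain ⟨v', hv', h'⟩ := ih
    obtain ⟨v'', hv'', h''⟩ := C.comm j hv
    refine ⟨v'' * v', V.mul_mem hv'' hv', ?_⟩
    rw [pow_succ', map_mul, mul_assoc, h', ← mul_assoc, ← mul_assoc, h, mul_assoc (x * σ) v, h'',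
      pow_succ']
    group

/-- split places: the cosets `x σ^j V` are in different double cosets -/
lemma split_aux {x : G} (hns : ¬ NonSplit r V σ x) {τ : Γ} {j j' : ℕ} (hj : j < p) (hj' : j' < p)
    {v : G} (hv : v ∈ V) (h : r τ * (x * σ ^ j) = x * σ ^ j' * v) :
    j = j' ∧ ∃ w ∈ V, r τ * x = x * w := by
  -- `r τ x = x σ^(j' - j) w`
  have hmain : ∀ (τ : Γ) (n : ℕ) (w : G), w ∈ V → r τ * x = x * σ ^ n * w → p ∣ n := by
    intro τ n w hw hτ
    by_contra hpn
    -- choose `m` with `n m = 1 mod p`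
    have hcop : Nat.Coprime n p :=
      Nat.coprime_comm.mp ((C.prime.coprime_iff_not_dvd).mpr hpn)
    obtain ⟨m, hm⟩ : ∃ m : ℕ, n * m ≡ 1 [MOD p] := by
      have hp : Fact p.Prime := ⟨C.prime⟩
      have h1 : IsUnit (n : ZMod p) := (ZMod.isUnit_iff_coprime n p).mpr hcop
      obtain ⟨u, hu⟩ := h1
      refine ⟨(↑(u⁻¹) : ZMod p).val, ?_⟩
      rw [← ZMod.natCast_eq_natCast_iff, Nat.cast_mul, ZMod.natCast_val, ZMod.cast_id, ← hu,
        Units.mul_inv, Nat.cast_one]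
    apply hns
    -- `r (τ^m) x = x σ^(n m) w'`
    have hpow : ∀ k : ℕ, ∃ w' ∈ V, r (τ ^ k) * x = x * σ ^ (n * k) * w' := by
      intro k
      induction k with
      | zero => exact ⟨1, V.one_mem, by simp⟩
      | succ k ih =>
        obtain ⟨w', hw', h'⟩ := ih
        obtain ⟨w'', hw'', h''⟩ := C.comm (n * k) hw
        refine ⟨w'' * w', V.mul_mem hw'' hw', ?_⟩
        rw [pow_succ', map_mul, mul_assoc, h', ← mul_assoc, ← mul_assoc, hτ,
          mul_assoc (x * σ ^ n) w, h'', mul_add, mul_one, add_comm, pow_add]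
        group
    obtain ⟨w', hw', h'⟩ := hpow m
    obtain ⟨q, hq⟩ : ∃ q, n * m = 1 + p * q := by
      refine ⟨n * m / p, ?_⟩
      have h1 := Nat.mod_add_div (n * m) p
      have h2 : n * m % p = 1 % p := hm
      rw [Nat.mod_eq_of_lt C.prime.one_lt] at h2
      omega
    refine ⟨τ ^ m, σ ^ (p * q) * w', V.mul_mem ((C.pow _).mpr (Dvd.intro q rfl)) hw', ?_⟩
    rw [h', hq, pow_add, pow_one]
    group
  rcases le_total j j' with hle | hle
  · obtain ⟨w, hw, hcomm⟩ := C.comm (p - j) hv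
    -- multiply by `σ^(p - j)`
    have h1 : r τ * x = x * σ ^ (j' + (p - j)) * (w * (σ ^ p)⁻¹) := by
      have h2 : r τ * (x * σ ^ j) * σ ^ (p - j) = x * σ ^ j' * v * σ ^ (p - j) := by rw [h]
      have h3 : r τ * (x * σ ^ j) * σ ^ (p - j) = r τ * x * σ ^ p := by
        rw [← mul_assoc, mul_assoc (r τ * x), ← pow_add]
        congr 2
        omega
      rw [h3, mul_assoc (x * σ ^ j'), hcomm] at h2
      rw [eq_mul_inv_iff_mul_eq.mpr h2, pow_add]
      group
    have hw2 : w * (σ ^ p)⁻¹ ∈ V := V.mul_mem hw (V.inv_mem ((C.pow p).mpr dvd_rfl))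
    have h2 := hmain τ _ _ hw2 h1
    have h3 : j = j' := by
      obtain ⟨q, hq⟩ := h2
      have h4 : p * q < p * 2 := by omega
      have h5 : q < 2 := Nat.lt_of_mul_lt_mul_left h4
      have h6 : 0 < p * q := by omega
      have h7 : q ≠ 0 := by rintro rfl; simp at h6
      have h8 : q = 1 := by omega
      rw [h8] at hq
      omega
    refine ⟨h3, σ ^ (j' + (p - j)) * (w * (σ ^ p)⁻¹), V.mul_mem ((C.pow _).mpr h2) hw2, ?_⟩
    rw [h1]
    group
  · obtain ⟨w, hw, hcomm⟩ := C.comm (p - j) hv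
    have h1 : r τ * x = x * σ ^ (j' + (p - j)) * (w * (σ ^ p)⁻¹) := by
      have h2 : r τ * (x * σ ^ j) * σ ^ (p - j) = x * σ ^ j' * v * σ ^ (p - j) := by rw [h]
      have h3 : r τ * (x * σ ^ j) * σ ^ (p - j) = r τ * x * σ ^ p := by
        rw [← mul_assoc, mul_assoc (r τ * x), ← pow_add]
        congr 2
        omega
      rw [h3, mul_assoc (x * σ ^ j'), hcomm] at h2
      rw [eq_mul_inv_iff_mul_eq.mpr h2, pow_add]
      group
    have hw2 : w * (σ ^ p)⁻¹ ∈ V := V.mul_mem hw (V.inv_mem ((C.pow p).mpr dvd_rfl))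
    have h2 := hmain τ _ _ hw2 h1
    have h3 : j = j' := by
      obtain ⟨q, hq⟩ := h2
      have h6 : 0 < p * q := by omega
      have h7 : q ≠ 0 := by rintro rfl; simp at h6
      have h4 : p * q < p * 2 := by omega
      have h5 : q < 2 := Nat.lt_of_mul_lt_mul_left h4
      have h8 : q = 1 := by omega
      rw [h8] at hq
      omega
    refine ⟨h3, σ ^ (j' + (p - j)) * (w * (σ ^ p)⁻¹), V.mul_mem ((C.pow _).mpr h2) hw2, ?_⟩
    rw [h1]
    group

/-- **Semilocal Hilbert 90.** -/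
theorem semilocal_h90 {f : G → M} (hf : f ∈ XV r ρ V)
    (hN : ∀ y, ∑ j ∈ Finset.range p, f (y * σ ^ j) = 0)
    (hloc : ∀ x : G, ∀ δ : Γ, ∀ v ∈ V, r δ * x = x * σ * v → ∀ m : M,
      (∀ τ : Γ, ∀ w ∈ V, r τ * x = x * w → ρ τ m = m) →
      ∑ j ∈ Finset.range p, ρ (δ ^ j) m = 0 →
      ∃ n : M, (∀ τ : Γ, ∀ w ∈ V, r τ * x = x * w → ρ τ n = n) ∧ ρ δ n - n = m) :
    ∃ g ∈ XV r ρ V, ∀ y, g (y * σ) - g y = f y := by
  classical
  let x : Pl r U → G := Quotient.out
  have hx : ∀ c, cl r U (x c) = c := fun c => Quotient.out_eq c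
  -- the local solutions at nonsplit places
  have hns : ∀ c, NonSplit r V σ (x c) → ∃ δ : Γ, ∃ v ∈ V, ∃ n : M,
      r δ * x c = x c * σ * v ∧ (∀ τ : Γ, ∀ w ∈ V, r τ * x c = x c * w → ρ τ n = n) ∧
      ρ δ n - n = f (x c) := by
    rintro c ⟨δ, v, hv, h⟩
    obtain ⟨n, h1, h2⟩ := hloc (x c) δ v hv h (f (x c)) (by
      intro τ w hw hτ
      rw [← hf.1, hτ, hf.2 w hw]) (by
      rw [← hN (x c)]
      refine Finset.sum_congr rfl fun j _ => ?_
      obtain ⟨v', hv', h'⟩ := C.delta_pow hv h j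
      rw [← hf.1, h', hf.2 v' hv'])
    exact ⟨δ, v, hv, n, h, h1, h2⟩
  choose! δ v hv n hδ hn1 hn2 using hns
  let Gc : Pl r U → ℕ → M := fun c j =>
    if NonSplit r V σ (x c) then ρ (δ c ^ j) (n c) else ∑ k ∈ Finset.range j, f (x c * σ ^ k)
  have hval : ∀ c, Gc c p = Gc c 0 := by
    intro c
    simp only [Gc]
    split_ifs with h
    · obtain ⟨v', hv', h'⟩ := C.delta_pow (hv c h) (hδ c h) p
      rw [hn1 c h (δ c ^ p) (σ ^ p * v') (V.mul_mem ((C.pow p).mpr dvd_rfl) hv')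
        (by rw [h']; group), pow_zero, map_one]
      rfl
    · rw [hN, Finset.range_zero, Finset.sum_empty]
  have hstep : ∀ c j, Gc c (j + 1) - Gc c j = f (x c * σ ^ j) := by
    intro c j
    simp only [Gc]
    split_ifs with h
    · obtain ⟨v', hv', h'⟩ := C.delta_pow (hv c h) (hδ c h) j
      rw [pow_succ, map_mul, Module.End.mul_apply, ← map_sub, hn2 c h, ← hf.1, h', hf.2 v' hv']
    · rw [Finset.sum_range_succ, add_sub_cancel_left]
  obtain ⟨g, hg, hgv⟩ := C.exists_ext (ρ := ρ) x hx Gc (by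
    intro c τ j j' hj hj' w hw h
    simp only [Gc]
    split_ifs with hc
    · obtain ⟨v₁, hv₁, h₁⟩ := C.delta_pow (hv c hc) (hδ c hc) j
      obtain ⟨v₂, hv₂, h₂⟩ := C.delta_pow (hv c hc) (hδ c hc) j'
      have h3 : r ((δ c ^ j')⁻¹ * τ * δ c ^ j) * x c = x c * (v₂⁻¹ * w * v₁) := by
        rw [map_mul, map_mul, map_inv, mul_assoc, h₁, ← mul_assoc, mul_assoc _ (r τ), h,
          ← mul_assoc]
        have h4 : (r (δ c ^ j'))⁻¹ * (x c * σ ^ j') = x c * v₂⁻¹ := by
          rw [inv_mul_eq_iff_eq_mul, ← mul_assoc, h₂]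
          group
        rw [h4]
        group
      have h5 := hn1 c hc _ _ (V.mul_mem (V.mul_mem (V.inv_mem hv₂) hw) hv₁) h3
      rw [← Module.End.mul_apply, ← map_mul]
      conv_rhs => rw [← h5]
      rw [← Module.End.mul_apply, ← map_mul]
      congr 2
      group
    · obtain ⟨rfl, w', hw', h'⟩ := C.split_aux hc hj hj' hw h
      rw [map_sum]
      refine Finset.sum_congr rfl fun k _ => ?_
      obtain ⟨w'', hw'', h''⟩ := C.comm k hw'
      rw [← hf.1, ← mul_assoc, h', mul_assoc, h'', ← mul_assoc, hf.2 w'' hw''])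
  refine ⟨g, hg, ?_⟩
  have hgp : ∀ c, ∀ j ≤ p, g (x c * σ ^ j) = Gc c j := by
    intro c j hj
    rcases hj.lt_or_eq with h | h
    · exact hgv c j h
    · rw [h, hval, ← hgv c 0 C.pos, pow_zero, mul_one, hg.2 _ ((C.pow p).mpr dvd_rfl)]
  have hfun : (fun y => g (y * σ ^ 1)) - g = f := by
    apply C.ext x hx (sub_mem (C.transl_mem hg 1) hg) hf
    intro c j hj
    rw [Pi.sub_apply, mul_assoc, ← pow_add, hgp c (j + 1) hj, hgp c j hj.le, hstep]
  intro y
  have := congrFun hfun y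
  rw [Pi.sub_apply, pow_one] at this
  exact this

/-- **Semilocal norms.** -/
theorem semilocal_norm {f : G → M} (hf : f ∈ XV r ρ U)
    (hloc : ∀ c : Pl r U, NonSplit r V σ c.out → ∀ δ : Γ, ∀ v ∈ V,
      r δ * c.out = c.out * σ * v → ∃ n : M,
      (∀ τ : Γ, ∀ w ∈ V, r τ * c.out = c.out * w → ρ τ n = n) ∧
      ∑ j ∈ Finset.range p, ρ (δ ^ j) n = f c.out) :
    ∃ g ∈ XV r ρ V, ∀ y, ∑ j ∈ Finset.range p, g (y * σ ^ j) = f y := by
  classical
  let x : Pl r U → G := Quotient.out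
  have hx : ∀ c, cl r U (x c) = c := fun c => Quotient.out_eq c
  have hns : ∀ c, NonSplit r V σ (x c) → ∃ δ : Γ, ∃ v ∈ V, ∃ n : M,
      r δ * x c = x c * σ * v ∧ (∀ τ : Γ, ∀ w ∈ V, r τ * x c = x c * w → ρ τ n = n) ∧
      ∑ j ∈ Finset.range p, ρ (δ ^ j) n = f (x c) := by
    intro c hc
    obtain ⟨δ, v, hv, h⟩ := hc
    obtain ⟨n, h1, h2⟩ := hloc c ⟨δ, v, hv, h⟩ δ v hv h
    exact ⟨δ, v, hv, n, h, h1, h2⟩
  choose! δ v hv n hδ hn1 hn2 using hns
  let Gc : Pl r U → ℕ → M := fun c j =>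
    if NonSplit r V σ (x c) then ρ (δ c ^ j) (n c) else if j = 0 then f (x c) else 0
  obtain ⟨g, hg, hgv⟩ := C.exists_ext (ρ := ρ) x hx Gc (by
    intro c τ j j' hj hj' w hw h
    simp only [Gc]
    split_ifs with hc h0 h0' h0'
    · obtain ⟨v₁, hv₁, h₁⟩ := C.delta_pow (hv c hc) (hδ c hc) j
      obtain ⟨v₂, hv₂, h₂⟩ := C.delta_pow (hv c hc) (hδ c hc) j'
      have h3 : r ((δ c ^ j')⁻¹ * τ * δ c ^ j) * x c = x c * (v₂⁻¹ * w * v₁) := by
        rw [map_mul, map_mul, map_inv, mul_assoc, h₁, ← mul_assoc, mul_assoc _ (r τ), h,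
          ← mul_assoc]
        have h4 : (r (δ c ^ j'))⁻¹ * (x c * σ ^ j') = x c * v₂⁻¹ := by
          rw [inv_mul_eq_iff_eq_mul, ← mul_assoc, h₂]
          group
        rw [h4]
        group
      have h5 := hn1 c hc _ _ (V.mul_mem (V.mul_mem (V.inv_mem hv₂) hw) hv₁) h3
      rw [← Module.End.mul_apply, ← map_mul]
      conv_rhs => rw [← h5]
      rw [← Module.End.mul_apply, ← map_mul]
      congr 2
      group
    · obtain ⟨rfl, w', hw', h'⟩ := C.split_aux hc hj hj' hw h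
      rw [← hf.1, h', hf.2 w' (C.le hw')]
    · obtain ⟨rfl, w', hw', h'⟩ := C.split_aux hc hj hj' hw h
      exact absurd h0 h0'
    · obtain ⟨rfl, w', hw', h'⟩ := C.split_aux hc hj hj' hw h
      exact absurd h0' h0
    · rw [map_zero])
  refine ⟨g, hg, ?_⟩
  have hfV : f ∈ XV r ρ V := ⟨hf.1, fun w hw => hf.2 w (C.le hw)⟩
  have hsum : ∀ c, ∑ j ∈ Finset.range p, g (x c * σ ^ j) = f (x c) := by
    intro c
    rw [Finset.sum_congr rfl fun j hj => hgv c j (Finset.mem_range.mp hj)]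
    simp only [Gc]
    split_ifs with hc
    · exact hn2 c hc
    · rw [Finset.sum_ite_eq' (Finset.range p) 0 (fun _ => f (x c)),
        if_pos (Finset.mem_range.mpr C.pos)]
  have hfun : (fun y => ∑ j ∈ Finset.range p, g (y * σ ^ j)) = f := by
    apply C.ext x hx (C.nm_mem hg) hfV
    intro c j _
    have h1 := (C.nm_mem' hg).2 (σ ^ j) (C.pow_mem j) (x c)
    refine h1.trans ?_
    rw [hf.2 (σ ^ j) (C.pow_mem j)]
    exact hsum c
  intro y
  exact congrFun hfun y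

end Cyc

/-! ### Values and counting -/

variable (r ρ) in
/-- local invariants -/
def fixM (W : Subgroup G) (x : G) : AddSubgroup M where
  carrier := {m | ∀ τ : Γ, ∀ w ∈ W, r τ * x = x * w → ρ τ m = m}
  zero_mem' := fun τ _ _ _ => map_zero _
  add_mem' := fun {a b} ha hb τ w hw h => by rw [map_add, ha τ w hw h, hb τ w hw h]
  neg_mem' := fun {a} ha τ w hw h => by rw [map_neg, ha τ w hw h]

lemma mem_fixM {W : Subgroup G} {x : G} {m : M} :
    m ∈ fixM r ρ W x ↔ ∀ τ : Γ, ∀ w ∈ W, r τ * x = x * w → ρ τ m = m := Iff.rfl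

lemma apply_mem_fixM {W : Subgroup G} {f : G → M} (hf : f ∈ XV r ρ W) (x : G) :
    f x ∈ fixM r ρ W x := by
  intro τ w hw h
  rw [← hf.1, h, hf.2 w hw]

lemma fixM_mono {W W' : Subgroup G} (h : W ≤ W') (x : G) : fixM r ρ W' x ≤ fixM r ρ W x :=
  fun _ hm τ w hw hτ => hm τ w (h hw) hτ

variable (ρ) in
/-- the local norm -/
def locN (p : ℕ) (δ : Γ) : M →+ M := ∑ j ∈ Finset.range p, (ρ (δ ^ j) : M →ₗ[ℤ] M).toAddMonoidHom

lemma locN_apply (p : ℕ) (δ : Γ) (m : M) : locN ρ p δ m = ∑ j ∈ Finset.range p, ρ (δ ^ j) m := by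
  rw [locN, AddMonoidHom.finsetSum_apply]
  rfl

variable (G M) in
/-- the norm on functions -/
def nmX (σ : G) (p : ℕ) : (G → M) →+ (G → M) where
  toFun f := fun y => ∑ j ∈ Finset.range p, f (y * σ ^ j)
  map_zero' := by funext y; simp
  map_add' f g := by funext y; simp [Finset.sum_add_distrib]

lemma nmX_apply (f : G → M) (y : G) : nmX G M σ p f y = ∑ j ∈ Finset.range p, f (y * σ ^ j) := rfl

namespace Cyc

variable (C : Cyc V U σ p)
include C

/-- functions in `XV r ρ U` have arbitrary values on the representatives. -/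
theorem exists_ext_U (m : Pl r U → M) (hm : ∀ c, m c ∈ fixM r ρ U c.out) :
    ∃ g ∈ XV r ρ U, ∀ c : Pl r U, g c.out = m c := by
  let x : Pl r U → G := Quotient.out
  have hx : ∀ c, cl r U (x c) = c := fun c => Quotient.out_eq c
  obtain ⟨g, hg, hgv⟩ := C.exists_ext (ρ := ρ) x hx (fun c _ => m c) (by
    intro c τ j j' _ _ w hw h
    refine hm c τ (σ ^ j' * w * (σ ^ j)⁻¹) (U.mul_mem (U.mul_mem (C.pow_mem j') (C.le hw))
      (U.inv_mem (C.pow_mem j))) ?_
    change r τ * x c = x c * (σ ^ j' * w * (σ ^ j)⁻¹)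
    rw [← mul_assoc, ← mul_assoc, ← h]
    group)
  have hg0 : ∀ c, g (x c) = m c := fun c => by
    have := hgv c 0 C.pos
    rwa [pow_zero, mul_one] at this
  have hgσ : (fun y => g (y * σ ^ 1)) = g := by
    apply C.ext x hx (C.transl_mem hg 1) hg
    intro c j hj
    rw [hgv c j hj, mul_assoc, ← pow_add]
    rcases (Nat.succ_le_of_lt hj).lt_or_eq with h | h
    · exact hgv c (j + 1) h
    · change j + 1 = p at h
      rw [h, hg.2 _ ((C.pow p).mpr dvd_rfl), hg0]
  have hgσ' : ∀ (k : ℕ) y, g (y * σ ^ k) = g y := by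
    intro k
    induction k with
    | zero => intro y; simp
    | succ k ih =>
      intro y
      rw [pow_succ, ← mul_assoc]
      have := congrFun hgσ (y * σ ^ k)
      rw [pow_one] at this
      rw [this, ih]
  refine ⟨g, ⟨hg.1, ?_⟩, hg0⟩
  intro u hu y
  obtain ⟨k, -, v, hv, rfl⟩ := C.gen u hu
  rw [← mul_assoc, hg.2 v hv, hgσ']

/-- **The index of the norms.** -/
theorem norm_index [Finite (Pl r U)]
    (hloc : ∀ x : G, ∀ δ : Γ, ∀ v ∈ V, r δ * x = x * σ * v →
      ((fixM r ρ V x).map (locN ρ p δ)).relIndex (fixM r ρ U x) = p) :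
    ((XV r ρ V).map (nmX G M σ p)).relIndex (XV r ρ U) =
      p ^ Nat.card {c : Pl r U // NonSplit r V σ c.out} := by
  classical
  have := Fintype.ofFinite (Pl r U)
  let I := {c : Pl r U // NonSplit r V σ c.out}
  have hδ : ∀ c : I, ∃ δ : Γ, ∃ v ∈ V, r δ * c.1.out = c.1.out * σ * v := fun c => c.2
  choose δ v hv hδ using hδ
  let N : ∀ c : I, AddSubgroup (fixM r ρ U c.1.out) := fun c =>
    ((fixM r ρ V c.1.out).map (locN ρ p (δ c))).addSubgroupOf (fixM r ρ U c.1.out)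
  let Φ : XV r ρ U →+ ∀ c : I, (fixM r ρ U c.1.out) ⧸ (N c) :=
    { toFun := fun f c => QuotientAddGroup.mk ⟨f.1 c.1.out, apply_mem_fixM f.2 _⟩
      map_zero' := by
        funext c
        rfl
      map_add' := fun f g => by
        funext c
        rfl }
  have hsurj : Function.Surjective Φ := by
    intro q
    choose m hm using fun c : I => QuotientAddGroup.mk_surjective (q c)
    obtain ⟨g, hg, hgv⟩ := C.exists_ext_U (r := r) (ρ := ρ)
      (fun c => if h : NonSplit r V σ c.out then (m ⟨c, h⟩ : M) else 0) (by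
      intro c
      split_ifs with h
      · exact (m ⟨c, h⟩).2
      · exact zero_mem _)
    refine ⟨⟨g, hg⟩, ?_⟩
    funext c
    rw [← hm c]
    change QuotientAddGroup.mk _ = QuotientAddGroup.mk _
    congr 1
    apply Subtype.ext
    change g c.1.out = _
    rw [hgv c.1, dif_pos c.2]
  have hker : Φ.ker = ((XV r ρ V).map (nmX G M σ p)).addSubgroupOf (XV r ρ U) := by
    ext f
    rw [AddMonoidHom.mem_ker, AddSubgroup.mem_addSubgroupOf]
    have h1 : Φ f = 0 ↔ ∀ c : I, f.1 c.1.out ∈ (fixM r ρ V c.1.out).map (locN ρ p (δ c)) := by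
      constructor
      · intro h c
        have h2 := congrFun h c
        have h3 : (QuotientAddGroup.mk (⟨f.1 c.1.out, apply_mem_fixM f.2 _⟩ :
          fixM r ρ U c.1.out) : (fixM r ρ U c.1.out) ⧸ (N c)) = 0 := h2
        rw [QuotientAddGroup.eq_zero_iff] at h3
        exact h3
      · intro h
        funext c
        change (QuotientAddGroup.mk (⟨f.1 c.1.out, apply_mem_fixM f.2 _⟩ :
          fixM r ρ U c.1.out) : (fixM r ρ U c.1.out) ⧸ (N c)) = 0
        rw [QuotientAddGroup.eq_zero_iff]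
        exact h c
    rw [h1]
    constructor
    · intro h
      obtain ⟨g, hg, hgf⟩ := C.semilocal_norm (ρ := ρ) f.2 (by
        intro c hc δ' v' hv' hδ'
        -- the norm group does not depend on `δ`
        obtain ⟨n, hn, hnf⟩ := h ⟨c, hc⟩
        refine ⟨n, hn, ?_⟩
        rw [← hnf, locN_apply]
        refine Finset.sum_congr rfl fun j _ => ?_
        obtain ⟨v₁, hv₁, h₁⟩ := C.delta_pow hv' hδ' j
        obtain ⟨v₂, hv₂, h₂⟩ := C.delta_pow (hv ⟨c, hc⟩) (hδ ⟨c, hc⟩) j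
        have h3 : r ((δ ⟨c, hc⟩ ^ j)⁻¹ * δ' ^ j) * c.out = c.out * (v₂⁻¹ * v₁) := by
          rw [map_mul, map_inv, mul_assoc, h₁, inv_mul_eq_iff_eq_mul, ← mul_assoc]
          change _ = r (δ ⟨c, hc⟩ ^ j) * (⟨c, hc⟩ : I).1.out * _
          rw [h₂]
          group
        have h4 := hn _ _ (V.mul_mem (V.inv_mem hv₂) hv₁) h3
        conv_rhs => rw [← h4]
        rw [← Module.End.mul_apply, ← map_mul]
        congr 2
        group)
      exact ⟨g, hg, funext hgf⟩
    · rintro ⟨g, hg, hgf⟩ c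
      refine ⟨g c.1.out, apply_mem_fixM hg _, ?_⟩
      rw [locN_apply, ← hgf]
      change _ = ∑ j ∈ Finset.range p, g (c.1.out * σ ^ j)
      refine Finset.sum_congr rfl fun j _ => ?_
      obtain ⟨v₂, hv₂, h₂⟩ := C.delta_pow (hv c) (hδ c) j
      rw [← hg.1, h₂, hg.2 v₂ hv₂]
  rw [AddSubgroup.relIndex, ← hker, AddSubgroup.index_ker,
    AddMonoidHom.range_eq_top.mpr hsurj]
  have h1 : Nat.card (⊤ : AddSubgroup (∀ c : I, (fixM r ρ U c.1.out) ⧸ (N c))) =
      Nat.card (∀ c : I, (fixM r ρ U c.1.out) ⧸ (N c)) := AddSubgroup.card_top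
  rw [h1, Nat.card_pi]
  have h2 : ∀ c : I, Nat.card ((fixM r ρ U c.1.out) ⧸ (N c)) = p := fun c =>
    hloc c.1.out (δ c) (v c) (hv c) (hδ c)
  rw [Finset.prod_congr rfl fun c _ => h2 c, Finset.prod_const, Finset.card_univ,
    Nat.card_eq_fintype_card]

/-- The number of places. -/
theorem card_places [Finite (Pl r U)] :
    p * Nat.card (Pl r U) =
      Nat.card (Pl r V) + (p - 1) * Nat.card {c : Pl r U // NonSplit r V σ c.out} ∧
      Finite (Pl r V) := by
  classical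
  let x : Pl r U → G := Quotient.out
  have hx : ∀ c, cl r U (x c) = c := fun c => Quotient.out_eq c
  -- the parametrisation of the places of `V`
  let T : Type _ := Σ c : Pl r U, Fin (if NonSplit r V σ (x c) then 1 else p)
  let F : T → Pl r V := fun t => cl r V (x t.1 * σ ^ (t.2 : ℕ))
  have hle : ∀ c, (if NonSplit r V σ (x c) then 1 else p) ≤ p := by
    intro c
    split_ifs
    · exact C.pos
    · exact le_rfl
  have hlt : ∀ (c : Pl r U) (j : Fin (if NonSplit r V σ (x c) then 1 else p)), (j : ℕ) < p :=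
    fun c j => j.2.trans_le (hle c)
  have hF : Function.Bijective F := by
    constructor
    · rintro ⟨c, j⟩ ⟨c', j'⟩ h
      obtain ⟨τ, v, hv, h1⟩ := (cl_eq_iff r V).mp h
      have h1' : x c' * σ ^ (j' : ℕ) = r τ * (x c * σ ^ (j : ℕ)) * v := h1
      have hc : c = c' := by
        rw [← hx c, ← hx c', cl_eq_iff]
        refine ⟨τ, σ ^ (j : ℕ) * v * (σ ^ (j' : ℕ))⁻¹, U.mul_mem (U.mul_mem (C.pow_mem _)
          (C.le hv)) (U.inv_mem (C.pow_mem _)), ?_⟩
        calc x c' = (x c' * σ ^ (j' : ℕ)) * (σ ^ (j' : ℕ))⁻¹ := by group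
          _ = _ := by rw [h1']; group
      subst hc
      have hj : (j : ℕ) = j' := by
        by_cases hc : NonSplit r V σ (x c)
        · have h2 : ∀ i : Fin (if NonSplit r V σ (x c) then 1 else p), (i : ℕ) < 1 :=
            fun i => i.2.trans_eq (if_pos hc)
          have h3 := h2 j
          have h4 := h2 j'
          omega
        · have h2 : r τ * (x c * σ ^ (j : ℕ)) = x c * σ ^ (j' : ℕ) * v⁻¹ := by
            rw [h1']; group
          exact (C.split_aux hc (hlt c j) (hlt c j') (V.inv_mem hv) h2).1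
      have : j = j' := Fin.ext hj
      rw [this]
    · intro w
      obtain ⟨y, rfl⟩ : ∃ y, cl r V y = w := Quotient.exists_rep w
      obtain ⟨τ, u, hu, h2⟩ := (cl_eq_iff r U).mp (hx (cl r U y))
      obtain ⟨j, hj, v, hv, rfl⟩ := C.gen u hu
      by_cases hc : NonSplit r V σ (x (cl r U y))
      · obtain ⟨δ, v', hv', hδ⟩ := hc
        obtain ⟨v'', hv'', h''⟩ := C.delta_pow hv' hδ j
        refine ⟨⟨cl r U y, ⟨0, by rw [if_pos ⟨δ, v', hv', hδ⟩]; exact one_pos⟩⟩, ?_⟩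
        change cl r V (x (cl r U y) * σ ^ 0) = cl r V y
        rw [cl_eq_iff]
        refine ⟨τ * δ ^ j, v''⁻¹ * v, V.mul_mem (V.inv_mem hv'') hv, ?_⟩
        refine h2.trans ?_
        rw [pow_zero, mul_one, map_mul, mul_assoc (r τ) (r (δ ^ j)), h'']
        group
      · refine ⟨⟨cl r U y, ⟨j, by rw [if_neg hc]; exact hj⟩⟩, ?_⟩
        change cl r V (x (cl r U y) * σ ^ j) = cl r V y
        rw [cl_eq_iff]
        refine ⟨τ, v, hv, ?_⟩
        exact h2.trans (by group)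
  have hfin : Finite T := by infer_instance
  have := Fintype.ofFinite (Pl r U)
  refine ⟨?_, Finite.of_surjective F hF.2⟩
  rw [← Nat.card_congr (Equiv.ofBijective F hF), Nat.card_sigma]
  have h1 : ∀ c : Pl r U, Nat.card (Fin (if NonSplit r V σ (x c) then 1 else p)) =
      if NonSplit r V σ (x c) then 1 else p := fun c => Nat.card_fin _
  rw [Finset.sum_congr rfl fun c _ => h1 c]
  have h2 : Nat.card {c : Pl r U // NonSplit r V σ c.out} =
      ∑ c : Pl r U, if NonSplit r V σ (x c) then 1 else 0 := by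
    rw [Nat.card_eq_fintype_card, Fintype.card_subtype, Finset.card_filter]
  rw [h2, Nat.card_eq_fintype_card, Finset.mul_sum, ← Finset.sum_add_distrib]
  have h3 : ∀ c : Pl r U, ((if NonSplit r V σ (x c) then 1 else p) +
      (p - 1) * if NonSplit r V σ (x c) then 1 else 0) = p := by
    intro c
    have := C.pos
    split_ifs
    · omega
    · omega
  rw [Finset.sum_congr rfl fun c _ => h3 c, Finset.sum_const, Finset.card_univ, smul_eq_mul,
    mul_comm]

end Cyc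

end Fermat.Agent.GlobalCFT
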