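import Mathlib

/-!
# Semilocal Shapiro lemmas in degrees one and two, on cochains

`r : Δ → Γ` is a homomorphism, `U` a subgroup of `Γ`; we consider functions on `Γ` which are
equivariant under left translation by `Δ`, with `U` acting by right translation.
-/

set_option autoImplicit false

namespace Fermat.Agent.GlobalCFT

section DC

variable {Γ Δ : Type*} [Group Γ] [Group Δ] (r : Δ →* Γ) (U : Subgroup Γ)

/-- the double coset relation -/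
def dcSetoid : Setoid Γ where
  r w w' := ∃ δ : Δ, ∃ u ∈ U, w' = r δ * w * u
  iseqv :=
    { refl := fun w => ⟨1, 1, U.one_mem, by rw [map_one, one_mul, mul_one]⟩
      symm := by
        rintro w w' ⟨δ, u, hu, rfl⟩
        refine ⟨δ⁻¹, u⁻¹, U.inv_mem hu, ?_⟩
        rw [map_inv]
        group
      trans := by
        rintro w w' w'' ⟨δ, u, hu, rfl⟩ ⟨δ', u', hu', rfl⟩
        refine ⟨δ' * δ, u * u', U.mul_mem hu hu', ?_⟩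
        rw [map_mul]
        group }

theorem exists_dcRep : ∃ (X : Γ → Γ) (d : Γ → Δ) (u : Γ → Γ), (∀ w, u w ∈ U) ∧
    (∀ w, w = r (d w) * X w * u w) ∧
    ∀ w (δ : Δ), ∀ v ∈ U, X (r δ * w * v) = X w := by
  have h1 : ∀ w : Γ, ∃ δ : Δ, ∃ u ∈ U,
      w = r δ * (Quotient.out (Quotient.mk (dcSetoid r U) w)) * u := by
    intro w
    exact Quotient.mk_out (s := dcSetoid r U) w
  choose d u hu hw using h1
  refine ⟨fun w => Quotient.out (Quotient.mk (dcSetoid r U) w), d, u, hu, hw, ?_⟩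
  intro w δ v hv
  have : Quotient.mk (dcSetoid r U) (r δ * w * v) = Quotient.mk (dcSetoid r U) w :=
    Quotient.sound (Setoid.symm' _ ⟨δ, v, hv, rfl⟩)
  simp only [this]

variable {r U} {M : Type*} [AddCommGroup M] {ρ : Representation ℤ Δ M}

/-- Shapiro in degree one. -/
theorem shapiro_one (c : Γ → Γ → M)
    (heq : ∀ g ∈ U, ∀ δ w, c g (r δ * w) = ρ δ (c g w))
    (hcoc : ∀ g ∈ U, ∀ h ∈ U, ∀ w, c (g * h) w = c h (w * g) + c g w)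
    (b : Γ → M)
    (hb : ∀ x δ, x⁻¹ * r δ * x ∈ U → c (x⁻¹ * r δ * x) x = ρ δ (b x) - b x) :
    ∃ D : Γ → M, (∀ δ w, D (r δ * w) = ρ δ (D w)) ∧ (∀ g ∈ U, ∀ w, c g w = D (w * g) - D w) ∧
      ∀ w, ∃ (δ : Δ) (x : Γ) (u : Γ), u ∈ U ∧ D w = ρ δ (b x + c u x) := by
  obtain ⟨X, d, u, hu, hw, hX⟩ := exists_dcRep r U
  set D : Γ → M := fun w => ρ (d w) (b (X w) + c (u w) (X w)) with hD
  -- independence of the decomposition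
  have key : ∀ w (δ : Δ) (v : Γ), v ∈ U → w = r δ * X w * v →
      D w = ρ δ (b (X w) + c v (X w)) := by
    intro w δ v hv hwv
    set ε := (d w)⁻¹ * δ with hε
    have h1 : X w * u w = r ε * X w * v := by
      have h2 : r (d w) * (X w * u w) = r (d w) * (r ε * X w * v) := by
        rw [hε, map_mul, map_inv]
        rw [← mul_assoc, ← hw w]
        conv_lhs => rw [hwv]
        group
      exact mul_left_cancel h2
    have h3 : u w = ((X w)⁻¹ * r ε * X w) * v := by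
      have : u w = (X w)⁻¹ * (X w * u w) := by group
      rw [this, h1]
      group
    have h4 : (X w)⁻¹ * r ε * X w ∈ U := by
      have h5 : (X w)⁻¹ * r ε * X w = u w * v⁻¹ := by rw [h3]; group
      rw [h5]
      exact U.mul_mem (hu w) (U.inv_mem hv)
    have h5 : c (u w) (X w) = ρ ε (c v (X w)) + (ρ ε (b (X w)) - b (X w)) := by
      rw [h3, hcoc _ h4 _ hv, hb _ _ h4]
      have h6 : X w * ((X w)⁻¹ * r ε * X w) = r ε * X w := by group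
      rw [h6, heq v hv]
    have h7 : d w * ε = δ := by rw [hε]; group
    change ρ (d w) (b (X w) + c (u w) (X w)) = _
    have h8 : b (X w) + c (u w) (X w) = ρ ε (b (X w) + c v (X w)) := by
      rw [h5, map_add]
      abel
    rw [h8, ← Module.End.mul_apply, ← map_mul, h7]
  refine ⟨D, fun δ w => ?_, fun g hg w => ?_, fun w => ⟨d w, X w, u w, hu w, rfl⟩⟩
  · have hXw : X (r δ * w) = X w := by
      have := hX w δ 1 U.one_mem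
      rwa [mul_one] at this
    have h1 := key (r δ * w) (δ * d w) (u w) (hu w) (by
      rw [hXw, map_mul]
      conv_lhs => rw [hw w]
      group)
    rw [h1, hXw, map_mul, Module.End.mul_apply]
  · have hXw : X (w * g) = X w := by
      have := hX w 1 g hg
      rwa [map_one, one_mul] at this
    have h1 := key (w * g) (d w) (u w * g) (U.mul_mem (hu w) hg) (by
      rw [hXw]
      conv_lhs => rw [hw w]
      group)
    have h2 : D w = ρ (d w) (b (X w) + c (u w) (X w)) := rfl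
    rw [h1, h2, hXw, ← map_sub, hcoc _ (hu w) _ hg]
    have h3 : c g w = ρ (d w) (c g (X w * u w)) := by
      rw [← heq g hg, ← mul_assoc, ← hw w]
    rw [h3]
    congr 1
    abel

end DC

section Two

variable {Γ Δ : Type*} [Group Γ] [Group Δ] {r : Δ →* Γ} {U V : Subgroup Γ}
variable {M : Type*} [AddCommGroup M] {ρ : Representation ℤ Δ M}

/-- One double coset: the homogeneous cochain. -/
theorem shapiro_two_aux (hVn : V.Normal) (F : Γ → Γ → Γ → M)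
    (heq : ∀ g ∈ U, ∀ h ∈ U, ∀ δ w, F g h (r δ * w) = ρ δ (F g h w))
    (hcoc : ∀ g ∈ U, ∀ h ∈ U, ∀ j ∈ U, ∀ w,
      F (g * h) j w + F g h w = F h j (w * g) + F g (h * j) w)
    (hsm : ∀ g ∈ U, ∀ h ∈ U, ∀ v ∈ V, ∀ v' ∈ V, ∀ w, F (g * v) (h * v') w = F g h w)
    (hsm' : ∀ g ∈ U, ∀ h ∈ U, ∀ v ∈ V, ∀ w, F g h (w * v) = F g h w) (_hVU : V ≤ U)
    (x : Γ) (b : Δ → M)
    (hb1 : ∀ δ κ, x⁻¹ * r δ * x ∈ U → x⁻¹ * r κ * x ∈ V → b (δ * κ) = b δ)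
    (hb2 : ∀ δ κ, x⁻¹ * r δ * x ∈ U → x⁻¹ * r κ * x ∈ V → ρ κ (b δ) = b δ)
    (hb : ∀ δ ε, x⁻¹ * r δ * x ∈ U → x⁻¹ * r ε * x ∈ U →
      F (x⁻¹ * r δ * x) (x⁻¹ * r ε * x) x = ρ δ (b ε) - b (δ * ε) + b δ) :
    ∃ A : Γ → Γ → M,
      (∀ δ, x⁻¹ * r δ * x ∈ U → ∀ g₀ ∈ U, ∀ g₁ ∈ U,
        A (x⁻¹ * r δ * x * g₀) (x⁻¹ * r δ * x * g₁) = ρ δ (A g₀ g₁)) ∧
      (∀ g₀ ∈ U, ∀ g₁ ∈ U, ∀ v ∈ V, ∀ v' ∈ V, A (g₀ * v) (g₁ * v') = A g₀ g₁) ∧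
      (∀ g₀ ∈ U, ∀ g₁ ∈ U, ∀ g₂ ∈ U,
        F (g₀⁻¹ * g₁) (g₁⁻¹ * g₂) (x * g₀) = A g₁ g₂ - A g₀ g₂ + A g₀ g₁) := by
  classical
  -- conjugation
  set k : Δ → Γ := fun δ => x⁻¹ * r δ * x with hk
  have kmul : ∀ δ ε, k (δ * ε) = k δ * k ε := fun δ ε => by
    simp only [hk, map_mul]
    group
  have kinv : ∀ δ, k δ⁻¹ = (k δ)⁻¹ := fun δ => by
    simp only [hk, map_inv]
    group
  have kone : k 1 = 1 := by
    simp only [hk, map_one]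
    group
  -- the setoid of double cosets of `U`
  let st : Setoid Γ :=
    { r := fun u u' => ∃ δ, k δ ∈ U ∧ ∃ v ∈ V, u' = k δ * u * v
      iseqv :=
        { refl := fun w => ⟨1, by rw [kone]; exact U.one_mem, 1, V.one_mem, by
            rw [kone, one_mul, mul_one]⟩
          symm := by
            rintro w w' ⟨δ, hδ, v, hv, rfl⟩
            refine ⟨δ⁻¹, by rw [kinv]; exact U.inv_mem hδ, v⁻¹, V.inv_mem hv, ?_⟩
            rw [kinv]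
            group
          trans := by
            rintro w w' w'' ⟨δ, hδ, v, hv, rfl⟩ ⟨δ', hδ', v', hv', rfl⟩
            refine ⟨δ' * δ, by rw [kmul]; exact U.mul_mem hδ' hδ, v * v', V.mul_mem hv hv', ?_⟩
            rw [kmul]
            group } }
  set s : Γ → Γ := fun u => Quotient.out (Quotient.mk st u) with hs
  set P : Γ → Δ → Prop := fun u δ => k δ ∈ U ∧ ∃ v ∈ V, u = k δ * s u * v with hP
  have hPex : ∀ u, ∃ δ, P u δ := fun u => Quotient.mk_out (s := st) u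
  have hsV : ∀ u, ∀ v ∈ V, s (u * v) = s u := by
    intro u v hv
    have : Quotient.mk st (u * v) = Quotient.mk st u :=
      Quotient.sound (Setoid.symm' _ ⟨1, by rw [kone]; exact U.one_mem, v, hv, by
        rw [kone, one_mul]⟩)
    simp only [hs, this]
  have hsk : ∀ u δ, k δ ∈ U → s (k δ * u) = s u := by
    intro u δ hδ
    have : Quotient.mk st (k δ * u) = Quotient.mk st u :=
      Quotient.sound (Setoid.symm' _ ⟨δ, hδ, 1, V.one_mem, by rw [mul_one]⟩)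
    simp only [hs, this]
  have hPV : ∀ u, ∀ v ∈ V, P (u * v) = P u := by
    intro u v hv
    funext δ
    apply propext
    constructor
    · rintro ⟨h1, v', hv', h2⟩
      refine ⟨h1, v' * v⁻¹, V.mul_mem hv' (V.inv_mem hv), ?_⟩
      rw [hsV u v hv] at h2
      calc u = (u * v) * v⁻¹ := by group
        _ = k δ * s u * v' * v⁻¹ := by rw [h2]
        _ = k δ * s u * (v' * v⁻¹) := by group
    · rintro ⟨h1, v', hv', h2⟩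
      refine ⟨h1, v' * v, V.mul_mem hv' hv, ?_⟩
      rw [hsV u v hv]
      calc u * v = (k δ * s u * v') * v := by rw [← h2]
        _ = k δ * s u * (v' * v) := by group
  set η : Γ → Δ := fun u => Classical.epsilon (P u) with hη
  have hηP : ∀ u, P u (η u) := fun u => Classical.epsilon_spec (hPex u)
  have hηU : ∀ u, k (η u) ∈ U := fun u => (hηP u).1
  have hηV : ∀ u, ∀ v ∈ V, η (u * v) = η u := fun u v hv => by simp only [hη, hPV u v hv]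
  have hηk : ∀ u δ, k δ ∈ U → ∃ κ, k κ ∈ V ∧ η (k δ * u) = δ * η u * κ := by
    intro u δ hδ
    obtain ⟨h1, v, hv, h2⟩ := hηP u
    obtain ⟨h1', v', hv', h2'⟩ := hηP (k δ * u)
    refine ⟨(δ * η u)⁻¹ * η (k δ * u), ?_, by group⟩
    rw [hsk u δ hδ] at h2'
    rw [kmul, kinv, kmul]
    have h3 : k (η (k δ * u)) = k δ * u * v'⁻¹ * (s u)⁻¹ := by
      rw [eq_mul_inv_iff_mul_eq, eq_mul_inv_iff_mul_eq]
      exact h2'.symm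
    have h4 : k δ * k (η u) = k δ * u * v⁻¹ * (s u)⁻¹ := by
      rw [eq_mul_inv_iff_mul_eq, eq_mul_inv_iff_mul_eq]
      have h6 : k δ * k (η u) * s u * v = k δ * (k (η u) * s u * v) := by group
      rw [h6, ← h2]
    rw [h3, h4]
    have h5 : (k δ * u * v⁻¹ * (s u)⁻¹)⁻¹ * (k δ * u * v'⁻¹ * (s u)⁻¹) =
        s u * (v * v'⁻¹) * (s u)⁻¹ := by group
    rw [h5]
    exact hVn.conj_mem _ (V.mul_mem hv (V.inv_mem hv')) _
  -- the homogeneous cocycle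
  set Φ : Γ → Γ → Γ → M := fun g₀ g₁ g₂ => F (g₀⁻¹ * g₁) (g₁⁻¹ * g₂) (x * g₀) with hΦ
  have hΦcoc : ∀ g₀ ∈ U, ∀ g₁ ∈ U, ∀ g₂ ∈ U, ∀ g₃ ∈ U,
      Φ g₁ g₂ g₃ - Φ g₀ g₂ g₃ + Φ g₀ g₁ g₃ - Φ g₀ g₁ g₂ = 0 := by
    intro g₀ h₀ g₁ h₁ g₂ h₂ g₃ h₃
    have h := hcoc (g₀⁻¹ * g₁) (U.mul_mem (U.inv_mem h₀) h₁) (g₁⁻¹ * g₂)
      (U.mul_mem (U.inv_mem h₁) h₂) (g₂⁻¹ * g₃) (U.mul_mem (U.inv_mem h₂) h₃) (x * g₀)
    have e1 : g₀⁻¹ * g₁ * (g₁⁻¹ * g₂) = g₀⁻¹ * g₂ := by group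
    have e2 : x * g₀ * (g₀⁻¹ * g₁) = x * g₁ := by group
    have e3 : g₁⁻¹ * g₂ * (g₂⁻¹ * g₃) = g₁⁻¹ * g₃ := by group
    rw [e1, e2, e3] at h
    simp only [hΦ]
    rw [← sub_eq_zero] at h
    rw [← neg_eq_zero, ← h]
    abel
  have hΦk : ∀ δ, k δ ∈ U → ∀ g₀ ∈ U, ∀ g₁ ∈ U, ∀ g₂ ∈ U,
      Φ (k δ * g₀) (k δ * g₁) (k δ * g₂) = ρ δ (Φ g₀ g₁ g₂) := by
    intro δ hδ g₀ h₀ g₁ h₁ g₂ h₂
    simp only [hΦ]
    rw [← heq _ (U.mul_mem (U.inv_mem h₀) h₁) _ (U.mul_mem (U.inv_mem h₁) h₂)]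
    have e1 : (k δ * g₀)⁻¹ * (k δ * g₁) = g₀⁻¹ * g₁ := by group
    have e2 : (k δ * g₁)⁻¹ * (k δ * g₂) = g₁⁻¹ * g₂ := by group
    have e3 : x * (k δ * g₀) = r δ * (x * g₀) := by
      simp only [hk]
      group
    rw [e1, e2, e3]
  have hΦV : ∀ g₀ ∈ U, ∀ g₁ ∈ U, ∀ g₂ ∈ U, ∀ v₀ ∈ V, ∀ v₁ ∈ V, ∀ v₂ ∈ V,
      Φ (g₀ * v₀) (g₁ * v₁) (g₂ * v₂) = Φ g₀ g₁ g₂ := by
    intro g₀ h₀ g₁ h₁ g₂ h₂ v₀ hv₀ v₁ hv₁ v₂ hv₂
    simp only [hΦ]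
    have e1 : (g₀ * v₀)⁻¹ * (g₁ * v₁) = g₀⁻¹ * g₁ * ((g₀⁻¹ * g₁)⁻¹ * v₀⁻¹ * (g₀⁻¹ * g₁) * v₁) := by
      group
    have e2 : (g₁ * v₁)⁻¹ * (g₂ * v₂) = g₁⁻¹ * g₂ * ((g₁⁻¹ * g₂)⁻¹ * v₁⁻¹ * (g₁⁻¹ * g₂) * v₂) := by
      group
    have m1 := U.mul_mem (U.inv_mem h₀) h₁
    have m2 := U.mul_mem (U.inv_mem h₁) h₂
    have n1 : (g₀⁻¹ * g₁)⁻¹ * v₀⁻¹ * (g₀⁻¹ * g₁) * v₁ ∈ V := by
      refine V.mul_mem ?_ hv₁
      have := hVn.conj_mem _ (V.inv_mem hv₀) (g₀⁻¹ * g₁)⁻¹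
      rwa [inv_inv] at this
    have n2 : (g₁⁻¹ * g₂)⁻¹ * v₁⁻¹ * (g₁⁻¹ * g₂) * v₂ ∈ V := by
      refine V.mul_mem ?_ hv₂
      have := hVn.conj_mem _ (V.inv_mem hv₁) (g₁⁻¹ * g₂)⁻¹
      rwa [inv_inv] at this
    rw [e1, e2, hsm _ m1 _ m2 _ n1 _ n2, ← mul_assoc x g₀ v₀, hsm' _ m1 _ m2 _ hv₀]
  -- the local cochain
  set b₀ : Δ → Δ → M := fun δ₀ δ₁ => ρ δ₀ (b (δ₀⁻¹ * δ₁)) with hb₀
  have hkm : ∀ {δ ε : Δ}, k δ ∈ U → k ε ∈ U → k (δ⁻¹ * ε) ∈ U := by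
    intro δ ε h1 h2
    rw [kmul, kinv]
    exact U.mul_mem (U.inv_mem h1) h2
  have hb₀d : ∀ δ₀ δ₁ δ₂, k δ₀ ∈ U → k δ₁ ∈ U → k δ₂ ∈ U →
      Φ (k δ₀) (k δ₁) (k δ₂) = b₀ δ₁ δ₂ - b₀ δ₀ δ₂ + b₀ δ₀ δ₁ := by
    intro δ₀ δ₁ δ₂ h₀ h₁ h₂
    have e1 : (k δ₀)⁻¹ * k δ₁ = k (δ₀⁻¹ * δ₁) := by rw [kmul, kinv]
    have e2 : (k δ₁)⁻¹ * k δ₂ = k (δ₁⁻¹ * δ₂) := by rw [kmul, kinv]
    have e3 : x * k δ₀ = r δ₀ * x := by
      simp only [hk]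
      group
    simp only [hΦ, hb₀]
    rw [e1, e2, e3, heq _ (hkm h₀ h₁) _ (hkm h₁ h₂), hb _ _ (hkm h₀ h₁) (hkm h₁ h₂), map_add,
      map_sub, ← Module.End.mul_apply, ← map_mul]
    have e4 : δ₀ * (δ₀⁻¹ * δ₁) = δ₁ := by group
    have e5 : δ₀⁻¹ * δ₁ * (δ₁⁻¹ * δ₂) = δ₀⁻¹ * δ₂ := by group
    rw [e4, e5]
  have hb₀k : ∀ δ δ₀ δ₁, k δ₀ ∈ U → k δ₁ ∈ U → b₀ (δ * δ₀) (δ * δ₁) = ρ δ (b₀ δ₀ δ₁) := by
    intro δ δ₀ δ₁ _ _
    simp only [hb₀]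
    rw [← Module.End.mul_apply, ← map_mul]
    congr 2
    group
  have hb₀V : ∀ δ₀ δ₁ κ₀ κ₁, k δ₀ ∈ U → k δ₁ ∈ U → k κ₀ ∈ V → k κ₁ ∈ V →
      b₀ (δ₀ * κ₀) (δ₁ * κ₁) = b₀ δ₀ δ₁ := by
    intro δ₀ δ₁ κ₀ κ₁ h₀ h₁ hκ₀ hκ₁
    simp only [hb₀]
    have e1 : (δ₀ * κ₀)⁻¹ * (δ₁ * κ₁) =
        (δ₀⁻¹ * δ₁) * ((δ₀⁻¹ * δ₁)⁻¹ * κ₀⁻¹ * (δ₀⁻¹ * δ₁) * κ₁) := by group
    have m1 : k ((δ₀⁻¹ * δ₁)⁻¹ * κ₀⁻¹ * (δ₀⁻¹ * δ₁) * κ₁) ∈ V := by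
      rw [kmul, kmul, kmul, kinv κ₀]
      refine V.mul_mem ?_ hκ₁
      have := hVn.conj_mem _ (V.inv_mem hκ₀) (k (δ₀⁻¹ * δ₁)⁻¹)
      rw [kinv (δ₀⁻¹ * δ₁), inv_inv] at this
      rwa [kinv (δ₀⁻¹ * δ₁)]
    rw [e1, hb1 _ _ (hkm h₀ h₁) m1, map_mul, Module.End.mul_apply, hb2 _ _ (hkm h₀ h₁) hκ₀]
  -- the solution
  refine ⟨fun g₀ g₁ => Φ (k (η g₀)) g₀ g₁ - Φ (k (η g₀)) (k (η g₁)) g₁ + b₀ (η g₀) (η g₁),
    fun δ hδ g₀ h₀ g₁ h₁ => ?_, fun g₀ h₀ g₁ h₁ v hv v' hv' => ?_,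
    fun g₀ h₀ g₁ h₁ g₂ h₂ => ?_⟩
  · obtain ⟨κ₀, hκ₀, e₀⟩ := hηk g₀ δ hδ
    obtain ⟨κ₁, hκ₁, e₁⟩ := hηk g₁ δ hδ
    change Φ (k (η (k δ * g₀))) (k δ * g₀) (k δ * g₁) -
      Φ (k (η (k δ * g₀))) (k (η (k δ * g₁))) (k δ * g₁) +
      b₀ (η (k δ * g₀)) (η (k δ * g₁)) = _
    rw [e₀, e₁]
    have u₀ := hηU g₀
    have u₁ := hηU g₁
    have q1 : Φ (k (δ * η g₀ * κ₀)) (k δ * g₀) (k δ * g₁) = ρ δ (Φ (k (η g₀)) g₀ g₁) := by
      rw [← hΦk δ hδ _ u₀ _ h₀ _ h₁]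
      have := hΦV (k (δ * η g₀)) (by rw [kmul]; exact U.mul_mem hδ u₀) (k δ * g₀)
        (U.mul_mem hδ h₀) (k δ * g₁) (U.mul_mem hδ h₁) (k κ₀) hκ₀ 1 V.one_mem 1 V.one_mem
      rw [mul_one, mul_one, ← kmul] at this
      rw [this, kmul δ]
    have q2 : Φ (k (δ * η g₀ * κ₀)) (k (δ * η g₁ * κ₁)) (k δ * g₁) =
        ρ δ (Φ (k (η g₀)) (k (η g₁)) g₁) := by
      rw [← hΦk δ hδ _ u₀ _ u₁ _ h₁]
      have := hΦV (k (δ * η g₀)) (by rw [kmul]; exact U.mul_mem hδ u₀) (k (δ * η g₁))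
        (by rw [kmul]; exact U.mul_mem hδ u₁) (k δ * g₁) (U.mul_mem hδ h₁) (k κ₀) hκ₀
        (k κ₁) hκ₁ 1 V.one_mem
      rw [mul_one, ← kmul, ← kmul] at this
      rw [this, kmul δ, kmul δ]
    have q3 : b₀ (δ * η g₀ * κ₀) (δ * η g₁ * κ₁) = ρ δ (b₀ (η g₀) (η g₁)) := by
      rw [hb₀V _ _ _ _ (by rw [kmul]; exact U.mul_mem hδ u₀)
        (by rw [kmul]; exact U.mul_mem hδ u₁) hκ₀ hκ₁, hb₀k δ _ _ u₀ u₁]
    rw [q1, q2, q3, ← map_sub, ← map_add]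
  · simp only [hηV g₀ v hv, hηV g₁ v' hv']
    have u₀ := hηU g₀
    have u₁ := hηU g₁
    have q1 := hΦV _ u₀ _ h₀ _ h₁ 1 V.one_mem _ hv _ hv'
    have q2 := hΦV _ u₀ _ u₁ _ h₁ 1 V.one_mem 1 V.one_mem _ hv'
    rw [mul_one] at q1
    rw [mul_one, mul_one] at q2
    rw [q1, q2]
  · have u₀ := hηU g₀
    have u₁ := hηU g₁
    have u₂ := hηU g₂
    change Φ g₀ g₁ g₂ = (Φ (k (η g₁)) g₁ g₂ - Φ (k (η g₁)) (k (η g₂)) g₂ + b₀ (η g₁) (η g₂)) -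
      (Φ (k (η g₀)) g₀ g₂ - Φ (k (η g₀)) (k (η g₂)) g₂ + b₀ (η g₀) (η g₂)) +
      (Φ (k (η g₀)) g₀ g₁ - Φ (k (η g₀)) (k (η g₁)) g₁ + b₀ (η g₀) (η g₁))
    have c1 := hΦcoc _ u₀ _ u₁ _ u₂ _ h₂
    have c2 := hΦcoc _ u₀ _ h₀ _ h₁ _ h₂
    have c3 := hΦcoc _ u₀ _ u₁ _ h₁ _ h₂
    have c4 := hb₀d (η g₀) (η g₁) (η g₂) u₀ u₁ u₂
    rw [c4] at c1
    generalize Φ (k (η g₀)) g₀ g₂ = y1 at *
    generalize Φ (k (η g₀)) g₀ g₁ = y2 at *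
    generalize Φ (k (η g₁)) g₁ g₂ = y3 at *
    generalize Φ (k (η g₁)) (k (η g₂)) g₂ = y4 at *
    generalize Φ (k (η g₀)) (k (η g₂)) g₂ = y5 at *
    generalize Φ (k (η g₀)) (k (η g₁)) g₁ = y6 at *
    generalize Φ (k (η g₀)) (k (η g₁)) g₂ = y7 at *
    generalize Φ (k (η g₀)) g₁ g₂ = y8 at *
    generalize Φ g₀ g₁ g₂ = y9 at *
    generalize b₀ (η g₁) (η g₂) = z1 at *
    generalize b₀ (η g₀) (η g₂) = z2 at *
    generalize b₀ (η g₀) (η g₁) = z3 at *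
    have e : y9 - (y3 - y4 + z1 - (y1 - y5 + z2) + (y2 - y6 + z3)) =
      (y9 - y8 + y1 - y2) - (y3 - y8 + y7 - y6) + (y4 - y5 + y7 - (z1 - z2 + z3)) := by abel
    rw [← sub_eq_zero, e, c1, c2, c3]
    abel

/-- **Shapiro in degree two.** -/
theorem shapiro_two (hVn : V.Normal) (F : Γ → Γ → Γ → M)
    (heq : ∀ g ∈ U, ∀ h ∈ U, ∀ δ w, F g h (r δ * w) = ρ δ (F g h w))
    (hcoc : ∀ g ∈ U, ∀ h ∈ U, ∀ j ∈ U, ∀ w,
      F (g * h) j w + F g h w = F h j (w * g) + F g (h * j) w)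
    (hsm : ∀ g ∈ U, ∀ h ∈ U, ∀ v ∈ V, ∀ v' ∈ V, ∀ w, F (g * v) (h * v') w = F g h w)
    (hsm' : ∀ g ∈ U, ∀ h ∈ U, ∀ v ∈ V, ∀ w, F g h (w * v) = F g h w) (hVU : V ≤ U)
    (b : Γ → Δ → M)
    (hb1 : ∀ x δ κ, x⁻¹ * r δ * x ∈ U → x⁻¹ * r κ * x ∈ V → b x (δ * κ) = b x δ)
    (hb2 : ∀ x δ κ, x⁻¹ * r δ * x ∈ U → x⁻¹ * r κ * x ∈ V → ρ κ (b x δ) = b x δ)
    (hb : ∀ x δ ε, x⁻¹ * r δ * x ∈ U → x⁻¹ * r ε * x ∈ U →
      F (x⁻¹ * r δ * x) (x⁻¹ * r ε * x) x = ρ δ (b x ε) - b x (δ * ε) + b x δ) :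
    ∃ A : Γ → Γ → M,
      (∀ g ∈ U, ∀ δ w, A g (r δ * w) = ρ δ (A g w)) ∧
      (∀ g ∈ U, ∀ v ∈ V, ∀ w, A (g * v) w = A g w) ∧
      (∀ g ∈ U, ∀ v ∈ V, ∀ w, A g (w * v) = A g w) ∧
      (∀ g ∈ U, ∀ h ∈ U, ∀ w, F g h w = A h (w * g) - A (g * h) w + A g w) := by
  obtain ⟨X, d, u, hu, hw, hX⟩ := exists_dcRep r U
  choose A hA1 hA2 hA3 using fun x => shapiro_two_aux hVn F heq hcoc hsm hsm' hVU x (b x)
    (hb1 x) (hb2 x) (hb x)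
  set B : Γ → Γ → M := fun g w => ρ (d w) (A (X w) (u w) (u w * g)) with hB
  have key : ∀ g ∈ U, ∀ w (δ : Δ) (v : Γ), v ∈ U → w = r δ * X w * v →
      B g w = ρ δ (A (X w) v (v * g)) := by
    intro g hg w δ v hv hwv
    set ε := (d w)⁻¹ * δ with hε
    have h1 : X w * u w = r ε * X w * v := by
      have h2 : r (d w) * (X w * u w) = r (d w) * (r ε * X w * v) := by
        rw [hε, map_mul, map_inv]
        rw [← mul_assoc, ← hw w]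
        conv_lhs => rw [hwv]
        group
      exact mul_left_cancel h2
    have h3 : u w = ((X w)⁻¹ * r ε * X w) * v := by
      have : u w = (X w)⁻¹ * (X w * u w) := by group
      rw [this, h1]
      group
    have h4 : (X w)⁻¹ * r ε * X w ∈ U := by
      have h5 : (X w)⁻¹ * r ε * X w = u w * v⁻¹ := by rw [h3]; group
      rw [h5]
      exact U.mul_mem (hu w) (U.inv_mem hv)
    have h7 : d w * ε = δ := by rw [hε]; group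
    simp only [hB]
    rw [h3, mul_assoc _ v g, hA1 (X w) ε h4 v hv _ (U.mul_mem hv hg), ← Module.End.mul_apply,
      ← map_mul, h7]
  have hXg : ∀ g ∈ U, ∀ w, X (w * g) = X w := by
    intro g hg w
    have := hX w 1 g hg
    rwa [map_one, one_mul] at this
  have hmv : ∀ g ∈ U, ∀ w, B g w = ρ (d w) (A (X w) (u w) (u w * g)) := fun g _ w => rfl
  have hdec : ∀ g w, g ∈ U → w * g = r (d w) * X (w * g) * (u w * g) := by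
    intro g w hg
    rw [hXg g hg w]
    conv_lhs => rw [hw w]
    group
  refine ⟨B, fun g hg δ w => ?_, fun g hg v hv w => ?_, fun g hg v hv w => ?_,
    fun g hg h hh w => ?_⟩
  · have hXw : X (r δ * w) = X w := by
      have := hX w δ 1 U.one_mem
      rwa [mul_one] at this
    have h1 := key g hg (r δ * w) (δ * d w) (u w) (hu w) (by
      rw [hXw, map_mul]
      conv_lhs => rw [hw w]
      group)
    rw [h1, hXw, map_mul, Module.End.mul_apply]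
  · simp only [hB]
    have := hA2 (X w) (u w) (hu w) (u w * g) (U.mul_mem (hu w) hg) 1 V.one_mem v hv
    rw [mul_one] at this
    rw [← mul_assoc, this]
  · have h1 := key g hg (w * v) (d w) (u w * v) (U.mul_mem (hu w) (hVU hv)) (hdec v w (hVU hv))
    have h2 : u w * v * g = u w * g * (g⁻¹ * v * g) := by group
    have h3 : g⁻¹ * v * g ∈ V := by
      have := hVn.conj_mem _ hv g⁻¹
      rwa [inv_inv] at this
    rw [h1, hXg v (hVU hv) w, h2, hA2 (X w) _ (hu w) _ (U.mul_mem (hu w) hg) _ hv _ h3]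
  · have h1 := key h hh (w * g) (d w) (u w * g) (U.mul_mem (hu w) hg) (hdec g w hg)
    rw [h1, hXg g hg w, hmv _ (U.mul_mem hg hh), hmv _ hg]
    have h2 := hA3 (X w) (u w) (hu w) (u w * g) (U.mul_mem (hu w) hg) (u w * g * h)
      (U.mul_mem (U.mul_mem (hu w) hg) hh)
    have e1 : (u w)⁻¹ * (u w * g) = g := by group
    have e2 : (u w * g)⁻¹ * (u w * g * h) = h := by group
    rw [e1, e2] at h2
    have h3 : F g h w = ρ (d w) (F g h (X w * u w)) := by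
      rw [← heq g hg h hh, ← mul_assoc, ← hw w]
    rw [h3, h2, ← mul_assoc (u w) g h, ← map_sub, ← map_add]

end Two

end Fermat.Agent.GlobalCFT
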