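import Fermat.Agent.GlobalCFT.Cyclic

/-!
# The `q`-index of groups of `S`-units
-/

set_option autoImplicit false

namespace Fermat.Agent.GlobalCFT

open Subgroup NumberField IsDedekindDomain

section general

variable {A C : Type*} [CommGroup A] [CommGroup C]

theorem Q_finite {φ : A →* A} {H : Subgroup A} (hH : H.map φ ≤ H) (hfin : Finite H) :
    QF φ H ∧ Q φ H = 1 := by
  have e1 := card_mul_relIndex hH
  have e2 := card_eq_map_mul φ H
  have h0 : Nat.card H ≠ 0 := Nat.card_pos.ne'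
  have h1 : Nat.card ↥(H.map φ) ≠ 0 := fun h => h0 (by rw [e2, h, zero_mul])
  have h2 : (H.map φ).relIndex H ≠ 0 := fun h => h0 (by rw [← e1, h, mul_zero])
  have h3 : Nat.card ↥(H ⊓ φ.ker) ≠ 0 := fun h => h0 (by rw [e2, h, mul_zero])
  have h4 : (H.map φ).relIndex H = Nat.card ↥(H ⊓ φ.ker) :=
    Nat.eq_of_mul_eq_mul_left (Nat.pos_of_ne_zero h1) (e1.trans e2)
  refine ⟨⟨hH, h2, h3⟩, ?_⟩
  rw [Q, h4]
  exact div_self (by exact_mod_cast h3)

/-- Invariance under injective homomorphisms. -/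
theorem Q_injective {φ : A →* A} {ψ : C →* C} (h : A →* C) (hc : ∀ x, h (φ x) = ψ (h x))
    (hi : Function.Injective h) {H : Subgroup A} (hH : H.map φ ≤ H) (h2 : QF ψ (H.map h)) :
    QF φ H ∧ Q φ H = Q ψ (H.map h) := by
  have hk : H ⊓ h.ker = ⊥ := by rw [(MonoidHom.ker_eq_bot_iff h).mpr hi, inf_bot_eq]
  have h1 : QF φ (H ⊓ h.ker) ∧ Q φ (H ⊓ h.ker) = 1 := by
    rw [hk]
    refine Q_finite ?_ inferInstance
    rw [Subgroup.map_bot]
  have := Q_exact h hc hH h1.1 h2
  rw [h1.2, one_mul] at this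
  exact this

theorem Q_injective' {φ : A →* A} {ψ : C →* C} (h : A →* C) (hc : ∀ x, h (φ x) = ψ (h x))
    (hi : Function.Injective h) {H : Subgroup A} (h2 : QF φ H) :
    QF ψ (H.map h) ∧ Q φ H = Q ψ (H.map h) := by
  have hm : (H.map h).map ψ = (H.map φ).map h := by
    rw [Subgroup.map_map, Subgroup.map_map]
    exact (map_congr' fun x _ => hc x).symm
  have hle : (H.map h).map ψ ≤ H.map h := by rw [hm]; exact Subgroup.map_mono h2.map_le
  have h3 : ((H.map h).map ψ).relIndex (H.map h) = (H.map φ).relIndex H := by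
    rw [hm, relIndex_map_map_of_injective _ _ hi]
  have h4 : H.map h ⊓ ψ.ker = (H ⊓ φ.ker).map h := by
    ext y
    constructor
    · rintro ⟨⟨x, hx, rfl⟩, hy⟩
      refine ⟨x, ⟨hx, ?_⟩, rfl⟩
      apply hi
      rw [hc, map_one]
      exact hy
    · rintro ⟨x, ⟨hx, hx2⟩, rfl⟩
      refine ⟨⟨x, hx, rfl⟩, ?_⟩
      change ψ (h x) = 1
      have hx2' : φ x = 1 := hx2
      rw [← hc, hx2', map_one]
  have h5 : Nat.card ↥(H.map h ⊓ ψ.ker) = Nat.card ↥(H ⊓ φ.ker) := by
    rw [h4]
    exact Nat.card_congr (Equiv.ofBijective _ (by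
      exact (Subgroup.equivMapOfInjective (H ⊓ φ.ker) h hi).bijective)).symm
  refine ⟨⟨hle, ?_, ?_⟩, ?_⟩
  · rw [h3]; exact h2.idx
  · rw [h5]; exact h2.fin
  · rw [Q, Q, h3, h5]

variable {ι : Type*} [Fintype ι]

/-- Reduction modulo `n`. -/
noncomputable def redn (ι : Type*) (n : ℕ) :
    (ι → Multiplicative ℤ) →* Multiplicative (ι → ZMod n) where
  toFun f := Multiplicative.ofAdd fun i => ((f i).toAdd : ZMod n)
  map_one' := by ext; simp
  map_mul' f g := by
    rw [← ofAdd_add]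
    congr 1
    ext i
    simp

omit [Fintype ι] in
lemma redn_surjective {n : ℕ} : Function.Surjective (redn ι n) := by
  intro f
  refine ⟨fun i => Multiplicative.ofAdd ((Multiplicative.toAdd f i).cast : ℤ), ?_⟩
  change Multiplicative.ofAdd _ = f
  rw [← ofAdd_toAdd f]
  congr 1
  ext i
  simp

omit [Fintype ι] in
lemma redn_ker {n : ℕ} : (redn ι n).ker = (⊤ : Subgroup (ι → Multiplicative ℤ)).map (pw _ n) := by
  ext f
  constructor
  · intro hf
    have hf' : Multiplicative.ofAdd (fun i => ((f i).toAdd : ZMod n)) = 1 := hf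
    have hf2 : ∀ i, (((f i).toAdd : ℤ) : ZMod n) = 0 := fun i =>
      congrFun (congrArg Multiplicative.toAdd hf') i
    have hf3 : ∀ i, ∃ c : ℤ, (f i).toAdd = n * c := fun i =>
      (ZMod.intCast_zmod_eq_zero_iff_dvd _ n).mp (hf2 i)
    choose c hc using hf3
    refine ⟨fun i => Multiplicative.ofAdd (c i), trivial, ?_⟩
    ext i
    change (Multiplicative.ofAdd (c i) ^ n).toAdd = (f i).toAdd
    rw [hc, toAdd_pow, toAdd_ofAdd, nsmul_eq_mul]
  · rintro ⟨g, -, rfl⟩
    change Multiplicative.ofAdd (fun i => (((g i ^ n).toAdd : ℤ) : ZMod n)) = 1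
    rw [← ofAdd_zero]
    congr 1
    ext i
    simp

/-- `ρ(ℤ^r) = n^r`. -/
theorem Q_free {n : ℕ} (hn : n ≠ 0) : QF (pw (ι → Multiplicative ℤ) n) ⊤ ∧
    Q (pw (ι → Multiplicative ℤ) n) ⊤ = (n : ℚ) ^ Fintype.card ι := by
  classical
  have hne : NeZero n := ⟨hn⟩
  have h1 : ((⊤ : Subgroup (ι → Multiplicative ℤ)).map (pw _ n)).relIndex ⊤ =
      n ^ Fintype.card ι := by
    rw [relIndex_top_right, ← redn_ker, index_ker,
      MonoidHom.range_eq_top.mpr redn_surjective]
    have : Nat.card (⊤ : Subgroup (Multiplicative (ι → ZMod n))) = Nat.card (ι → ZMod n) := by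
      rw [Subgroup.card_top]; rfl
    rw [this, Nat.card_eq_fintype_card, Fintype.card_fun, ZMod.card]
  have h2 : (⊤ : Subgroup (ι → Multiplicative ℤ)) ⊓ (pw _ n).ker = ⊥ := by
    rw [eq_bot_iff]
    rintro f ⟨-, hf⟩
    have hf' : f ^ n = 1 := hf
    rw [Subgroup.mem_bot]
    ext i
    have h3 := congrFun hf' i
    have h4 : n • (f i).toAdd = 0 := by
      rw [← toAdd_pow]
      exact congrArg Multiplicative.toAdd h3
    rcases smul_eq_zero.mp h4 with h5 | h5
    · exact absurd h5 hn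
    · exact h5
  refine ⟨⟨le_top, ?_, ?_⟩, ?_⟩
  · rw [h1]; exact pow_ne_zero _ hn
  · rw [h2, Subgroup.card_bot]; exact one_ne_zero
  · rw [Q, h1, h2, Subgroup.card_bot]
    push_cast
    rw [div_one]

end general

section numberfield

variable (K : Type*) [Field K] [NumberField K]

/-- the logarithmic embedding as a map to the unit lattice -/
noncomputable def uL : Additive (𝓞 K)ˣ →+ Units.unitLattice K where
  toFun x := ⟨Units.logEmbedding K x, Submodule.mem_map_of_mem trivial⟩
  map_zero' := Subtype.ext (map_zero (Units.logEmbedding K))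
  map_add' x y := Subtype.ext (map_add (Units.logEmbedding K) x y)

/-- coordinates of a unit -/
noncomputable def unitCoord : (𝓞 K)ˣ →* (Fin (Units.rank K) → Multiplicative ℤ) where
  toFun x := fun i => Multiplicative.ofAdd
    ((Units.basisUnitLattice K).equivFun (uL K (Additive.ofMul x)) i)
  map_one' := by
    ext i
    rw [ofMul_one, map_zero, map_zero]
    rfl
  map_mul' x y := by
    ext i
    rw [ofMul_mul, map_add, map_add]
    rfl

lemma unitCoord_surjective : Function.Surjective (unitCoord K) := by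
  intro f
  obtain ⟨y, hy⟩ := (Units.basisUnitLattice K).equivFun.surjective (fun i => (f i).toAdd)
  obtain ⟨x, -, hx⟩ := y.2
  have hx' : uL K x = y := Subtype.ext hx
  refine ⟨Additive.toMul x, ?_⟩
  ext i
  change ((Units.basisUnitLattice K).equivFun (uL K x) i) = _
  rw [hx', hy]

lemma unitCoord_ker : (unitCoord K).ker = Units.torsion K := by
  ext x
  rw [← Units.dirichletUnitTheorem.logEmbedding_eq_zero_iff]
  constructor
  · intro hx
    have h1 : (Units.basisUnitLattice K).equivFun (uL K (Additive.ofMul x)) = 0 := by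
      ext i
      exact congrArg Multiplicative.toAdd (congrFun hx i)
    rw [LinearEquiv.map_eq_zero_iff] at h1
    exact congrArg Subtype.val h1
  · intro hx
    have h1 : uL K (Additive.ofMul x) = 0 := Subtype.ext hx
    ext i
    change ((Units.basisUnitLattice K).equivFun (uL K (Additive.ofMul x)) i) = _
    rw [h1, map_zero]
    rfl

theorem Q_units {n : ℕ} (hn : n ≠ 0) : QF (pw (𝓞 K)ˣ n) ⊤ ∧
    Q (pw (𝓞 K)ˣ n) ⊤ = (n : ℚ) ^ Units.rank K := by
  have h1 := Q_free (ι := Fin (Units.rank K)) hn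
  have h2 : (⊤ : Subgroup (𝓞 K)ˣ).map (unitCoord K) = ⊤ := by
    rw [← MonoidHom.range_eq_map]
    exact MonoidHom.range_eq_top.mpr (unitCoord_surjective K)
  have h3 : QF (pw (𝓞 K)ˣ n) (⊤ ⊓ (unitCoord K).ker) ∧
      Q (pw (𝓞 K)ˣ n) (⊤ ⊓ (unitCoord K).ker) = 1 := by
    rw [top_inf_eq, unitCoord_ker]
    refine Q_finite (pw_map_le n _) ?_
    infer_instance
  have h4 := Q_exact (φ := pw (𝓞 K)ˣ n) (ψ := pw _ n) (unitCoord K) (fun x => map_pow _ _ _)
    (H := ⊤) le_top h3.1 (by rw [h2]; exact h1.1)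
  rw [h3.2, one_mul, h2, h1.2, Fintype.card_fin] at h4
  exact h4

/-- Units of the ring of integers inside `Kˣ`. -/
noncomputable def unitGrp : Subgroup Kˣ := (⊤ : Subgroup (𝓞 K)ˣ).map (Units.map (algebraMap (𝓞 K) K : 𝓞 K →* K))

theorem Q_unitGrp {n : ℕ} (hn : n ≠ 0) : QF (pw Kˣ n) (unitGrp K) ∧
    Q (pw Kˣ n) (unitGrp K) = (n : ℚ) ^ Units.rank K := by
  obtain ⟨h1, h2⟩ := Q_units K hn
  have h3 := Q_injective' (ψ := pw Kˣ n) (Units.map (algebraMap (𝓞 K) K : 𝓞 K →* K))
    (fun x => map_pow _ _ _) (Units.map_injective (IsFractionRing.injective (𝓞 K) K)) h1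
  rw [h2] at h3
  exact ⟨h3.1, h3.2.symm⟩

variable {K}

/-- An element all of whose valuations are trivial is a unit. -/
lemma mem_unitGrp_iff {x : Kˣ} : x ∈ unitGrp K ↔
    ∀ v : HeightOneSpectrum (𝓞 K), v.valuation K (x : K) = 1 := by
  constructor
  · rintro ⟨u, -, rfl⟩ v
    have h1 := v.valuation_le_one (K := K) (u : 𝓞 K)
    have h2 := v.valuation_le_one (K := K) ((u⁻¹ : (𝓞 K)ˣ) : 𝓞 K)
    refine le_antisymm h1 ?_
    by_contra hlt
    rw [not_le] at hlt
    have h3 : v.valuation K (algebraMap (𝓞 K) K (u : 𝓞 K)) *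
        v.valuation K (algebraMap (𝓞 K) K ((u⁻¹ : (𝓞 K)ˣ) : 𝓞 K)) = 1 := by
      rw [← map_mul, ← map_mul, Units.mul_inv, map_one, map_one]
    have h4 : v.valuation K (algebraMap (𝓞 K) K (u : 𝓞 K)) *
        v.valuation K (algebraMap (𝓞 K) K ((u⁻¹ : (𝓞 K)ˣ) : 𝓞 K)) < 1 :=
      (mul_le_of_le_one_right' h2).trans_lt hlt
    exact absurd h3 h4.ne
  · intro h
    obtain ⟨y, hy⟩ := HeightOneSpectrum.mem_integers_of_valuation_le_one K (x : K)
      (fun v => (h v).le)
    obtain ⟨z, hz⟩ := HeightOneSpectrum.mem_integers_of_valuation_le_one K ((x⁻¹ : Kˣ) : K)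
      (fun v => by rw [Units.val_inv_eq_inv_val, map_inv₀, h v, inv_one])
    have hyz : y * z = 1 := by
      apply IsFractionRing.injective (𝓞 K) K
      rw [map_mul, hy, hz, map_one, Units.mul_inv]
    refine ⟨⟨y, z, hyz, by rw [mul_comm, hyz]⟩, trivial, Units.ext hy⟩

variable (T : Finset (HeightOneSpectrum (𝓞 K)))

/-- The valuations at `T`. -/
noncomputable def valT : Kˣ →* (T → Multiplicative ℤ) :=
  MonoidHom.pi fun v => v.1.valuationOfNeZero

lemma valT_apply (x : Kˣ) (v : T) : ((valT T x v : Multiplicative ℤ) : WithZero (Multiplicative ℤ)) =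
    v.1.valuation K (x : K) := HeightOneSpectrum.valuationOfNeZero_eq v.1 x

/-- A power of a prime ideal is principal. -/
lemma exists_gen (v : HeightOneSpectrum (𝓞 K)) : ∃ x : Kˣ,
    (∀ w : HeightOneSpectrum (𝓞 K), w ≠ v → w.valuation K (x : K) = 1) ∧
    v.valuation K (x : K) = ((Multiplicative.ofAdd (-(classNumber K : ℤ)) : Multiplicative ℤ) :
      WithZero (Multiplicative ℤ)) := by
  have hI : v.asIdeal ∈ nonZeroDivisors (Ideal (𝓞 K)) := mem_nonZeroDivisors_of_ne_zero v.ne_bot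
  have h1 : (ClassGroup.mk0 ⟨v.asIdeal, hI⟩) ^ classNumber K = 1 := by
    rw [classNumber]
    exact pow_card_eq_one
  rw [← map_pow, ClassGroup.mk0_eq_one_iff] at h1
  obtain ⟨a, ha⟩ := h1
  have ha' : v.asIdeal ^ classNumber K = Ideal.span {a} := ha
  have ha0 : a ≠ 0 := by
    rintro rfl
    rw [Ideal.span_singleton_eq_bot.mpr rfl] at ha'
    exact pow_ne_zero _ v.ne_bot ha'
  have ha0' : (algebraMap (𝓞 K) K a) ≠ 0 := by
    rw [Ne, map_eq_zero_iff _ (IsFractionRing.injective (𝓞 K) K)]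
    exact ha0
  refine ⟨Units.mk0 _ ha0', ?_, ?_⟩
  · intro w hw
    rw [Units.val_mk0, HeightOneSpectrum.valuation_of_algebraMap]
    by_contra hne
    have hlt : w.intValuation a < 1 := lt_of_le_of_ne (w.intValuation_le_one a) hne
    rw [HeightOneSpectrum.intValuation_lt_one_iff_dvd, ← ha'] at hlt
    have h2 : w.asIdeal ∣ v.asIdeal := (w.prime).dvd_of_dvd_pow hlt
    apply hw
    have h3 : v.asIdeal ≤ w.asIdeal := Ideal.le_of_dvd h2
    have h4 := (v.isMaximal.eq_of_le w.isPrime.ne_top h3)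
    exact HeightOneSpectrum.ext h4.symm
  · rw [Units.val_mk0, HeightOneSpectrum.valuation_of_algebraMap]
    rw [HeightOneSpectrum.intValuation_eq_exp_neg_multiplicity _ ha0, ← ha',
      multiplicity_pow_self v.ne_bot (fun h => v.isPrime.ne_top (Ideal.isUnit_iff.mp h))]
    rfl

/-- The group of `T`-units. -/
noncomputable def ET : Subgroup Kˣ := (T : Set (HeightOneSpectrum (𝓞 K))).unit K

lemma mem_ET {x : Kˣ} : x ∈ ET T ↔ ∀ v ∉ T, v.valuation K (x : K) = 1 := by
  constructor
  · intro h v hv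
    exact h v (by exact_mod_cast hv)
  · intro h v hv
    exact h v (by exact_mod_cast hv)

lemma ET_inf_ker : ET T ⊓ (valT T).ker = unitGrp K := by
  ext x
  rw [mem_unitGrp_iff]
  constructor
  · rintro ⟨h1, h2⟩ v
    by_cases hv : v ∈ T
    · have h3 : valT T x = 1 := h2
      have h4 := valT_apply T x ⟨v, hv⟩
      rw [h3] at h4
      exact h4.symm
    · exact (mem_ET T).mp h1 v hv
  · intro h
    refine ⟨(mem_ET T).mpr fun v _ => h v, ?_⟩
    change valT T x = 1
    ext v
    apply congrArg Multiplicative.toAdd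
    rw [← WithZero.coe_inj, valT_apply, h]
    rfl

lemma map_ET_index : ((ET T).map (valT T)).relIndex ⊤ ≠ 0 := by
  classical
  have hh : classNumber K ≠ 0 := Fintype.card_ne_zero
  have hle : (⊤ : Subgroup (T → Multiplicative ℤ)).map (pw _ (classNumber K)) ≤
      (ET T).map (valT T) := by
    rintro _ ⟨f, -, rfl⟩
    choose x hx1 hx2 using fun v : HeightOneSpectrum (𝓞 K) => exists_gen (K := K) v
    refine ⟨∏ v : T, (x v.1) ^ (-(f v).toAdd), ?_, ?_⟩
    · refine Subgroup.prod_mem _ fun v _ => Subgroup.zpow_mem _ ((mem_ET T).mpr ?_) _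
      intro w hw
      exact hx1 v.1 w (by rintro rfl; exact hw v.2)
    · rw [map_prod]
      ext w
      have h1 : ∀ v : T, (valT T (x v.1 ^ (-(f v).toAdd)) w) =
          if v = w then (f w) ^ classNumber K else 1 := by
        intro v
        rw [map_zpow]
        change (valT T (x v.1) w) ^ (-(f v).toAdd) = _
        split_ifs with h
        · subst h
          have h2 : valT T (x v.1) v = Multiplicative.ofAdd (-(classNumber K : ℤ)) := by
            rw [← WithZero.coe_inj, valT_apply, hx2]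
          rw [h2]
          apply Multiplicative.toAdd.injective
          rw [toAdd_zpow, toAdd_ofAdd, toAdd_pow, smul_eq_mul, nsmul_eq_mul]
          ring
        · have h2 : valT T (x v.1) w = 1 := by
            rw [← WithZero.coe_inj, valT_apply, hx1 v.1 w.1 (fun h3 => h (Subtype.ext h3).symm)]
            rfl
          rw [h2, one_zpow]
      rw [Finset.prod_apply]
      rw [Finset.prod_congr rfl fun v _ => h1 v, Finset.prod_ite_eq']
      simp
  intro h0
  have h1 := (Q_free (ι := T) hh).1.idx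
  exact h1 (relIndex_eq_zero_of_le_left hle h0)

/-- **The `q`-index of the group of `T`-units.** -/
theorem Q_ET {n : ℕ} (hn : n ≠ 0) : QF (pw Kˣ n) (ET T) ∧
    Q (pw Kˣ n) (ET T) = (n : ℚ) ^ (Units.rank K + T.card) := by
  classical
  have h1 := Q_unitGrp K hn
  have h2 := Q_free (ι := T) hn
  have h3 := Q_fin_index (le_top : (ET T).map (valT T) ≤ ⊤) (map_ET_index T) h2.1
    (pw_map_le n _)
  have h4 := Q_exact (φ := pw Kˣ n) (ψ := pw _ n) (valT T) (fun x => map_pow _ _ _)
    (pw_map_le n (ET T)) (by rw [ET_inf_ker]; exact h1.1) h3.1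
  rw [ET_inf_ker, h1.2, h3.2, h2.2, Fintype.card_coe, ← pow_add] at h4
  exact h4

end numberfield

end Fermat.Agent.GlobalCFT
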